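/-
Fermat/Agent/T1B/Ker85/KerPic.lean (helper85) -- programme T1B (row 38), brick F8' slice S6 KER, part 2a:
the kernel statement (K) at the `PicX` level.

`y ∈ J⁰(L)` (helper3's `RedN3.J0L`) with `y^p = 1` whose reduction `redL y ∈ Pic X_κ` restricts
trivially to the two components `X`, `Y` of the special fibre lies in `J¹(L)` (`RedN3.J1L`):
`redL y` is a `p`-torsion class in the torus kernel of `Pic X_κ → Pic X × Pic Y`, which has no
`p`-torsion (`Torus85.eq_one_of_pow_eq_one_of_bc`, `κ` of characteristic `p` with `p`-th roots).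
-/
import Mathlib
import Fermat.Agent.T1B.RedN3.Shell
import Fermat.Agent.T1B.Torus85.Bridge

set_option autoImplicit false
set_option linter.unusedSectionVars false

open TensorProduct

namespace Fermat.Agent.T1B.Ker85

open Fermat.Agent.Jac Fermat.Agent.Jac.JGroup85Pic Fermat.Agent.Jac.BaseChange75
open Fermat.Agent.T1.RedIface75 Fermat.Agent.T1B.RedN3
open scoped Fermat.Agent.Jac.BaseChange75

universe u

variable {W B0 B1 B01 : Type u} [CommRing W] [CommRing B0] [CommRing B1] [CommRing B01]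
  [Algebra W B0] [Algebra W B1] [Algebra W B01] [Algebra B0 B01] [Algebra B1 B01]
  [IsScalarTower W B0 B01] [IsScalarTower W B1 B01]
  {c0 : TwoChart W B0 B1 B01}
  {O : Type u} [CommRing O] [IsDomain O] [IsDiscreteValuationRing O] [Algebra W O]
  {L : Type u} [CommRing L] [Algebra W L] [Algebra O L] [IsScalarTower W O L]
  {P00 : Subgroup (PicX c0 O)}

variable
  -- the component `X` of the special fibre
  {X0 X1 X01 : Type u} [CommRing X0] [CommRing X1] [CommRing X01]
  [Algebra (IsLocalRing.ResidueField O) X0] [Algebra (IsLocalRing.ResidueField O) X1] [Algebra (IsLocalRing.ResidueField O) X01] [Algebra X0 X01] [Algebra X1 X01]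
  [IsScalarTower (IsLocalRing.ResidueField O) X0 X01] [IsScalarTower (IsLocalRing.ResidueField O) X1 X01]
  [Algebra ((IsLocalRing.ResidueField O) ⊗[W] B0) X0] [Algebra ((IsLocalRing.ResidueField O) ⊗[W] B1) X1] [Algebra ((IsLocalRing.ResidueField O) ⊗[W] B01) X01]
  [IsScalarTower (IsLocalRing.ResidueField O) ((IsLocalRing.ResidueField O) ⊗[W] B0) X0] [IsScalarTower (IsLocalRing.ResidueField O) ((IsLocalRing.ResidueField O) ⊗[W] B1) X1]
  -- the component `Y`
  {Y0 Y1 Y01 : Type u} [CommRing Y0] [CommRing Y1] [CommRing Y01]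
  [Algebra (IsLocalRing.ResidueField O) Y0] [Algebra (IsLocalRing.ResidueField O) Y1] [Algebra (IsLocalRing.ResidueField O) Y01] [Algebra Y0 Y01] [Algebra Y1 Y01]
  [IsScalarTower (IsLocalRing.ResidueField O) Y0 Y01] [IsScalarTower (IsLocalRing.ResidueField O) Y1 Y01]
  [Algebra ((IsLocalRing.ResidueField O) ⊗[W] B0) Y0] [Algebra ((IsLocalRing.ResidueField O) ⊗[W] B1) Y1] [Algebra ((IsLocalRing.ResidueField O) ⊗[W] B01) Y01]
  [IsScalarTower (IsLocalRing.ResidueField O) ((IsLocalRing.ResidueField O) ⊗[W] B0) Y0] [IsScalarTower (IsLocalRing.ResidueField O) ((IsLocalRing.ResidueField O) ⊗[W] B1) Y1]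

/-- **(K), `PicX` form.**  A `p`-torsion class of `J⁰(L)` whose reduction is trivial on both
components of the special fibre lies in `J¹(L)`. -/
theorem mem_J1L_of_pow_eq_one (hinj : ExtInjective00 c0 O L P00)
    (p : ℕ) [Fact p.Prime] [CharP (IsLocalRing.ResidueField O) p] (hroot : ∀ d : (IsLocalRing.ResidueField O), ∃ δ : (IsLocalRing.ResidueField O), δ ^ p = d)
    (cX : TwoChart (IsLocalRing.ResidueField O) X0 X1 X01) (cY : TwoChart (IsLocalRing.ResidueField O) Y0 Y1 Y01)
    (hX0 : (algebraMap X0 X01).comp (algebraMap ((IsLocalRing.ResidueField O) ⊗[W] B0) X0) =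
      (algebraMap ((IsLocalRing.ResidueField O) ⊗[W] B01) X01).comp (algebraMap ((IsLocalRing.ResidueField O) ⊗[W] B0) ((IsLocalRing.ResidueField O) ⊗[W] B01)))
    (hX1 : (algebraMap X1 X01).comp (algebraMap ((IsLocalRing.ResidueField O) ⊗[W] B1) X1) =
      (algebraMap ((IsLocalRing.ResidueField O) ⊗[W] B01) X01).comp (algebraMap ((IsLocalRing.ResidueField O) ⊗[W] B1) ((IsLocalRing.ResidueField O) ⊗[W] B01)))
    (hY0 : (algebraMap Y0 Y01).comp (algebraMap ((IsLocalRing.ResidueField O) ⊗[W] B0) Y0) =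
      (algebraMap ((IsLocalRing.ResidueField O) ⊗[W] B01) Y01).comp (algebraMap ((IsLocalRing.ResidueField O) ⊗[W] B0) ((IsLocalRing.ResidueField O) ⊗[W] B01)))
    (hY1 : (algebraMap Y1 Y01).comp (algebraMap ((IsLocalRing.ResidueField O) ⊗[W] B1) Y1) =
      (algebraMap ((IsLocalRing.ResidueField O) ⊗[W] B01) Y01).comp (algebraMap ((IsLocalRing.ResidueField O) ⊗[W] B1) ((IsLocalRing.ResidueField O) ⊗[W] B01)))
    (sX0 : Function.Surjective (algebraMap ((IsLocalRing.ResidueField O) ⊗[W] B0) X0))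
    (sX1 : Function.Surjective (algebraMap ((IsLocalRing.ResidueField O) ⊗[W] B1) X1))
    (sX01 : Function.Surjective (algebraMap ((IsLocalRing.ResidueField O) ⊗[W] B01) X01))
    (sY0 : Function.Surjective (algebraMap ((IsLocalRing.ResidueField O) ⊗[W] B0) Y0))
    (sY1 : Function.Surjective (algebraMap ((IsLocalRing.ResidueField O) ⊗[W] B1) Y1))
    (sY01 : Function.Surjective (algebraMap ((IsLocalRing.ResidueField O) ⊗[W] B01) Y01))
    (hcX : Fermat.Agent.T1.Red68.H0Const cX) (hcY : Fermat.Agent.T1.Red68.H0Const cY)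
    [Nontrivial X0] [Nontrivial Y0]
    (h0 : RingHom.ker (algebraMap ((IsLocalRing.ResidueField O) ⊗[W] B0) X0) ⊓ RingHom.ker (algebraMap ((IsLocalRing.ResidueField O) ⊗[W] B0) Y0) = ⊥)
    (h1 : RingHom.ker (algebraMap ((IsLocalRing.ResidueField O) ⊗[W] B1) X1) ⊓ RingHom.ker (algebraMap ((IsLocalRing.ResidueField O) ⊗[W] B1) Y1) = ⊥)
    (h01 : RingHom.ker (algebraMap ((IsLocalRing.ResidueField O) ⊗[W] B01) X01) ⊓
      RingHom.ker (algebraMap ((IsLocalRing.ResidueField O) ⊗[W] B01) Y01) = ⊥)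
    (hrad0 : (RingHom.ker (algebraMap ((IsLocalRing.ResidueField O) ⊗[W] B0) X0) ⊔
      RingHom.ker (algebraMap ((IsLocalRing.ResidueField O) ⊗[W] B0) Y0)).IsRadical)
    (hrad1 : (RingHom.ker (algebraMap ((IsLocalRing.ResidueField O) ⊗[W] B1) X1) ⊔
      RingHom.ker (algebraMap ((IsLocalRing.ResidueField O) ⊗[W] B1) Y1)).IsRadical)
    (y : J0L c0 O L P00) (hyp : y ^ p = 1)
    (hyX : LinePic.bc hX0 hX1 (c0.baseChange (IsLocalRing.ResidueField O)) cX (redL hinj y) = 1)
    (hyY : LinePic.bc hY0 hY1 (c0.baseChange (IsLocalRing.ResidueField O)) cY (redL hinj y) = 1) :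
    (y : PicX c0 L) ∈ J1L c0 O L P00 := by
  rw [← redL_eq_one_iff hinj y]
  refine Fermat.Agent.T1B.Torus85.eq_one_of_pow_eq_one_of_bc p hroot (c0.baseChange (IsLocalRing.ResidueField O)) cX cY
    hX0 hX1 hY0 hY1 sX0 sX1 sX01 sY0 sY1 sY01 hcX hcY h0 h1 h01 hrad0 hrad1 hyX hyY ?_
  rw [← map_pow, hyp, map_one]

end Fermat.Agent.T1B.Ker85
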