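/-
Fermat/Agent/T1B/Ker85/RedFrame.lean (helper85) -- programme T1B (row 38), brick F8' slice S6 KER, part 3:
REDUCTION OF FRAMED LINES to a component, in the vocabulary of helper31's `Hol31.Frame`
(`frame0 M ε`, `frame1 M ε : Submodule R_j F`) -- the counterpart of S5 HOL for the kernel.

Situation: `c` the integral two-chart model over `O`, `M` a line on it framed by `ε : M.N01 → F`
with `frame_j M ε ^ p = R_j ∙ u`, where `u` is a unit of a "`p`-closed" subring `S ⊆ F` (the Gauss
valuation ring of the component) with residue map `res : S → k`; `cX` the component (a cube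
`R_j → X_j`, `X_j ⊆ k` integrally closed).  If `res u = h^p` is a `p`-th power in `k`, the
restriction of `M` to the component is trivial:  `LinePic.bc … (LinePic.mk c M hM) = 1`.
-/
import Mathlib
import Fermat.Agent.T1B.Torus85.Abstract
import Fermat.Agent.T1B.Hol31.Frame

set_option autoImplicit false
set_option linter.unusedSectionVars false

open TensorProduct

namespace Fermat.Agent.T1B.Ker85

open Fermat.Agent.Jac Fermat.Agent.Jac.LineOps39 Fermat.Agent.Jac.JGroup85Pic
open Fermat.Agent.Jac.JSmooth85Alg Fermat.Agent.Jac.BaseChange75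

universe u v w

/-! ### Fractional ideals: two lemmas -/

/-- If `I ⊆ (g)` and `g^p ∈ I^p` then `I = (g)`. -/
theorem eq_span_singleton_of_le_of_pow_mem {C k : Type*} [CommRing C] [Field k] [Algebra C k]
    (I : Submodule C k) (g : k) (hg : g ≠ 0) (p : ℕ) (hp : p ≠ 0)
    (hle : I ≤ Submodule.span C {g}) (hmem : g ^ p ∈ I ^ p) : I = Submodule.span C {g} := by
  have hle' : ∀ a ∈ I, ∃ c : C, a = c • g := by
    intro a ha
    obtain ⟨c, hc⟩ := Submodule.mem_span_singleton.1 (hle ha)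
    exact ⟨c, hc.symm⟩
  have hpow : ∀ m : ℕ, ∀ x ∈ I ^ (m + 1), ∃ j : C, j • g ∈ I ∧ x = j • g ^ (m + 1) := by
    intro m
    induction m with
    | zero =>
      intro x hx
      rw [zero_add, pow_one] at hx
      obtain ⟨c, rfl⟩ := hle' x hx
      exact ⟨c, hx, by rw [zero_add, pow_one]⟩
    | succ m ih =>
      intro x hx
      rw [pow_succ] at hx
      refine Submodule.mul_induction_on hx ?_ ?_
      · intro b hb a ha
        obtain ⟨j, hj, rfl⟩ := ih b hb
        obtain ⟨c, rfl⟩ := hle' a ha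
        refine ⟨j * c, ?_, ?_⟩
        · rw [mul_smul]
          exact I.smul_mem j ha
        · rw [pow_succ _ (m + 1), smul_mul_smul_comm]
      · rintro x y ⟨j, hj, rfl⟩ ⟨j', hj', rfl⟩
        exact ⟨j + j', by rw [add_smul]; exact I.add_mem hj hj', by rw [add_smul]⟩
  refine le_antisymm hle ?_
  rw [Submodule.span_singleton_le_iff_mem]
  obtain ⟨m, rfl⟩ : ∃ m, p = m + 1 := ⟨p - 1, by omega⟩
  obtain ⟨j, hj, hjg⟩ := hpow m _ hmem
  have h1 : algebraMap C k j = 1 := by
    rw [Algebra.smul_def] at hjg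
    exact mul_right_cancel₀ (pow_ne_zero _ hg)
      (show algebraMap C k j * g ^ (m + 1) = 1 * g ^ (m + 1) by rw [one_mul, ← hjg])
  rwa [Algebra.smul_def, h1, one_mul] at hj

/-- `C` is `p`-closed in `k` (`a ^ p ∈ C → a ∈ C`; e.g. `C` integrally closed in `k`): an element
whose `p`-th power is `c • g^p` lies in `(g)`. -/
theorem mem_span_singleton_of_pow_eq {C k : Type*} [CommRing C] [Field k] [Algebra C k]
    (p : ℕ) (hpc : ∀ (a : k) (c : C), a ^ p = algebraMap C k c → a ∈ (algebraMap C k).range)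
    (g : k) (hg : g ≠ 0) (a : k) (c : C) (hc : a ^ p = c • g ^ p) :
    a ∈ Submodule.span C {g} := by
  have h1 : (a / g) ^ p = algebraMap C k c := by
    rw [div_pow, hc, Algebra.smul_def, mul_div_assoc, div_self (pow_ne_zero _ hg), mul_one]
  obtain ⟨c', hc'⟩ := hpc _ c h1
  refine Submodule.mem_span_singleton.2 ⟨c', ?_⟩
  rw [Algebra.smul_def, hc', div_mul_cancel₀ _ hg]

/-- An integrally closed ring is `p`-closed. -/
theorem pClosed_of_integrallyClosed {C k : Type*} [CommRing C] [Field k] [Algebra C k]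
    (hn : ∀ a : k, IsIntegral C a → a ∈ (algebraMap C k).range) (p : ℕ) (hp : p ≠ 0)
    (a : k) (c : C) (hc : a ^ p = algebraMap C k c) : a ∈ (algebraMap C k).range := by
  apply hn
  refine ⟨Polynomial.X ^ p - Polynomial.C c, Polynomial.monic_X_pow_sub_C c hp, ?_⟩
  rw [Polynomial.eval₂_sub, Polynomial.eval₂_pow, Polynomial.eval₂_X, Polynomial.eval₂_C, hc,
    sub_self]

/-! ### A line whose two frames are generated by one element is trivial -/

section Glue

variable {κ X0 X1 X01 : Type u} [Field κ] [CommRing X0] [CommRing X1] [CommRing X01]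
  [Algebra κ X0] [Algebra κ X1] [Algebra κ X01] [Algebra X0 X01] [Algebra X1 X01]
  [IsScalarTower κ X0 X01] [IsScalarTower κ X1 X01]
  {k : Type w} [Field k] [Algebra X0 k] [Algebra X1 k] [Algebra X01 k]
  [IsScalarTower X0 X01 k] [IsScalarTower X1 X01 k]

open Fermat.Agent.T1B.Hol31.Frame in
/-- A generator of an invertible module from a framing whose frame is principal. -/
theorem exists_generator_of_frame_eq_span {R N : Type*} [CommRing R] [AddCommGroup N] [Module R N]
    [Module.Invertible R N] [Algebra R k] (hk : Function.Injective (algebraMap R k))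
    (φ : N →ₗ[R] k) (h : k) (hh : h ≠ 0) (hφ : LinearMap.range φ = Submodule.span R {h}) :
    ∃ s : N, φ s = h ∧ Submodule.span R {s} = ⊤ := by
  have hinj : ∀ c c' : R, c • h = c' • h → c = c' := by
    intro c c' hcc
    rw [Algebra.smul_def, Algebra.smul_def] at hcc
    exact hk (mul_right_cancel₀ hh hcc)
  have hex : ∀ n, ∃ c : R, φ n = c • h := fun n => by
    have hm : φ n ∈ Submodule.span R {h} := by rw [← hφ]; exact ⟨n, rfl⟩
    obtain ⟨c, hc⟩ := Submodule.mem_span_singleton.1 hm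
    exact ⟨c, hc.symm⟩
  choose ψf hψ using hex
  let ψ : N →ₗ[R] R :=
    { toFun := ψf
      map_add' := fun a b => hinj _ _ (by rw [← hψ, map_add, hψ, hψ, add_smul])
      map_smul' := fun r a => hinj _ _ (by
        rw [← hψ, map_smul, hψ, RingHom.id_apply, smul_eq_mul, mul_smul]) }
  have hψ' : ∀ n, φ n = ψ n • h := hψ
  have hsurj : Function.Surjective ψ := by
    intro r
    have hm : r • h ∈ LinearMap.range φ := by
      rw [hφ]; exact Submodule.smul_mem _ _ (Submodule.mem_span_singleton_self _)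
    obtain ⟨n, hn⟩ := hm
    exact ⟨n, hinj _ _ (by rw [← hψ', hn])⟩
  have hbij : Function.Bijective ψ :=
    Module.Invertible.bijective_of_surjective (R := R) (M := N) (N := R) hsurj
  obtain ⟨s, hs⟩ := hsurj 1
  refine ⟨s, by rw [hψ', hs, one_smul], ?_⟩
  rw [eq_top_iff]
  intro n _
  refine Submodule.mem_span_singleton.2 ⟨ψ n, ?_⟩
  apply hbij.1
  rw [map_smul, hs, smul_eq_mul, mul_one]

open Fermat.Agent.T1B.Hol31.Frame in
/-- A line on a two-chart curve (charts inside the field `k`) with a framing both of whose frames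
are generated by ONE element `h ≠ 0` is trivial. -/
theorem nonempty_iso_unit_of_frame_eq_span (N : QC2 κ X0 X1 X01) (hN : N.IsLine)
    (hk0 : Function.Injective (algebraMap X0 k)) (hk1 : Function.Injective (algebraMap X1 k))
    (hk01 : Function.Injective (algebraMap X01 k))
    (η : N.N01 →ₗ[X01] k) (h : k) (hh : h ≠ 0)
    (h0 : frame0 N η = Submodule.span X0 {h}) (h1 : frame1 N η = Submodule.span X1 {h}) :
    Nonempty (QC2.Iso (QC2.unit : QC2 κ X0 X1 X01) N) := by
  have i0 := hN.inv0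
  have i1 := hN.inv1
  obtain ⟨s0, hs0, sp0⟩ :=
    exists_generator_of_frame_eq_span hk0 ((η.restrictScalars X0).comp N.r0) h hh h0
  obtain ⟨s1, hs1, sp1⟩ :=
    exists_generator_of_frame_eq_span hk1 ((η.restrictScalars X1).comp N.r1) h hh h1
  have hs0' : η (N.r0 s0) = h := hs0
  have hs1' : η (N.r1 s1) = h := hs1
  -- `N.N01` is generated by `r0 s0`
  have hgen : ∀ y : N.N01, ∃ x : X01, y = x • N.r0 s0 := by
    intro y
    induction y using N.bc0.inductionOn with
    | zero => exact ⟨0, by rw [zero_smul]⟩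
    | tmul n =>
      have hn : n ∈ Submodule.span X0 {s0} := by rw [sp0]; trivial
      obtain ⟨a, ha⟩ := Submodule.mem_span_singleton.1 hn
      exact ⟨algebraMap X0 X01 a, by rw [← ha, map_smul, algebraMap_smul]⟩
    | smul r y hy =>
      obtain ⟨x, rfl⟩ := hy
      exact ⟨r * x, by rw [mul_smul]⟩
    | add y₁ y₂ hy₁ hy₂ =>
      obtain ⟨x₁, rfl⟩ := hy₁
      obtain ⟨x₂, rfl⟩ := hy₂
      exact ⟨x₁ + x₂, by rw [add_smul]⟩
  obtain ⟨x, hx⟩ := hgen (N.r1 s1)
  have hx1 : x = 1 := by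
    apply hk01
    have e1 : η (N.r1 s1) = x • h := by rw [hx, map_smul, hs0']
    rw [hs1', Algebra.smul_def] at e1
    rw [map_one]
    exact (mul_right_cancel₀ hh (show algebraMap X01 k x * h = 1 * h by rw [one_mul, ← e1]))
  have hcompat : N.r0 s0 = N.r1 s1 := by rw [hx, hx1, one_smul]
  have hσ : (s0, s1) ∈ N.H0 := by
    show N.d (s0, s1) = 0
    simp only [QC2.d, LinearMap.coprod_apply, LinearMap.restrictScalars_apply, LinearMap.neg_apply]
    rw [hcompat, add_neg_cancel]
  exact Fermat.Agent.T1B.Torus85.nonempty_iso_unit_of_span N hN ⟨(s0, s1), hσ⟩ sp0 sp1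

end Glue

/-! ### Reduction of a framing -/

section Reduce

variable {A R0 R1 R01 : Type u} [CommRing A] [CommRing R0] [CommRing R1] [CommRing R01]
  [Algebra A R0] [Algebra A R1] [Algebra A R01] [Algebra R0 R01] [Algebra R1 R01]
  [IsScalarTower A R0 R01] [IsScalarTower A R1 R01]
  {κ X0 X1 X01 : Type u} [Field κ] [CommRing X0] [CommRing X1] [CommRing X01]
  [Algebra κ X0] [Algebra κ X1] [Algebra κ X01] [Algebra X0 X01] [Algebra X1 X01]
  [IsScalarTower κ X0 X01] [IsScalarTower κ X1 X01]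
  [Algebra R0 X0] [Algebra R1 X1] [Algebra R01 X01]
  {F : Type v} [Field F] [Algebra R0 F] [Algebra R1 F] [Algebra R01 F]
  [IsScalarTower R0 R01 F] [IsScalarTower R1 R01 F]
  {k : Type w} [Field k] [Algebra X0 k] [Algebra X1 k] [Algebra X01 k]
  [IsScalarTower X0 X01 k] [IsScalarTower X1 X01 k]
  {S : Type*} [CommRing S]

open Fermat.Agent.T1B.Hol31.Frame

/-- If `frame0 M ε ^ p = R0 ∙ j u` and `j(S)` is `p`-closed in `F` then `ε` takes its values in
`j(S)`. -/
theorem framing_mem_range0 {M : QC2 A R0 R1 R01} (j : S →+* F) (φ01 : R01 →+* S)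
    (hφ01 : ∀ x, j (φ01 x) = algebraMap R01 F x) (p : ℕ)
    (hS : ∀ z : F, z ^ p ∈ j.range → z ∈ j.range)
    (ε : M.N01 →ₗ[R01] F) (u : S) (h0 : frame0 M ε ^ p = Submodule.span R0 {j u}) (m : M.N01) :
    ε m ∈ j.range := by
  have hR0 : ∀ r : R0, algebraMap R0 F r ∈ j.range := fun r =>
    ⟨φ01 (algebraMap R0 R01 r), by rw [hφ01, ← IsScalarTower.algebraMap_apply]⟩
  induction m using M.bc0.inductionOn with
  | zero => rw [map_zero]; exact Subring.zero_mem _
  | tmul x =>
    apply hS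
    have hz : ε (M.r0 x) ∈ frame0 M ε := mem_frame0.2 ⟨x, rfl⟩
    have hzp : ε (M.r0 x) ^ p ∈ frame0 M ε ^ p := Submodule.pow_mem_pow _ hz p
    rw [h0, Submodule.mem_span_singleton] at hzp
    obtain ⟨r, hr⟩ := hzp
    rw [← hr, Algebra.smul_def]
    exact Subring.mul_mem _ (hR0 r) ⟨u, rfl⟩
  | smul r y hy =>
    rw [map_smul, Algebra.smul_def]
    exact Subring.mul_mem _ ⟨φ01 r, hφ01 r⟩ hy
  | add y₁ y₂ h₁ h₂ =>
    rw [map_add]
    exact Subring.add_mem _ h₁ h₂

/-- A preimage under `j`. -/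
noncomputable def preS (j : S →+* F) {M : QC2 A R0 R1 R01} (ε : M.N01 →ₗ[R01] F)
    (hε : ∀ m, ε m ∈ j.range) (m : M.N01) : S := Classical.choose (hε m)

theorem j_preS (j : S →+* F) {M : QC2 A R0 R1 R01} (ε : M.N01 →ₗ[R01] F)
    (hε : ∀ m, ε m ∈ j.range) (m : M.N01) : j (preS j ε hε m) = ε m :=
  Classical.choose_spec (hε m)

/-- The reduction `res ∘ j⁻¹ ∘ ε` of a framing with values in `j(S)`. -/
noncomputable def redFraming [Algebra R01 k] {M : QC2 A R0 R1 R01} (j : S →+* F)
    (hj : Function.Injective j) (res : S →+* k) (φ01 : R01 →+* S)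
    (hφ01 : ∀ x, j (φ01 x) = algebraMap R01 F x)
    (hres01 : ∀ x, res (φ01 x) = algebraMap R01 k x)
    (ε : M.N01 →ₗ[R01] F) (hε : ∀ m, ε m ∈ j.range) : M.N01 →ₗ[R01] k where
  toFun m := res (preS j ε hε m)
  map_add' a b := by
    have e : preS j ε hε (a + b) = preS j ε hε a + preS j ε hε b := hj (by
      rw [j_preS, map_add j, j_preS, j_preS, map_add])
    rw [e, map_add]
  map_smul' r a := by
    have e : preS j ε hε (r • a) = φ01 r * preS j ε hε a := hj (by
      rw [j_preS, map_mul j, j_preS, hφ01, map_smul, Algebra.smul_def])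
    rw [e, map_mul, hres01, RingHom.id_apply, Algebra.smul_def]

theorem redFraming_eq [Algebra R01 k] {M : QC2 A R0 R1 R01} (j : S →+* F)
    (hj : Function.Injective j) (res : S →+* k) (φ01 : R01 →+* S)
    (hφ01 : ∀ x, j (φ01 x) = algebraMap R01 F x)
    (hres01 : ∀ x, res (φ01 x) = algebraMap R01 k x)
    (ε : M.N01 →ₗ[R01] F) (hε : ∀ m, ε m ∈ j.range) {m : M.N01} {s : S} (hs : j s = ε m) :
    redFraming j hj res φ01 hφ01 hres01 ε hε m = res s := by
  show res (preS j ε hε m) = res s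
  congr 1
  apply hj
  rw [j_preS, hs]

/-- The framing of a base change `N` of `M` induced by a reduced framing. -/
noncomputable def bcFraming [Algebra R01 k] [IsScalarTower R01 X01 k] {M : QC2 A R0 R1 R01}
    {N : QC2 κ X0 X1 X01} (d : LiftData M N) (ρ : M.N01 →ₗ[R01] k) : N.N01 →ₗ[X01] k :=
  (ρ.liftBaseChange X01).comp d.e01.symm.toLinearMap

theorem bcFraming_apply [Algebra R01 k] [IsScalarTower R01 X01 k] {M : QC2 A R0 R1 R01}
    {N : QC2 κ X0 X1 X01} (d : LiftData M N) (ρ : M.N01 →ₗ[R01] k) (x : X01) (m : M.N01) :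
    bcFraming d ρ (d.e01 (x ⊗ₜ m)) = x • ρ m := by
  show (ρ.liftBaseChange X01) (d.e01.symm (d.e01 (x ⊗ₜ m))) = _
  rw [LinearEquiv.symm_apply_apply, LinearMap.liftBaseChange_tmul]

/-- Chart `0`: the frame of the reduced framing on a base change `N` of `M` is generated by `h`
when `frame0 M ε ^ p = R0 ∙ j u` and `res u = h ^ p`. -/
theorem frame0_bcFraming_eq_span [Algebra R01 k] [IsScalarTower R01 X01 k]
    {M : QC2 A R0 R1 R01} {N : QC2 κ X0 X1 X01} (d : LiftData M N)
    (hc0 : (algebraMap X0 X01).comp (algebraMap R0 X0) =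
      (algebraMap R01 X01).comp (algebraMap R0 R01))
    (j : S →+* F) (hj : Function.Injective j) (res : S →+* k) (φ01 : R01 →+* S)
    (hφ01 : ∀ x, j (φ01 x) = algebraMap R01 F x)
    (hres01 : ∀ x, res (φ01 x) = algebraMap R01 k x) (p : ℕ) (hp : p ≠ 0)
    (hpc0 : ∀ (a : k) (c : X0), a ^ p = algebraMap X0 k c → a ∈ (algebraMap X0 k).range)
    (ε : M.N01 →ₗ[R01] F) (hε : ∀ m, ε m ∈ j.range) (u : S) (h : k) (hh : h ≠ 0)
    (hu : res u = h ^ p) (h0 : frame0 M ε ^ p = Submodule.span R0 {j u}) :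
    frame0 N (bcFraming d (redFraming j hj res φ01 hφ01 hres01 ε hε)) =
      Submodule.span X0 {h} := by
  set ρ := redFraming j hj res φ01 hφ01 hres01 ε hε with hρdef
  set η := bcFraming d ρ with hηdef
  -- scalars
  have hsc : ∀ r : R0, algebraMap R01 k (algebraMap R0 R01 r) =
      algebraMap X0 k (algebraMap R0 X0 r) := by
    intro r
    rw [IsScalarTower.algebraMap_apply R01 X01 k, IsScalarTower.algebraMap_apply X0 X01 k]
    exact congrArg (algebraMap X01 k) (RingHom.congr_fun hc0 r).symm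
  have hjR0 : ∀ r : R0, j (φ01 (algebraMap R0 R01 r)) = algebraMap R0 F r := fun r => by
    rw [hφ01, ← IsScalarTower.algebraMap_apply]
  -- the framing on `N.r0 (d.e0 (x ⊗ n0))`
  have key0 : ∀ (x : X0) (n0 : M.N0), η (N.r0 (d.e0 (x ⊗ₜ n0))) = x • ρ (M.r0 n0) := by
    intro x n0
    have e1 : (x ⊗ₜ[R0] n0 : X0 ⊗[R0] M.N0) = x • ((1 : X0) ⊗ₜ[R0] n0) := by
      rw [TensorProduct.smul_tmul', smul_eq_mul, mul_one]
    rw [e1, map_smul, map_smul, ← d.comm0, ← algebraMap_smul X01 x (d.e01 _), map_smul,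
      bcFraming_apply, one_smul, algebraMap_smul]
  -- `ρ (r0 n0) ^ p = c • h ^ p`
  have hρp : ∀ n0 : M.N0, ∃ c : X0, ρ (M.r0 n0) ^ p = c • h ^ p := by
    intro n0
    have hz : ε (M.r0 n0) ∈ frame0 M ε := mem_frame0.2 ⟨n0, rfl⟩
    have hzp : ε (M.r0 n0) ^ p ∈ frame0 M ε ^ p := Submodule.pow_mem_pow _ hz p
    rw [h0, Submodule.mem_span_singleton] at hzp
    obtain ⟨r, hr⟩ := hzp
    refine ⟨algebraMap R0 X0 r, ?_⟩
    have hs : preS j ε hε (M.r0 n0) ^ p = φ01 (algebraMap R0 R01 r) * u := hj (by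
      rw [map_pow, j_preS, map_mul, hjR0, ← hr, Algebra.smul_def])
    show res (preS j ε hε (M.r0 n0)) ^ p = _
    rw [← map_pow, hs, map_mul, hres01, hsc, hu, Algebra.smul_def]
  -- (i)
  have hall : ∀ t : X0 ⊗[R0] M.N0, η (N.r0 (d.e0 t)) ∈ Submodule.span X0 {h} := by
    intro t
    induction t using TensorProduct.induction_on with
    | zero => simp
    | tmul x n0 =>
      rw [key0]
      obtain ⟨c, hc⟩ := hρp n0
      exact Submodule.smul_mem _ _ (mem_span_singleton_of_pow_eq p hpc0 h hh _ c hc)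
    | add t₁ t₂ h₁ h₂ =>
      rw [map_add, map_add, map_add]
      exact Submodule.add_mem _ h₁ h₂
  have hle : frame0 N η ≤ Submodule.span X0 {h} := by
    intro z hz
    obtain ⟨n, rfl⟩ := mem_frame0.1 hz
    obtain ⟨t, rfl⟩ := d.e0.surjective n
    exact hall t
  -- (ii)
  have hpow : ∀ m : ℕ, ∀ z ∈ frame0 M ε ^ m, ∃ s : S, j s = z ∧ res s ∈ frame0 N η ^ m := by
    intro m
    induction m with
    | zero =>
      intro z hz
      rw [pow_zero, Submodule.mem_one] at hz
      obtain ⟨r, rfl⟩ := hz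
      refine ⟨φ01 (algebraMap R0 R01 r), hjR0 r, ?_⟩
      rw [pow_zero, Submodule.mem_one, hres01, hsc]
      exact ⟨_, rfl⟩
    | succ m ih =>
      intro z hz
      rw [pow_succ] at hz
      rw [pow_succ]
      refine Submodule.mul_induction_on hz ?_ ?_
      · intro a ha b hb
        obtain ⟨sa, hsa, hra⟩ := ih a ha
        obtain ⟨n0, rfl⟩ := mem_frame0.1 hb
        refine ⟨sa * preS j ε hε (M.r0 n0), by rw [map_mul, hsa, j_preS], ?_⟩
        rw [map_mul]
        refine Submodule.mul_mem_mul hra (mem_frame0.2 ⟨d.e0 (1 ⊗ₜ n0), ?_⟩)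
        rw [key0, one_smul]
        rfl
      · rintro x y ⟨sx, hsx, hrx⟩ ⟨sy, hsy, hry⟩
        exact ⟨sx + sy, by rw [map_add, hsx, hsy], by rw [map_add]; exact Submodule.add_mem _ hrx hry⟩
  have hmem : h ^ p ∈ frame0 N η ^ p := by
    have hju : j u ∈ frame0 M ε ^ p := by
      rw [h0]; exact Submodule.mem_span_singleton_self _
    obtain ⟨s, hs, hrs⟩ := hpow p _ hju
    rw [hj hs, hu] at hrs
    exact hrs
  exact eq_span_singleton_of_le_of_pow_mem _ h hh p hp hle hmem

/-- Chart `1`: the frame of the reduced framing on a base change `N` of `M` is generated by `h`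
when `frame1 M ε ^ p = R1 ∙ j u` and `res u = h ^ p`. -/
theorem frame1_bcFraming_eq_span [Algebra R01 k] [IsScalarTower R01 X01 k]
    {M : QC2 A R0 R1 R01} {N : QC2 κ X0 X1 X01} (d : LiftData M N)
    (hc1 : (algebraMap X1 X01).comp (algebraMap R1 X1) =
      (algebraMap R01 X01).comp (algebraMap R1 R01))
    (j : S →+* F) (hj : Function.Injective j) (res : S →+* k) (φ01 : R01 →+* S)
    (hφ01 : ∀ x, j (φ01 x) = algebraMap R01 F x)
    (hres01 : ∀ x, res (φ01 x) = algebraMap R01 k x) (p : ℕ) (hp : p ≠ 0)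
    (hpc1 : ∀ (a : k) (c : X1), a ^ p = algebraMap X1 k c → a ∈ (algebraMap X1 k).range)
    (ε : M.N01 →ₗ[R01] F) (hε : ∀ m, ε m ∈ j.range) (u : S) (h : k) (hh : h ≠ 0)
    (hu : res u = h ^ p) (h1 : frame1 M ε ^ p = Submodule.span R1 {j u}) :
    frame1 N (bcFraming d (redFraming j hj res φ01 hφ01 hres01 ε hε)) =
      Submodule.span X1 {h} := by
  set ρ := redFraming j hj res φ01 hφ01 hres01 ε hε with hρdef
  set η := bcFraming d ρ with hηdef
  -- scalars
  have hsc : ∀ r : R1, algebraMap R01 k (algebraMap R1 R01 r) =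
      algebraMap X1 k (algebraMap R1 X1 r) := by
    intro r
    rw [IsScalarTower.algebraMap_apply R01 X01 k, IsScalarTower.algebraMap_apply X1 X01 k]
    exact congrArg (algebraMap X01 k) (RingHom.congr_fun hc1 r).symm
  have hjR1 : ∀ r : R1, j (φ01 (algebraMap R1 R01 r)) = algebraMap R1 F r := fun r => by
    rw [hφ01, ← IsScalarTower.algebraMap_apply]
  -- the framing on `N.r1 (d.e1 (x ⊗ n1))`
  have key1 : ∀ (x : X1) (n1 : M.N1), η (N.r1 (d.e1 (x ⊗ₜ n1))) = x • ρ (M.r1 n1) := by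
    intro x n1
    have e1 : (x ⊗ₜ[R1] n1 : X1 ⊗[R1] M.N1) = x • ((1 : X1) ⊗ₜ[R1] n1) := by
      rw [TensorProduct.smul_tmul', smul_eq_mul, mul_one]
    rw [e1, map_smul, map_smul, ← d.comm1, ← algebraMap_smul X01 x (d.e01 _), map_smul,
      bcFraming_apply, one_smul, algebraMap_smul]
  -- `ρ (r1 n1) ^ p = c • h ^ p`
  have hρp : ∀ n1 : M.N1, ∃ c : X1, ρ (M.r1 n1) ^ p = c • h ^ p := by
    intro n1
    have hz : ε (M.r1 n1) ∈ frame1 M ε := mem_frame1.2 ⟨n1, rfl⟩
    have hzp : ε (M.r1 n1) ^ p ∈ frame1 M ε ^ p := Submodule.pow_mem_pow _ hz p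
    rw [h1, Submodule.mem_span_singleton] at hzp
    obtain ⟨r, hr⟩ := hzp
    refine ⟨algebraMap R1 X1 r, ?_⟩
    have hs : preS j ε hε (M.r1 n1) ^ p = φ01 (algebraMap R1 R01 r) * u := hj (by
      rw [map_pow, j_preS, map_mul, hjR1, ← hr, Algebra.smul_def])
    show res (preS j ε hε (M.r1 n1)) ^ p = _
    rw [← map_pow, hs, map_mul, hres01, hsc, hu, Algebra.smul_def]
  -- (i)
  have hall : ∀ t : X1 ⊗[R1] M.N1, η (N.r1 (d.e1 t)) ∈ Submodule.span X1 {h} := by
    intro t
    induction t using TensorProduct.induction_on with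
    | zero => simp
    | tmul x n1 =>
      rw [key1]
      obtain ⟨c, hc⟩ := hρp n1
      exact Submodule.smul_mem _ _ (mem_span_singleton_of_pow_eq p hpc1 h hh _ c hc)
    | add t₁ t₂ h₁ h₂ =>
      rw [map_add, map_add, map_add]
      exact Submodule.add_mem _ h₁ h₂
  have hle : frame1 N η ≤ Submodule.span X1 {h} := by
    intro z hz
    obtain ⟨n, rfl⟩ := mem_frame1.1 hz
    obtain ⟨t, rfl⟩ := d.e1.surjective n
    exact hall t
  -- (ii)
  have hpow : ∀ m : ℕ, ∀ z ∈ frame1 M ε ^ m, ∃ s : S, j s = z ∧ res s ∈ frame1 N η ^ m := by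
    intro m
    induction m with
    | zero =>
      intro z hz
      rw [pow_zero, Submodule.mem_one] at hz
      obtain ⟨r, rfl⟩ := hz
      refine ⟨φ01 (algebraMap R1 R01 r), hjR1 r, ?_⟩
      rw [pow_zero, Submodule.mem_one, hres01, hsc]
      exact ⟨_, rfl⟩
    | succ m ih =>
      intro z hz
      rw [pow_succ] at hz
      rw [pow_succ]
      refine Submodule.mul_induction_on hz ?_ ?_
      · intro a ha b hb
        obtain ⟨sa, hsa, hra⟩ := ih a ha
        obtain ⟨n1, rfl⟩ := mem_frame1.1 hb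
        refine ⟨sa * preS j ε hε (M.r1 n1), by rw [map_mul, hsa, j_preS], ?_⟩
        rw [map_mul]
        refine Submodule.mul_mem_mul hra (mem_frame1.2 ⟨d.e1 (1 ⊗ₜ n1), ?_⟩)
        rw [key1, one_smul]
        rfl
      · rintro x y ⟨sx, hsx, hrx⟩ ⟨sy, hsy, hry⟩
        exact ⟨sx + sy, by rw [map_add, hsx, hsy], by rw [map_add]; exact Submodule.add_mem _ hrx hry⟩
  have hmem : h ^ p ∈ frame1 N η ^ p := by
    have hju : j u ∈ frame1 M ε ^ p := by
      rw [h1]; exact Submodule.mem_span_singleton_self _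
    obtain ⟨s, hs, hrs⟩ := hpow p _ hju
    rw [hj hs, hu] at hrs
    exact hrs
  exact eq_span_singleton_of_le_of_pow_mem _ h hh p hp hle hmem

/-- **S6 KER on one component.**  `c` the integral model (a two-chart ring over `A`), `cX` a
component of its special fibre (a cube `R_j → X_j` over a field `κ`; `X_j ⊆ k` `p`-closed in the
field `k`, e.g. integrally closed: `pClosed_of_integrallyClosed`), `S` a ring with `j : S ↪ F` whose image is `p`-closed in `F` and `res : S → k`
(the valuation ring of the component in the function field `F` with its residue map), compatible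
with `R01 → X01`.  Let `M` be a line on `c` framed by `ε` with
`frame_j M ε ^ p = R_j ∙ j u` (`j = 0, 1`) for ONE `u ∈ S`.  If `res u = h ^ p` with `h ≠ 0` in `k`,
then the restriction of `M` to the component is trivial. -/
theorem bc_mk_eq_one_of_frame_pow
    (hc0 : (algebraMap X0 X01).comp (algebraMap R0 X0) =
      (algebraMap R01 X01).comp (algebraMap R0 R01))
    (hc1 : (algebraMap X1 X01).comp (algebraMap R1 X1) =
      (algebraMap R01 X01).comp (algebraMap R1 R01))
    (c : TwoChart A R0 R1 R01) (cX : TwoChart κ X0 X1 X01)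
    {M : QC2 A R0 R1 R01} (hM : M.IsLine)
    (hk0 : Function.Injective (algebraMap X0 k)) (hk1 : Function.Injective (algebraMap X1 k))
    (hk01 : Function.Injective (algebraMap X01 k))
    (j : S →+* F) (hj : Function.Injective j) (res : S →+* k) (φ01 : R01 →+* S)
    (hφ01 : ∀ x, j (φ01 x) = algebraMap R01 F x)
    (hres01 : ∀ x, res (φ01 x) = algebraMap X01 k (algebraMap R01 X01 x))
    (p : ℕ) (hp : p ≠ 0) (hS : ∀ z : F, z ^ p ∈ j.range → z ∈ j.range)
    (hpc0 : ∀ (a : k) (c : X0), a ^ p = algebraMap X0 k c → a ∈ (algebraMap X0 k).range)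
    (hpc1 : ∀ (a : k) (c : X1), a ^ p = algebraMap X1 k c → a ∈ (algebraMap X1 k).range)
    (ε : M.N01 →ₗ[R01] F) (u : S) (h : k) (hh : h ≠ 0) (hu : res u = h ^ p)
    (h0 : frame0 M ε ^ p = Submodule.span R0 {j u})
    (h1 : frame1 M ε ^ p = Submodule.span R1 {j u}) :
    LinePic.bc hc0 hc1 c cX (LinePic.mk c M hM) = 1 := by
  let _ : Algebra R01 k := ((algebraMap X01 k).comp (algebraMap R01 X01)).toAlgebra
  have : IsScalarTower R01 X01 k := IsScalarTower.of_algebraMap_eq (fun _ => rfl)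
  have hres01' : ∀ x, res (φ01 x) = algebraMap R01 k x := hres01
  have hε := framing_mem_range0 j φ01 hφ01 p hS ε u h0
  have d : LiftData M (bcCube κ hc0 hc1 M) := liftData_bcCube hc0 hc1 M
  have hN : (bcCube κ hc0 hc1 M).IsLine := LiftData.isLine d hM
  rw [LinePic.bc_mk hc0 hc1 c cX hM d, LinePic.one_def]
  have f0 := frame0_bcFraming_eq_span d hc0 j hj res φ01 hφ01 hres01' p hp hpc0 ε hε u h hh hu h0
  have f1 := frame1_bcFraming_eq_span d hc1 j hj res φ01 hφ01 hres01' p hp hpc1 ε hε u h hh hu h1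
  obtain ⟨e⟩ := nonempty_iso_unit_of_frame_eq_span _ hN hk0 hk1 hk01 _ h hh f0 f1
  exact (LinePic.mk_eq_mk isLine_unit hN e).symm

end Reduce

end Fermat.Agent.T1B.Ker85
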