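/-
Fermat/Agent/T1B/Ker85/Asm.lean (helper85) -- programme T1B (row 38), brick F8' slice S6 KER: KER-ASM,
the integral-side twin of helper31's `Hol31.Main.exists_dl_mem_hol₂_of_pow_eq_one`, in helper3's
`q`-dlog vocabulary (`Hecke3`: `gaussSub A e`, `gaussRes A e`, `dl A`).

* `gaussSub_pClosed` : the Gauss ring is `p`-closed in `F` (it is a valuation ring);
* `frame0_smul`, `frame1_smul`, `frame_pow_smul` : rescaling a framing by a constant;
* `bc_mk_eq_one_of_dl_eq_zero` : **KER on one component**: `M` a line on the integral model `c`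
  framed by `ε` with `frame_j M ε ^ p = R_j ∙ g`; if `dl A (e g) = 0` (and Gauss units with
  `dlog = 0` are `p`-th powers of residues: helper16's `Hecke16.ResField`), the restriction of `M`
  to the component `cX` (charts inside `κ̄((q))` via `gaussRes`) is trivial;
* `mem_J1L_of_bc_eq_one` : `PicX` glue: a class `y ∈ J⁰(L)`, `y ^ p = 1`, whose extension restricts
  trivially to both components lies in `J¹(L)`;
* `mem_J1L_of_dl_eq_zero` : **(K)**: `dl A (e₁ g) = 0 ∧ dl A (e₂ g) = 0 ⟹ y ∈ J¹(L)`.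
-/
import Mathlib
import Fermat.Agent.T1B.Ker85.RedFrame
import Fermat.Agent.T1B.Ker85.KerPic
import Fermat.Agent.T1B.Hecke3.GaussVal
import Fermat.Agent.T1B.Bal60.Factor

set_option autoImplicit false
set_option linter.unusedSectionVars false

open TensorProduct

namespace Fermat.Agent.T1B.Ker85

open Fermat.Agent.Jac Fermat.Agent.Jac.LineOps39 Fermat.Agent.Jac.JGroup85Pic
open Fermat.Agent.Jac.JSmooth85Alg Fermat.Agent.Jac.BaseChange75
open Fermat.Agent.T1B.Hecke3 Fermat.Agent.T1B.Hol31.Frame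

universe u v w

/-! ### The Gauss ring is `p`-closed -/

theorem gaussSub_pClosed {K : Type*} [Field K] {F : Type*} [Field F] (A : ValuationSubring K)
    (e : F →+* LaurentSeries K) (H : ∀ f : F, f ≠ 0 → Normalisable A (e f)) (p : ℕ) (hp : p ≠ 0)
    (z : F) (hz : z ^ p ∈ (gaussSub A e).subtype.range) : z ∈ (gaussSub A e).subtype.range := by
  rw [Subring.range_subtype] at hz ⊢
  rcases (gaussVal A e H).mem_or_inv_mem z with h | h
  · exact h
  · have hinv : z⁻¹ ∈ gaussSub A e := h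
    obtain ⟨m, rfl⟩ : ∃ m, p = m + 1 := ⟨p - 1, by omega⟩
    rcases eq_or_ne z 0 with rfl | hz0
    · exact Subring.zero_mem _
    have : z = z ^ (m + 1) * z⁻¹ ^ m := by
      rw [pow_succ, inv_pow, mul_assoc, mul_comm z, ← mul_assoc,
        mul_inv_cancel₀ (pow_ne_zero m hz0), one_mul]
    rw [this]
    exact Subring.mul_mem _ hz (Subring.pow_mem _ hinv m)

/-! ### Rescaling a framing -/

section Smul

variable {A R0 R1 R01 : Type u} [CommRing A] [CommRing R0] [CommRing R1] [CommRing R01]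
  [Algebra A R0] [Algebra A R1] [Algebra A R01] [Algebra R0 R01] [Algebra R1 R01]
  [IsScalarTower A R0 R01] [IsScalarTower A R1 R01]
  {F : Type v} [Field F] [Algebra R0 F] [Algebra R1 F] [Algebra R01 F]
  [IsScalarTower R0 R01 F] [IsScalarTower R1 R01 F]

/-- The framing `b • ε`. -/
noncomputable def smulFraming {M : QC2 A R0 R1 R01} (b : F) (ε : M.N01 →ₗ[R01] F) :
    M.N01 →ₗ[R01] F := (LinearMap.mulLeft R01 b).comp ε

@[simp] theorem smulFraming_apply {M : QC2 A R0 R1 R01} (b : F) (ε : M.N01 →ₗ[R01] F)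
    (m : M.N01) : smulFraming b ε m = b * ε m := rfl

theorem frame0_smul {M : QC2 A R0 R1 R01} (b : F) (ε : M.N01 →ₗ[R01] F) :
    frame0 M (smulFraming b ε) = Submodule.span R0 {b} * frame0 M ε := by
  apply le_antisymm
  · intro z hz
    obtain ⟨x, rfl⟩ := mem_frame0.1 hz
    exact Submodule.mul_mem_mul (Submodule.mem_span_singleton_self b) (mem_frame0.2 ⟨x, rfl⟩)
  · rw [Submodule.mul_le]
    intro a ha y hy
    obtain ⟨r, rfl⟩ := Submodule.mem_span_singleton.1 ha
    obtain ⟨x, rfl⟩ := mem_frame0.1 hy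
    refine mem_frame0.2 ⟨r • x, ?_⟩
    rw [smulFraming_apply, map_smul, ← algebraMap_smul R01 r (M.r0 x), map_smul,
      algebraMap_smul, smul_mul_assoc, mul_smul_comm]

theorem frame1_smul {M : QC2 A R0 R1 R01} (b : F) (ε : M.N01 →ₗ[R01] F) :
    frame1 M (smulFraming b ε) = Submodule.span R1 {b} * frame1 M ε := by
  apply le_antisymm
  · intro z hz
    obtain ⟨x, rfl⟩ := mem_frame1.1 hz
    exact Submodule.mul_mem_mul (Submodule.mem_span_singleton_self b) (mem_frame1.2 ⟨x, rfl⟩)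
  · rw [Submodule.mul_le]
    intro a ha y hy
    obtain ⟨r, rfl⟩ := Submodule.mem_span_singleton.1 ha
    obtain ⟨x, rfl⟩ := mem_frame1.1 hy
    refine mem_frame1.2 ⟨r • x, ?_⟩
    rw [smulFraming_apply, map_smul, ← algebraMap_smul R01 r (M.r1 x), map_smul,
      algebraMap_smul, smul_mul_assoc, mul_smul_comm]

theorem span_singleton_mul_pow {R : Type*} [CommRing R] [Algebra R F] (b g : F)
    (I : Submodule R F) (p : ℕ) (h : I ^ p = Submodule.span R {g}) :
    (Submodule.span R {b} * I) ^ p = Submodule.span R {b ^ p * g} := by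
  rw [mul_pow, h, Submodule.span_pow, Set.singleton_pow, Submodule.span_mul_span,
    Set.singleton_mul_singleton]

end Smul

/-! ### KER on one component, Gauss vocabulary -/

section Comp

variable {A R0 R1 R01 : Type u} [CommRing A] [CommRing R0] [CommRing R1] [CommRing R01]
  [Algebra A R0] [Algebra A R1] [Algebra A R01] [Algebra R0 R01] [Algebra R1 R01]
  [IsScalarTower A R0 R01] [IsScalarTower A R1 R01]
  {κ X0 X1 X01 : Type u} [Field κ] [CommRing X0] [CommRing X1] [CommRing X01]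
  [Algebra κ X0] [Algebra κ X1] [Algebra κ X01] [Algebra X0 X01] [Algebra X1 X01]
  [IsScalarTower κ X0 X01] [IsScalarTower κ X1 X01]
  [Algebra R0 X0] [Algebra R1 X1] [Algebra R01 X01]
  {F : Type v} [Field F] [Algebra R0 F] [Algebra R1 F] [Algebra R01 F]
  [IsScalarTower R0 R01 F] [IsScalarTower R1 R01 F]
  {K : Type w} [Field K] (V : ValuationSubring K) (e : F →+* LaurentSeries K)
  [Algebra X0 (LaurentSeries (Kap V))] [Algebra X1 (LaurentSeries (Kap V))]
  [Algebra X01 (LaurentSeries (Kap V))]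
  [IsScalarTower X0 X01 (LaurentSeries (Kap V))] [IsScalarTower X1 X01 (LaurentSeries (Kap V))]

/-- **KER on one component.**  `c` the integral two-chart model, `cX` a component of its special
fibre (cube `R_j → X_j`), whose charts sit in `κ̄((q))` compatibly with the residue map `gaussRes` of
the Gauss valuation ring of the expansion `e : F → K((q))` (`φ01 : R01 → gaussSub V e`).  Let `M` be a
line on `c` framed by `ε` with `frame_j M ε ^ p = R_j ∙ g`.  If `dl V (e g) = 0` then the restriction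
of `M` to `cX` is trivial.  Inputs: `K` has `p`-th roots; `X_0`, `X_1` are `p`-closed in `κ̄((q))`
(normality of the component + separability); Gauss units with `dlog = 0` are `p`-th powers of
residues (`hker` = the conclusion of `Hecke16.ResField.exists_gaussRes_pow_eq_of_dlog'`). -/
theorem bc_mk_eq_one_of_dl_eq_zero
    (hc0 : (algebraMap X0 X01).comp (algebraMap R0 X0) =
      (algebraMap R01 X01).comp (algebraMap R0 R01))
    (hc1 : (algebraMap X1 X01).comp (algebraMap R1 X1) =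
      (algebraMap R01 X01).comp (algebraMap R1 R01))
    (c : TwoChart A R0 R1 R01) (cX : TwoChart κ X0 X1 X01)
    {M : QC2 A R0 R1 R01} (hM : M.IsLine)
    (hk0 : Function.Injective (algebraMap X0 (LaurentSeries (Kap V))))
    (hk1 : Function.Injective (algebraMap X1 (LaurentSeries (Kap V))))
    (hk01 : Function.Injective (algebraMap X01 (LaurentSeries (Kap V))))
    (ι : K →+* F) (hι : ∀ c : K, e (ι c) = HahnSeries.C c)
    (H : ∀ f : F, f ≠ 0 → Normalisable V (e f))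
    (p : ℕ) (hp : p ≠ 0) (hK : ∀ c : K, ∃ b : K, b ^ p = c)
    (φ01 : R01 →+* gaussSub V e)
    (hφ01 : ∀ x, ((φ01 x : gaussSub V e) : F) = algebraMap R01 F x)
    (hres01 : ∀ x, gaussRes V e (φ01 x) =
      algebraMap X01 (LaurentSeries (Kap V)) (algebraMap R01 X01 x))
    (hpc0 : ∀ (a : LaurentSeries (Kap V)) (c : X0),
      a ^ p = algebraMap X0 (LaurentSeries (Kap V)) c →
        a ∈ (algebraMap X0 (LaurentSeries (Kap V))).range)
    (hpc1 : ∀ (a : LaurentSeries (Kap V)) (c : X1),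
      a ^ p = algebraMap X1 (LaurentSeries (Kap V)) c →
        a ∈ (algebraMap X1 (LaurentSeries (Kap V))).range)
    (hker : ∀ w : gaussSub V e, gaussRes V e w ≠ 0 → dlog (gaussRes V e w) = 0 →
      ∃ v : gaussSub V e, gaussRes V e w = gaussRes V e v ^ p)
    (ε : M.N01 →ₗ[R01] F) (g : F) (hg : g ≠ 0)
    (h0 : frame0 M ε ^ p = Submodule.span R0 {g})
    (h1 : frame1 M ε ^ p = Submodule.span R1 {g})
    (hdl : dl V (e g) = 0) :
    LinePic.bc hc0 hc1 c cX (LinePic.mk c M hM) = 1 := by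
  obtain ⟨c0, -, w, hw, hwres, hdlw⟩ := exists_const_mul_unit ι hι (H g hg)
  rw [hdl] at hdlw
  obtain ⟨v, hv⟩ := hker w hwres hdlw.symm
  obtain ⟨b0, hb0⟩ := hK c0
  have hvne : gaussRes V e v ≠ 0 := by
    intro h0'
    apply hwres
    rw [hv, h0', zero_pow hp]
  have hwF : (w : F) = ι b0 ^ p * g := by rw [hw, ← map_pow, hb0]
  have h0' : frame0 M (smulFraming (ι b0) ε) ^ p =
      Submodule.span R0 {(gaussSub V e).subtype w} := by
    rw [frame0_smul, span_singleton_mul_pow _ _ _ _ h0, ← hwF]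
    rfl
  have h1' : frame1 M (smulFraming (ι b0) ε) ^ p =
      Submodule.span R1 {(gaussSub V e).subtype w} := by
    rw [frame1_smul, span_singleton_mul_pow _ _ _ _ h1, ← hwF]
    rfl
  exact bc_mk_eq_one_of_frame_pow hc0 hc1 c cX hM hk0 hk1 hk01 (gaussSub V e).subtype
    Subtype.val_injective (gaussRes V e) φ01 hφ01 hres01 p hp (gaussSub_pClosed V e H p hp)
    hpc0 hpc1 (smulFraming (ι b0) ε) w (gaussRes V e v) hvne hv h0' h1'

end Comp

/-! ### `PicX` glue -/

section Glue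

open Fermat.Agent.T1.RedIface75 Fermat.Agent.T1B.RedN3
open scoped Fermat.Agent.Jac.BaseChange75

variable {W B0 B1 B01 : Type u} [CommRing W] [CommRing B0] [CommRing B1] [CommRing B01]
  [Algebra W B0] [Algebra W B1] [Algebra W B01] [Algebra B0 B01] [Algebra B1 B01]
  [IsScalarTower W B0 B01] [IsScalarTower W B1 B01]
  {c0 : TwoChart W B0 B1 B01}
  {O : Type u} [CommRing O] [IsDomain O] [IsDiscreteValuationRing O] [Algebra W O]
  {L : Type u} [CommRing L] [Algebra W L] [Algebra O L] [IsScalarTower W O L]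
  {P00 : Subgroup (PicX c0 O)}
  -- the component `X` of the special fibre, also as a quotient of the integral model
  {X0 X1 X01 : Type u} [CommRing X0] [CommRing X1] [CommRing X01]
  [Algebra (IsLocalRing.ResidueField O) X0] [Algebra (IsLocalRing.ResidueField O) X1]
  [Algebra (IsLocalRing.ResidueField O) X01] [Algebra X0 X01] [Algebra X1 X01]
  [IsScalarTower (IsLocalRing.ResidueField O) X0 X01]
  [IsScalarTower (IsLocalRing.ResidueField O) X1 X01]
  [Algebra ((IsLocalRing.ResidueField O) ⊗[W] B0) X0]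
  [Algebra ((IsLocalRing.ResidueField O) ⊗[W] B1) X1]
  [Algebra ((IsLocalRing.ResidueField O) ⊗[W] B01) X01]
  [IsScalarTower (IsLocalRing.ResidueField O) ((IsLocalRing.ResidueField O) ⊗[W] B0) X0]
  [IsScalarTower (IsLocalRing.ResidueField O) ((IsLocalRing.ResidueField O) ⊗[W] B1) X1]
  [Algebra (O ⊗[W] B0) X0] [Algebra (O ⊗[W] B1) X1] [Algebra (O ⊗[W] B01) X01]
  [IsScalarTower (O ⊗[W] B0) ((IsLocalRing.ResidueField O) ⊗[W] B0) X0]
  [IsScalarTower (O ⊗[W] B1) ((IsLocalRing.ResidueField O) ⊗[W] B1) X1]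
  [IsScalarTower (O ⊗[W] B01) ((IsLocalRing.ResidueField O) ⊗[W] B01) X01]
  -- the component `Y`
  {Y0 Y1 Y01 : Type u} [CommRing Y0] [CommRing Y1] [CommRing Y01]
  [Algebra (IsLocalRing.ResidueField O) Y0] [Algebra (IsLocalRing.ResidueField O) Y1]
  [Algebra (IsLocalRing.ResidueField O) Y01] [Algebra Y0 Y01] [Algebra Y1 Y01]
  [IsScalarTower (IsLocalRing.ResidueField O) Y0 Y01]
  [IsScalarTower (IsLocalRing.ResidueField O) Y1 Y01]
  [Algebra ((IsLocalRing.ResidueField O) ⊗[W] B0) Y0]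
  [Algebra ((IsLocalRing.ResidueField O) ⊗[W] B1) Y1]
  [Algebra ((IsLocalRing.ResidueField O) ⊗[W] B01) Y01]
  [IsScalarTower (IsLocalRing.ResidueField O) ((IsLocalRing.ResidueField O) ⊗[W] B0) Y0]
  [IsScalarTower (IsLocalRing.ResidueField O) ((IsLocalRing.ResidueField O) ⊗[W] B1) Y1]
  [Algebra (O ⊗[W] B0) Y0] [Algebra (O ⊗[W] B1) Y1] [Algebra (O ⊗[W] B01) Y01]
  [IsScalarTower (O ⊗[W] B0) ((IsLocalRing.ResidueField O) ⊗[W] B0) Y0]
  [IsScalarTower (O ⊗[W] B1) ((IsLocalRing.ResidueField O) ⊗[W] B1) Y1]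
  [IsScalarTower (O ⊗[W] B01) ((IsLocalRing.ResidueField O) ⊗[W] B01) Y01]

/-- **`PicX` glue for (K).**  `y ∈ J⁰(L)` with `y ^ p = 1`; `x ∈ P00` an extension of `y` to the
integral model.  If `x` restricts trivially to the two components `X`, `Y` of the special fibre
(cubes from the integral model `c0.baseChange O`), then `y ∈ J¹(L)`. -/
theorem mem_J1L_of_bc_eq_one (hinj : ExtInjective00 c0 O L P00)
    (p : ℕ) [Fact p.Prime] [CharP (IsLocalRing.ResidueField O) p]
    (hroot : ∀ d : (IsLocalRing.ResidueField O), ∃ δ : (IsLocalRing.ResidueField O), δ ^ p = d)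
    (cX : TwoChart (IsLocalRing.ResidueField O) X0 X1 X01)
    (cY : TwoChart (IsLocalRing.ResidueField O) Y0 Y1 Y01)
    (hX0 : (algebraMap X0 X01).comp (algebraMap ((IsLocalRing.ResidueField O) ⊗[W] B0) X0) =
      (algebraMap ((IsLocalRing.ResidueField O) ⊗[W] B01) X01).comp
        (algebraMap ((IsLocalRing.ResidueField O) ⊗[W] B0) ((IsLocalRing.ResidueField O) ⊗[W] B01)))
    (hX1 : (algebraMap X1 X01).comp (algebraMap ((IsLocalRing.ResidueField O) ⊗[W] B1) X1) =
      (algebraMap ((IsLocalRing.ResidueField O) ⊗[W] B01) X01).comp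
        (algebraMap ((IsLocalRing.ResidueField O) ⊗[W] B1) ((IsLocalRing.ResidueField O) ⊗[W] B01)))
    (hY0 : (algebraMap Y0 Y01).comp (algebraMap ((IsLocalRing.ResidueField O) ⊗[W] B0) Y0) =
      (algebraMap ((IsLocalRing.ResidueField O) ⊗[W] B01) Y01).comp
        (algebraMap ((IsLocalRing.ResidueField O) ⊗[W] B0) ((IsLocalRing.ResidueField O) ⊗[W] B01)))
    (hY1 : (algebraMap Y1 Y01).comp (algebraMap ((IsLocalRing.ResidueField O) ⊗[W] B1) Y1) =
      (algebraMap ((IsLocalRing.ResidueField O) ⊗[W] B01) Y01).comp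
        (algebraMap ((IsLocalRing.ResidueField O) ⊗[W] B1) ((IsLocalRing.ResidueField O) ⊗[W] B01)))
    (hX0' : (algebraMap X0 X01).comp (algebraMap (O ⊗[W] B0) X0) =
      (algebraMap (O ⊗[W] B01) X01).comp (algebraMap (O ⊗[W] B0) (O ⊗[W] B01)))
    (hX1' : (algebraMap X1 X01).comp (algebraMap (O ⊗[W] B1) X1) =
      (algebraMap (O ⊗[W] B01) X01).comp (algebraMap (O ⊗[W] B1) (O ⊗[W] B01)))
    (hY0' : (algebraMap Y0 Y01).comp (algebraMap (O ⊗[W] B0) Y0) =
      (algebraMap (O ⊗[W] B01) Y01).comp (algebraMap (O ⊗[W] B0) (O ⊗[W] B01)))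
    (hY1' : (algebraMap Y1 Y01).comp (algebraMap (O ⊗[W] B1) Y1) =
      (algebraMap (O ⊗[W] B01) Y01).comp (algebraMap (O ⊗[W] B1) (O ⊗[W] B01)))
    (sX0 : Function.Surjective (algebraMap ((IsLocalRing.ResidueField O) ⊗[W] B0) X0))
    (sX1 : Function.Surjective (algebraMap ((IsLocalRing.ResidueField O) ⊗[W] B1) X1))
    (sX01 : Function.Surjective (algebraMap ((IsLocalRing.ResidueField O) ⊗[W] B01) X01))
    (sY0 : Function.Surjective (algebraMap ((IsLocalRing.ResidueField O) ⊗[W] B0) Y0))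
    (sY1 : Function.Surjective (algebraMap ((IsLocalRing.ResidueField O) ⊗[W] B1) Y1))
    (sY01 : Function.Surjective (algebraMap ((IsLocalRing.ResidueField O) ⊗[W] B01) Y01))
    (hcX : Fermat.Agent.T1.Red68.H0Const cX) (hcY : Fermat.Agent.T1.Red68.H0Const cY)
    [Nontrivial X0] [Nontrivial Y0]
    (h0 : RingHom.ker (algebraMap ((IsLocalRing.ResidueField O) ⊗[W] B0) X0) ⊓
      RingHom.ker (algebraMap ((IsLocalRing.ResidueField O) ⊗[W] B0) Y0) = ⊥)
    (h1 : RingHom.ker (algebraMap ((IsLocalRing.ResidueField O) ⊗[W] B1) X1) ⊓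
      RingHom.ker (algebraMap ((IsLocalRing.ResidueField O) ⊗[W] B1) Y1) = ⊥)
    (h01 : RingHom.ker (algebraMap ((IsLocalRing.ResidueField O) ⊗[W] B01) X01) ⊓
      RingHom.ker (algebraMap ((IsLocalRing.ResidueField O) ⊗[W] B01) Y01) = ⊥)
    (hrad0 : (RingHom.ker (algebraMap ((IsLocalRing.ResidueField O) ⊗[W] B0) X0) ⊔
      RingHom.ker (algebraMap ((IsLocalRing.ResidueField O) ⊗[W] B0) Y0)).IsRadical)
    (hrad1 : (RingHom.ker (algebraMap ((IsLocalRing.ResidueField O) ⊗[W] B1) X1) ⊔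
      RingHom.ker (algebraMap ((IsLocalRing.ResidueField O) ⊗[W] B1) Y1)).IsRadical)
    (y : J0L c0 O L P00) (hyp : y ^ p = 1)
    (x : PicX c0 O) (hx : x ∈ P00) (hxy : PicX.map c0 O L x = y)
    (hxX : LinePic.bc hX0' hX1' (c0.baseChange O) cX x = 1)
    (hxY : LinePic.bc hY0' hY1' (c0.baseChange O) cY x = 1) :
    (y : PicX c0 L) ∈ J1L c0 O L P00 := by
  have hy : y = ⟨PicX.map c0 O L x, Subgroup.mem_map_of_mem _ hx⟩ := Subtype.ext hxy.symm
  have hred : redL hinj y = red c0 O x := by rw [hy]; exact redL_map hinj x hx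
  refine mem_J1L_of_pow_eq_one hinj p hroot cX cY hX0 hX1 hY0 hY1 sX0 sX1 sX01 sY0 sY1 sY01
    hcX hcY h0 h1 h01 hrad0 hrad1 y hyp ?_ ?_
  · rw [hred, ← hxX]
    exact Fermat.Agent.T1B.Bal60.bc_bc _ _ hX0 hX1 hX0' hX1' (c0.baseChange O)
      (c0.baseChange (IsLocalRing.ResidueField O)) cX x
  · rw [hred, ← hxY]
    exact Fermat.Agent.T1B.Bal60.bc_bc _ _ hY0 hY1 hY0' hY1' (c0.baseChange O)
      (c0.baseChange (IsLocalRing.ResidueField O)) cY x

/-- **(K), assembled.**  `y ∈ J⁰(L)`, `y ^ p = 1`, extended by the class of the line `M ∈ P00` on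
the integral model, framed by `ε` with `frame_j M ε ^ p = R_j ∙ g`.  If the `q`-dlogs
`dl V (e₁ g)` and `dl V (e₂ g)` of `g` along the two expansions (the two components of the special
fibre) vanish, then `y ∈ J¹(L)`.  [With DICT-EXT: `y = j(P)`, `P = cls D`, `p • D = ∓ div g`,
`δ_i(P) = ∓ dl V (e_i g)` by `Hecke3.delta_eq`: this is `δ₁(P) = δ₂(P) = 0 ⟹ P ∈ J¹`.] -/
theorem mem_J1L_of_dl_eq_zero (hinj : ExtInjective00 c0 O L P00)
    (p : ℕ) [Fact p.Prime] [CharP (IsLocalRing.ResidueField O) p]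
    (hroot : ∀ d : (IsLocalRing.ResidueField O), ∃ δ : (IsLocalRing.ResidueField O), δ ^ p = d)
    (cX : TwoChart (IsLocalRing.ResidueField O) X0 X1 X01)
    (cY : TwoChart (IsLocalRing.ResidueField O) Y0 Y1 Y01)
    (hX0 : (algebraMap X0 X01).comp (algebraMap ((IsLocalRing.ResidueField O) ⊗[W] B0) X0) =
      (algebraMap ((IsLocalRing.ResidueField O) ⊗[W] B01) X01).comp
        (algebraMap ((IsLocalRing.ResidueField O) ⊗[W] B0) ((IsLocalRing.ResidueField O) ⊗[W] B01)))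
    (hX1 : (algebraMap X1 X01).comp (algebraMap ((IsLocalRing.ResidueField O) ⊗[W] B1) X1) =
      (algebraMap ((IsLocalRing.ResidueField O) ⊗[W] B01) X01).comp
        (algebraMap ((IsLocalRing.ResidueField O) ⊗[W] B1) ((IsLocalRing.ResidueField O) ⊗[W] B01)))
    (hY0 : (algebraMap Y0 Y01).comp (algebraMap ((IsLocalRing.ResidueField O) ⊗[W] B0) Y0) =
      (algebraMap ((IsLocalRing.ResidueField O) ⊗[W] B01) Y01).comp
        (algebraMap ((IsLocalRing.ResidueField O) ⊗[W] B0) ((IsLocalRing.ResidueField O) ⊗[W] B01)))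
    (hY1 : (algebraMap Y1 Y01).comp (algebraMap ((IsLocalRing.ResidueField O) ⊗[W] B1) Y1) =
      (algebraMap ((IsLocalRing.ResidueField O) ⊗[W] B01) Y01).comp
        (algebraMap ((IsLocalRing.ResidueField O) ⊗[W] B1) ((IsLocalRing.ResidueField O) ⊗[W] B01)))
    (hX0' : (algebraMap X0 X01).comp (algebraMap (O ⊗[W] B0) X0) =
      (algebraMap (O ⊗[W] B01) X01).comp (algebraMap (O ⊗[W] B0) (O ⊗[W] B01)))
    (hX1' : (algebraMap X1 X01).comp (algebraMap (O ⊗[W] B1) X1) =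
      (algebraMap (O ⊗[W] B01) X01).comp (algebraMap (O ⊗[W] B1) (O ⊗[W] B01)))
    (hY0' : (algebraMap Y0 Y01).comp (algebraMap (O ⊗[W] B0) Y0) =
      (algebraMap (O ⊗[W] B01) Y01).comp (algebraMap (O ⊗[W] B0) (O ⊗[W] B01)))
    (hY1' : (algebraMap Y1 Y01).comp (algebraMap (O ⊗[W] B1) Y1) =
      (algebraMap (O ⊗[W] B01) Y01).comp (algebraMap (O ⊗[W] B1) (O ⊗[W] B01)))
    (sX0 : Function.Surjective (algebraMap ((IsLocalRing.ResidueField O) ⊗[W] B0) X0))
    (sX1 : Function.Surjective (algebraMap ((IsLocalRing.ResidueField O) ⊗[W] B1) X1))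
    (sX01 : Function.Surjective (algebraMap ((IsLocalRing.ResidueField O) ⊗[W] B01) X01))
    (sY0 : Function.Surjective (algebraMap ((IsLocalRing.ResidueField O) ⊗[W] B0) Y0))
    (sY1 : Function.Surjective (algebraMap ((IsLocalRing.ResidueField O) ⊗[W] B1) Y1))
    (sY01 : Function.Surjective (algebraMap ((IsLocalRing.ResidueField O) ⊗[W] B01) Y01))
    (hcX : Fermat.Agent.T1.Red68.H0Const cX) (hcY : Fermat.Agent.T1.Red68.H0Const cY)
    [Nontrivial X0] [Nontrivial Y0]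
    (h0 : RingHom.ker (algebraMap ((IsLocalRing.ResidueField O) ⊗[W] B0) X0) ⊓
      RingHom.ker (algebraMap ((IsLocalRing.ResidueField O) ⊗[W] B0) Y0) = ⊥)
    (h1 : RingHom.ker (algebraMap ((IsLocalRing.ResidueField O) ⊗[W] B1) X1) ⊓
      RingHom.ker (algebraMap ((IsLocalRing.ResidueField O) ⊗[W] B1) Y1) = ⊥)
    (h01 : RingHom.ker (algebraMap ((IsLocalRing.ResidueField O) ⊗[W] B01) X01) ⊓
      RingHom.ker (algebraMap ((IsLocalRing.ResidueField O) ⊗[W] B01) Y01) = ⊥)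
    (hrad0 : (RingHom.ker (algebraMap ((IsLocalRing.ResidueField O) ⊗[W] B0) X0) ⊔
      RingHom.ker (algebraMap ((IsLocalRing.ResidueField O) ⊗[W] B0) Y0)).IsRadical)
    (hrad1 : (RingHom.ker (algebraMap ((IsLocalRing.ResidueField O) ⊗[W] B1) X1) ⊔
      RingHom.ker (algebraMap ((IsLocalRing.ResidueField O) ⊗[W] B1) Y1)).IsRadical)
    -- the function field and the two expansions
    {F : Type v} [Field F] [Algebra (O ⊗[W] B0) F] [Algebra (O ⊗[W] B1) F]
    [Algebra (O ⊗[W] B01) F] [IsScalarTower (O ⊗[W] B0) (O ⊗[W] B01) F]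
    [IsScalarTower (O ⊗[W] B1) (O ⊗[W] B01) F]
    {K : Type w} [Field K] (V : ValuationSubring K) (e₁ e₂ : F →+* LaurentSeries K)
    [Algebra X0 (LaurentSeries (Kap V))] [Algebra X1 (LaurentSeries (Kap V))]
    [Algebra X01 (LaurentSeries (Kap V))]
    [IsScalarTower X0 X01 (LaurentSeries (Kap V))] [IsScalarTower X1 X01 (LaurentSeries (Kap V))]
    [Algebra Y0 (LaurentSeries (Kap V))] [Algebra Y1 (LaurentSeries (Kap V))]
    [Algebra Y01 (LaurentSeries (Kap V))]
    [IsScalarTower Y0 Y01 (LaurentSeries (Kap V))] [IsScalarTower Y1 Y01 (LaurentSeries (Kap V))]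
    (hkX0 : Function.Injective (algebraMap X0 (LaurentSeries (Kap V))))
    (hkX1 : Function.Injective (algebraMap X1 (LaurentSeries (Kap V))))
    (hkX01 : Function.Injective (algebraMap X01 (LaurentSeries (Kap V))))
    (hkY0 : Function.Injective (algebraMap Y0 (LaurentSeries (Kap V))))
    (hkY1 : Function.Injective (algebraMap Y1 (LaurentSeries (Kap V))))
    (hkY01 : Function.Injective (algebraMap Y01 (LaurentSeries (Kap V))))
    (ι : K →+* F) (hι₁ : ∀ c : K, e₁ (ι c) = HahnSeries.C c)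
    (hι₂ : ∀ c : K, e₂ (ι c) = HahnSeries.C c)
    (H₁ : ∀ f : F, f ≠ 0 → Normalisable V (e₁ f)) (H₂ : ∀ f : F, f ≠ 0 → Normalisable V (e₂ f))
    (hK : ∀ c : K, ∃ b : K, b ^ p = c)
    (φ₁ : (O ⊗[W] B01) →+* gaussSub V e₁)
    (hφ₁ : ∀ x, ((φ₁ x : gaussSub V e₁) : F) = algebraMap (O ⊗[W] B01) F x)
    (hres₁ : ∀ x, gaussRes V e₁ (φ₁ x) =
      algebraMap X01 (LaurentSeries (Kap V)) (algebraMap (O ⊗[W] B01) X01 x))
    (φ₂ : (O ⊗[W] B01) →+* gaussSub V e₂)
    (hφ₂ : ∀ x, ((φ₂ x : gaussSub V e₂) : F) = algebraMap (O ⊗[W] B01) F x)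
    (hres₂ : ∀ x, gaussRes V e₂ (φ₂ x) =
      algebraMap Y01 (LaurentSeries (Kap V)) (algebraMap (O ⊗[W] B01) Y01 x))
    (hpcX0 : ∀ (a : LaurentSeries (Kap V)) (c : X0),
      a ^ p = algebraMap X0 (LaurentSeries (Kap V)) c →
        a ∈ (algebraMap X0 (LaurentSeries (Kap V))).range)
    (hpcX1 : ∀ (a : LaurentSeries (Kap V)) (c : X1),
      a ^ p = algebraMap X1 (LaurentSeries (Kap V)) c →
        a ∈ (algebraMap X1 (LaurentSeries (Kap V))).range)
    (hpcY0 : ∀ (a : LaurentSeries (Kap V)) (c : Y0),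
      a ^ p = algebraMap Y0 (LaurentSeries (Kap V)) c →
        a ∈ (algebraMap Y0 (LaurentSeries (Kap V))).range)
    (hpcY1 : ∀ (a : LaurentSeries (Kap V)) (c : Y1),
      a ^ p = algebraMap Y1 (LaurentSeries (Kap V)) c →
        a ∈ (algebraMap Y1 (LaurentSeries (Kap V))).range)
    (hker₁ : ∀ w : gaussSub V e₁, gaussRes V e₁ w ≠ 0 → dlog (gaussRes V e₁ w) = 0 →
      ∃ v : gaussSub V e₁, gaussRes V e₁ w = gaussRes V e₁ v ^ p)
    (hker₂ : ∀ w : gaussSub V e₂, gaussRes V e₂ w ≠ 0 → dlog (gaussRes V e₂ w) = 0 →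
      ∃ v : gaussSub V e₂, gaussRes V e₂ w = gaussRes V e₂ v ^ p)
    (y : J0L c0 O L P00) (hyp : y ^ p = 1)
    {M : QC2 O (O ⊗[W] B0) (O ⊗[W] B1) (O ⊗[W] B01)} (hM : M.IsLine)
    (hMP : LinePic.mk (c0.baseChange O) M hM ∈ P00)
    (hMy : PicX.map c0 O L (LinePic.mk (c0.baseChange O) M hM) = y)
    (ε : M.N01 →ₗ[O ⊗[W] B01] F) (g : F) (hg : g ≠ 0)
    (hf0 : frame0 M ε ^ p = Submodule.span (O ⊗[W] B0) {g})
    (hf1 : frame1 M ε ^ p = Submodule.span (O ⊗[W] B1) {g})
    (hdl₁ : dl V (e₁ g) = 0) (hdl₂ : dl V (e₂ g) = 0) :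
    (y : PicX c0 L) ∈ J1L c0 O L P00 :=
  mem_J1L_of_bc_eq_one hinj p hroot cX cY hX0 hX1 hY0 hY1 hX0' hX1' hY0' hY1' sX0 sX1 sX01
    sY0 sY1 sY01 hcX hcY h0 h1 h01 hrad0 hrad1 y hyp _ hMP hMy
    (bc_mk_eq_one_of_dl_eq_zero V e₁ hX0' hX1' (c0.baseChange O) cX hM hkX0 hkX1 hkX01 ι hι₁ H₁
      p (Fact.out : p.Prime).ne_zero hK φ₁ hφ₁ hres₁ hpcX0 hpcX1 hker₁ ε g hg hf0 hf1 hdl₁)
    (bc_mk_eq_one_of_dl_eq_zero V e₂ hY0' hY1' (c0.baseChange O) cY hM hkY0 hkY1 hkY01 ι hι₂ H₂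
      p (Fact.out : p.Prime).ne_zero hK φ₂ hφ₂ hres₂ hpcY0 hpcY1 hker₂ ε g hg hf0 hf1 hdl₂)

end Glue

end Fermat.Agent.T1B.Ker85
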