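/-
Fermat/Agent/T1B/Ker85/AsmComp.lean (helper85) -- programme T1B (row 38), brick TORUS-INST (K1):
KER (`Ker85.Asm`) restated in helper60's component vocabulary `Bal60.Comp`.

* `ker_inf_ker_eq_bot_of_surjective`, `isRadical_ker_sup_ker_of_surjective` : transport of
  `ker ⊓ ker = ⊥` and of `(ker ⊔ ker).IsRadical` along a surjection `R → R'`;
* `mem_J1L_of_res_eq_one` : **`PicX` glue, `Comp` form**: `hg : NodalGood (c0.baseChange O) π (Fin 2)`,
  `X i : Bal60.Comp ..` the two components over `κ = O/π`; a class `y ∈ J⁰(L)`, `y ^ p = 1`, whose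
  extension `x ∈ P00 hg X` restricts trivially to both components (`(X i).res x = 1`), lies in
  `J¹(L)`.  The cube hypotheses are now statements about `hg` and `X` only;
* `mem_J1L_of_dl_eq_zero_comp` : **(K)** in `Comp` form.
-/
import Mathlib
import Fermat.Agent.T1B.Ker85.Asm
import Fermat.Agent.T1B.Bal60.Hub

set_option autoImplicit false
set_option linter.unusedSectionVars false
set_option linter.style.haveILetI false

open TensorProduct

namespace Fermat.Agent.T1B.Ker85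

open Fermat.Agent.Jac Fermat.Agent.Jac.LineOps39 Fermat.Agent.Jac.JGroup85Pic
open Fermat.Agent.Jac.JSmooth85Alg Fermat.Agent.Jac.BaseChange75
open Fermat.Agent.T1B.Hecke3 Fermat.Agent.T1B.Hol31.Frame

universe u v w

/-! ### Two ring lemmas -/

section Rings

variable {R R' C D : Type*} [CommRing R] [CommRing R'] [CommRing C] [CommRing D]

theorem ker_inf_ker_eq_bot_of_surjective (a : R →+* R') (ha : Function.Surjective a)
    (f' : R' →+* C) (g' : R' →+* D)
    (h : ∀ x : R, f' (a x) = 0 → g' (a x) = 0 → a x = 0) :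
    RingHom.ker f' ⊓ RingHom.ker g' = ⊥ := by
  rw [eq_bot_iff]
  intro z hz
  obtain ⟨x, rfl⟩ := ha z
  rw [Ideal.mem_inf, RingHom.mem_ker, RingHom.mem_ker] at hz
  exact (Ideal.mem_bot).2 (h x hz.1 hz.2)

theorem isRadical_ker_sup_ker_of_surjective (a : R →+* R') (ha : Function.Surjective a)
    (f' : R' →+* C) (g' : R' →+* D)
    (hrad : (RingHom.ker (f'.comp a) ⊔ RingHom.ker (g'.comp a)).IsRadical) :
    (RingHom.ker f' ⊔ RingHom.ker g').IsRadical := by
  have hf : RingHom.ker (f'.comp a) = (RingHom.ker f').comap a := by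
    ext x; simp [RingHom.mem_ker, Ideal.mem_comap]
  have hg : RingHom.ker (g'.comp a) = (RingHom.ker g').comap a := by
    ext x; simp [RingHom.mem_ker, Ideal.mem_comap]
  set J : Ideal R := (RingHom.ker f').comap a ⊔ (RingHom.ker g').comap a with hJ
  have hmap : RingHom.ker f' ⊔ RingHom.ker g' = J.map a := by
    rw [hJ, Ideal.map_sup, Ideal.map_comap_of_surjective a ha,
      Ideal.map_comap_of_surjective a ha]
  have hkerJ : RingHom.ker a ≤ J := by
    intro x hx
    apply Ideal.mem_sup_left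
    rw [Ideal.mem_comap, RingHom.mem_ker.1 hx]
    exact Ideal.zero_mem _
  have hcomap : (J.map a).comap a = J := by
    rw [Ideal.comap_map_of_surjective a ha]
    exact sup_eq_left.2 hkerJ
  rw [hf, hg] at hrad
  rw [hmap]
  intro z hz
  obtain ⟨x, rfl⟩ := ha z
  obtain ⟨n, hn⟩ := hz
  have hx : x ^ n ∈ J := by
    rw [← hcomap, Ideal.mem_comap, map_pow]; exact hn
  exact Ideal.mem_map_of_mem a (hrad ⟨n, hx⟩)

end Rings

/-! ### `PicX` glue in `Comp` form -/

section Glue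

open Fermat.Agent.T1.RedIface75 Fermat.Agent.T1B.RedN3 Fermat.Agent.T1B.Bal60
open scoped Fermat.Agent.Jac.BaseChange75

variable {W B0 B1 B01 : Type u} [CommRing W] [CommRing B0] [CommRing B1] [CommRing B01]
  [Algebra W B0] [Algebra W B1] [Algebra W B01] [Algebra B0 B01] [Algebra B1 B01]
  [IsScalarTower W B0 B01] [IsScalarTower W B1 B01]
  (c0 : TwoChart W B0 B1 B01)
  {O : Type u} [CommRing O] [IsDomain O] [IsDiscreteValuationRing O] [Algebra W O]
  {L : Type u} [CommRing L] [Algebra W L] [Algebra O L] [IsScalarTower W O L]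

/-- The kernel of `O ⊗ B → κ ⊗ B` dies in any ring in which `π ⊗ 1` dies. -/
theorem ker_left_le_ker {π : O} (hπ : IsLocalRing.maximalIdeal O = Ideal.span {π})
    (B : Type u) [CommRing B] [Algebra W B] {C : Type*} [CommRing C] (f : (O ⊗[W] B) →+* C)
    (hf : f (algebraMap O (O ⊗[W] B) π) = 0) :
    RingHom.ker (algebraMap (O ⊗[W] B) (IsLocalRing.ResidueField O ⊗[W] B)) ≤ RingHom.ker f := by
  refine (ker_algebraMap_left_le O B hπ).trans ?_
  rw [Ideal.span_le, Set.singleton_subset_iff]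
  exact hf

/-- **`PicX` glue for (K), `Comp` form.** -/
theorem mem_J1L_of_res_eq_one {π : O} (hπ : IsLocalRing.maximalIdeal O = Ideal.span {π})
    (hg : NodalGood (c0.baseChange O) π (Fin 2))
    (X : ∀ i, Comp (c0.baseChange O) (hg.P0 i) (hg.P1 i) (IsLocalRing.ResidueField O))
    (hinj : ExtInjective00 c0 O L (P00 hg X))
    (p : ℕ) [Fact p.Prime] [CharP (IsLocalRing.ResidueField O) p]
    (hroot : ∀ d : IsLocalRing.ResidueField O, ∃ δ : IsLocalRing.ResidueField O, δ ^ p = d)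
    (hconst0 : ∀ i (a : O), algebraMap (IsLocalRing.ResidueField O) (X i).C0
      (IsLocalRing.residue O a) = algebraMap (O ⊗[W] B0) (X i).C0 (algebraMap O (O ⊗[W] B0) a))
    (hconst1 : ∀ i (a : O), algebraMap (IsLocalRing.ResidueField O) (X i).C1
      (IsLocalRing.residue O a) = algebraMap (O ⊗[W] B1) (X i).C1 (algebraMap O (O ⊗[W] B1) a))
    (s01 : ∀ i, Function.Surjective (algebraMap (O ⊗[W] B01) (X i).C01))
    (ker01 : ∀ i, RingHom.ker (algebraMap (O ⊗[W] B01) (X i).C01) = hg.Q i)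
    (hH0 : ∀ i, Fermat.Agent.T1.Red68.H0Const (X i).chart)
    (inf01 : ∀ x : O ⊗[W] B01, (∀ i, x ∈ hg.Q i) →
      ∃ y : O ⊗[W] B01, x = algebraMap O (O ⊗[W] B01) π * y)
    (hrad0 : (hg.P0 0 ⊔ hg.P0 1).IsRadical) (hrad1 : (hg.P1 0 ⊔ hg.P1 1).IsRadical)
    (y : J0L c0 O L (P00 hg X)) (hyp : y ^ p = 1)
    (x : PicX c0 O) (hx : x ∈ P00 hg X) (hxy : PicX.map c0 O L x = y)
    (hres : ∀ i, (X i).res x = 1) :
    (y : PicX c0 L) ∈ J1L c0 O L (P00 hg X) := by
  -- abbreviations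
  let a0 := algebraMap (O ⊗[W] B0) (IsLocalRing.ResidueField O ⊗[W] B0)
  let a1 := algebraMap (O ⊗[W] B1) (IsLocalRing.ResidueField O ⊗[W] B1)
  let a01 := algebraMap (O ⊗[W] B01) (IsLocalRing.ResidueField O ⊗[W] B01)
  have sa0 : Function.Surjective a0 := surjective_algebraMap_left O B0
  have sa1 : Function.Surjective a1 := surjective_algebraMap_left O B1
  have sa01 : Function.Surjective a01 := surjective_algebraMap_left O B01
  have memQ' : ∀ i, algebraMap O (O ⊗[W] B01) π ∈ hg.Q i := fun i => by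
    have h := hg.mem0 i
    rw [← hg.comap0 i, Ideal.mem_comap, ← IsScalarTower.algebraMap_apply] at h
    exact h
  have k0 : ∀ i, RingHom.ker a0 ≤ RingHom.ker (algebraMap (O ⊗[W] B0) (X i).C0) := fun i =>
    ker_left_le_ker hπ B0 _ (by
      have := hg.mem0 i
      rw [← (X i).ker0] at this
      exact this)
  have k1 : ∀ i, RingHom.ker a1 ≤ RingHom.ker (algebraMap (O ⊗[W] B1) (X i).C1) := fun i =>
    ker_left_le_ker hπ B1 _ (by
      have := hg.mem1 i
      rw [← (X i).ker1] at this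
      exact this)
  have k01 : ∀ i, RingHom.ker a01 ≤ RingHom.ker (algebraMap (O ⊗[W] B01) (X i).C01) := fun i =>
    ker_left_le_ker hπ B01 _ (by
      have := memQ' i
      rw [← ker01 i] at this
      exact this)
  -- the `κ ⊗ B_j`-algebra structures on the components
  letI algX0 : Algebra (IsLocalRing.ResidueField O ⊗[W] B0) (X 0).C0 :=
    (RingHom.liftOfSurjective a0 sa0 ⟨algebraMap _ (X 0).C0, k0 0⟩).toAlgebra
  letI algX1 : Algebra (IsLocalRing.ResidueField O ⊗[W] B1) (X 0).C1 :=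
    (RingHom.liftOfSurjective a1 sa1 ⟨algebraMap _ (X 0).C1, k1 0⟩).toAlgebra
  letI algX01 : Algebra (IsLocalRing.ResidueField O ⊗[W] B01) (X 0).C01 :=
    (RingHom.liftOfSurjective a01 sa01 ⟨algebraMap _ (X 0).C01, k01 0⟩).toAlgebra
  letI algY0 : Algebra (IsLocalRing.ResidueField O ⊗[W] B0) (X 1).C0 :=
    (RingHom.liftOfSurjective a0 sa0 ⟨algebraMap _ (X 1).C0, k0 1⟩).toAlgebra
  letI algY1 : Algebra (IsLocalRing.ResidueField O ⊗[W] B1) (X 1).C1 :=
    (RingHom.liftOfSurjective a1 sa1 ⟨algebraMap _ (X 1).C1, k1 1⟩).toAlgebra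
  letI algY01 : Algebra (IsLocalRing.ResidueField O ⊗[W] B01) (X 1).C01 :=
    (RingHom.liftOfSurjective a01 sa01 ⟨algebraMap _ (X 1).C01, k01 1⟩).toAlgebra
  have eX0 : ∀ z : O ⊗[W] B0, algebraMap (IsLocalRing.ResidueField O ⊗[W] B0) (X 0).C0 (a0 z) =
      algebraMap (O ⊗[W] B0) (X 0).C0 z :=
    fun z => RingHom.liftOfSurjective_comp_apply a0 sa0 ⟨_, k0 0⟩ z
  have eX1 : ∀ z : O ⊗[W] B1, algebraMap (IsLocalRing.ResidueField O ⊗[W] B1) (X 0).C1 (a1 z) =
      algebraMap (O ⊗[W] B1) (X 0).C1 z :=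
    fun z => RingHom.liftOfSurjective_comp_apply a1 sa1 ⟨_, k1 0⟩ z
  have eX01 : ∀ z : O ⊗[W] B01,
      algebraMap (IsLocalRing.ResidueField O ⊗[W] B01) (X 0).C01 (a01 z) =
      algebraMap (O ⊗[W] B01) (X 0).C01 z :=
    fun z => RingHom.liftOfSurjective_comp_apply a01 sa01 ⟨_, k01 0⟩ z
  have eY0 : ∀ z : O ⊗[W] B0, algebraMap (IsLocalRing.ResidueField O ⊗[W] B0) (X 1).C0 (a0 z) =
      algebraMap (O ⊗[W] B0) (X 1).C0 z :=
    fun z => RingHom.liftOfSurjective_comp_apply a0 sa0 ⟨_, k0 1⟩ z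
  have eY1 : ∀ z : O ⊗[W] B1, algebraMap (IsLocalRing.ResidueField O ⊗[W] B1) (X 1).C1 (a1 z) =
      algebraMap (O ⊗[W] B1) (X 1).C1 z :=
    fun z => RingHom.liftOfSurjective_comp_apply a1 sa1 ⟨_, k1 1⟩ z
  have eY01 : ∀ z : O ⊗[W] B01,
      algebraMap (IsLocalRing.ResidueField O ⊗[W] B01) (X 1).C01 (a01 z) =
      algebraMap (O ⊗[W] B01) (X 1).C01 z :=
    fun z => RingHom.liftOfSurjective_comp_apply a01 sa01 ⟨_, k01 1⟩ z
  haveI tX0 : IsScalarTower (O ⊗[W] B0) (IsLocalRing.ResidueField O ⊗[W] B0) (X 0).C0 :=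
    IsScalarTower.of_algebraMap_eq fun z => (eX0 z).symm
  haveI tX1 : IsScalarTower (O ⊗[W] B1) (IsLocalRing.ResidueField O ⊗[W] B1) (X 0).C1 :=
    IsScalarTower.of_algebraMap_eq fun z => (eX1 z).symm
  haveI tX01 : IsScalarTower (O ⊗[W] B01) (IsLocalRing.ResidueField O ⊗[W] B01) (X 0).C01 :=
    IsScalarTower.of_algebraMap_eq fun z => (eX01 z).symm
  haveI tY0 : IsScalarTower (O ⊗[W] B0) (IsLocalRing.ResidueField O ⊗[W] B0) (X 1).C0 :=
    IsScalarTower.of_algebraMap_eq fun z => (eY0 z).symm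
  haveI tY1 : IsScalarTower (O ⊗[W] B1) (IsLocalRing.ResidueField O ⊗[W] B1) (X 1).C1 :=
    IsScalarTower.of_algebraMap_eq fun z => (eY1 z).symm
  haveI tY01 : IsScalarTower (O ⊗[W] B01) (IsLocalRing.ResidueField O ⊗[W] B01) (X 1).C01 :=
    IsScalarTower.of_algebraMap_eq fun z => (eY01 z).symm
  -- the constants
  have hκ0 : ∀ a : O, algebraMap (IsLocalRing.ResidueField O)
      (IsLocalRing.ResidueField O ⊗[W] B0) (IsLocalRing.residue O a) =
      a0 (algebraMap O (O ⊗[W] B0) a) := fun a => by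
    rw [Algebra.TensorProduct.algebraMap_apply, Algebra.TensorProduct.algebraMap_apply]
    exact (algebraMap_left_tmul W O (IsLocalRing.ResidueField O) B0 a 1).symm
  have hκ1 : ∀ a : O, algebraMap (IsLocalRing.ResidueField O)
      (IsLocalRing.ResidueField O ⊗[W] B1) (IsLocalRing.residue O a) =
      a1 (algebraMap O (O ⊗[W] B1) a) := fun a => by
    rw [Algebra.TensorProduct.algebraMap_apply, Algebra.TensorProduct.algebraMap_apply]
    exact (algebraMap_left_tmul W O (IsLocalRing.ResidueField O) B1 a 1).symm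
  haveI cX0 : IsScalarTower (IsLocalRing.ResidueField O) (IsLocalRing.ResidueField O ⊗[W] B0)
      (X 0).C0 := IsScalarTower.of_algebraMap_eq fun r => by
    obtain ⟨a, rfl⟩ := IsLocalRing.residue_surjective r
    rw [hκ0, eX0, hconst0]
  haveI cX1 : IsScalarTower (IsLocalRing.ResidueField O) (IsLocalRing.ResidueField O ⊗[W] B1)
      (X 0).C1 := IsScalarTower.of_algebraMap_eq fun r => by
    obtain ⟨a, rfl⟩ := IsLocalRing.residue_surjective r
    rw [hκ1, eX1, hconst1]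
  haveI cY0 : IsScalarTower (IsLocalRing.ResidueField O) (IsLocalRing.ResidueField O ⊗[W] B0)
      (X 1).C0 := IsScalarTower.of_algebraMap_eq fun r => by
    obtain ⟨a, rfl⟩ := IsLocalRing.residue_surjective r
    rw [hκ0, eY0, hconst0]
  haveI cY1 : IsScalarTower (IsLocalRing.ResidueField O) (IsLocalRing.ResidueField O ⊗[W] B1)
      (X 1).C1 := IsScalarTower.of_algebraMap_eq fun r => by
    obtain ⟨a, rfl⟩ := IsLocalRing.residue_surjective r
    rw [hκ1, eY1, hconst1]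
  -- the squares over `κ ⊗ B_j`
  have sq0 := square_comm W O (IsLocalRing.ResidueField O) B0 B01
  have sq1 := square_comm W O (IsLocalRing.ResidueField O) B1 B01
  have hX0 : (algebraMap (X 0).C0 (X 0).C01).comp
      (algebraMap (IsLocalRing.ResidueField O ⊗[W] B0) (X 0).C0) =
      (algebraMap (IsLocalRing.ResidueField O ⊗[W] B01) (X 0).C01).comp
        (algebraMap (IsLocalRing.ResidueField O ⊗[W] B0)
          (IsLocalRing.ResidueField O ⊗[W] B01)) := by
    refine RingHom.ext fun z' => ?_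
    obtain ⟨z, rfl⟩ := sa0 z'
    have h1 := RingHom.congr_fun (X 0).hc0 z
    have h2 := RingHom.congr_fun sq0 z
    simp only [RingHom.comp_apply] at h1 h2 ⊢
    rw [eX0, h1, h2, eX01]
  have hX1 : (algebraMap (X 0).C1 (X 0).C01).comp
      (algebraMap (IsLocalRing.ResidueField O ⊗[W] B1) (X 0).C1) =
      (algebraMap (IsLocalRing.ResidueField O ⊗[W] B01) (X 0).C01).comp
        (algebraMap (IsLocalRing.ResidueField O ⊗[W] B1)
          (IsLocalRing.ResidueField O ⊗[W] B01)) := by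
    refine RingHom.ext fun z' => ?_
    obtain ⟨z, rfl⟩ := sa1 z'
    have h1 := RingHom.congr_fun (X 0).hc1 z
    have h2 := RingHom.congr_fun sq1 z
    simp only [RingHom.comp_apply] at h1 h2 ⊢
    rw [eX1, h1, h2, eX01]
  have hY0 : (algebraMap (X 1).C0 (X 1).C01).comp
      (algebraMap (IsLocalRing.ResidueField O ⊗[W] B0) (X 1).C0) =
      (algebraMap (IsLocalRing.ResidueField O ⊗[W] B01) (X 1).C01).comp
        (algebraMap (IsLocalRing.ResidueField O ⊗[W] B0)
          (IsLocalRing.ResidueField O ⊗[W] B01)) := by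
    refine RingHom.ext fun z' => ?_
    obtain ⟨z, rfl⟩ := sa0 z'
    have h1 := RingHom.congr_fun (X 1).hc0 z
    have h2 := RingHom.congr_fun sq0 z
    simp only [RingHom.comp_apply] at h1 h2 ⊢
    rw [eY0, h1, h2, eY01]
  have hY1 : (algebraMap (X 1).C1 (X 1).C01).comp
      (algebraMap (IsLocalRing.ResidueField O ⊗[W] B1) (X 1).C1) =
      (algebraMap (IsLocalRing.ResidueField O ⊗[W] B01) (X 1).C01).comp
        (algebraMap (IsLocalRing.ResidueField O ⊗[W] B1)
          (IsLocalRing.ResidueField O ⊗[W] B01)) := by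
    refine RingHom.ext fun z' => ?_
    obtain ⟨z, rfl⟩ := sa1 z'
    have h1 := RingHom.congr_fun (X 1).hc1 z
    have h2 := RingHom.congr_fun sq1 z
    simp only [RingHom.comp_apply] at h1 h2 ⊢
    rw [eY1, h1, h2, eY01]
  -- surjectivity
  have sX0 : Function.Surjective (algebraMap (IsLocalRing.ResidueField O ⊗[W] B0) (X 0).C0) :=
    fun c => by obtain ⟨z, rfl⟩ := (X 0).surj0 c; exact ⟨a0 z, eX0 z⟩
  have sX1 : Function.Surjective (algebraMap (IsLocalRing.ResidueField O ⊗[W] B1) (X 0).C1) :=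
    fun c => by obtain ⟨z, rfl⟩ := (X 0).surj1 c; exact ⟨a1 z, eX1 z⟩
  have sX01 : Function.Surjective
      (algebraMap (IsLocalRing.ResidueField O ⊗[W] B01) (X 0).C01) :=
    fun c => by obtain ⟨z, rfl⟩ := s01 0 c; exact ⟨a01 z, eX01 z⟩
  have sY0 : Function.Surjective (algebraMap (IsLocalRing.ResidueField O ⊗[W] B0) (X 1).C0) :=
    fun c => by obtain ⟨z, rfl⟩ := (X 1).surj0 c; exact ⟨a0 z, eY0 z⟩
  have sY1 : Function.Surjective (algebraMap (IsLocalRing.ResidueField O ⊗[W] B1) (X 1).C1) :=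
    fun c => by obtain ⟨z, rfl⟩ := (X 1).surj1 c; exact ⟨a1 z, eY1 z⟩
  have sY01 : Function.Surjective
      (algebraMap (IsLocalRing.ResidueField O ⊗[W] B01) (X 1).C01) :=
    fun c => by obtain ⟨z, rfl⟩ := s01 1 c; exact ⟨a01 z, eY01 z⟩
  -- kernels
  have fin2 : ∀ {P : Fin 2 → Prop}, P 0 → P 1 → ∀ i, P i := fun h0 h1 i => by
    fin_cases i
    · exact h0
    · exact h1
  have h0 : RingHom.ker (algebraMap (IsLocalRing.ResidueField O ⊗[W] B0) (X 0).C0) ⊓
      RingHom.ker (algebraMap (IsLocalRing.ResidueField O ⊗[W] B0) (X 1).C0) = ⊥ := by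
    refine ker_inf_ker_eq_bot_of_surjective a0 sa0 _ _ fun z hz0 hz1 => ?_
    rw [eX0] at hz0
    rw [eY0] at hz1
    have hz0' : z ∈ hg.P0 0 := by rw [← (X 0).ker0]; exact hz0
    have hz1' : z ∈ hg.P0 1 := by rw [← (X 1).ker0]; exact hz1
    obtain ⟨w, rfl⟩ := hg.inf0 z (fin2 hz0' hz1')
    rw [map_mul]
    have : a0 (algebraMap O (O ⊗[W] B0) π) = 0 := by
      rw [← hκ0]
      have hres0 : IsLocalRing.residue O π = 0 := by
        rw [IsLocalRing.residue_eq_zero_iff, hπ]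
        exact Ideal.mem_span_singleton_self π
      rw [hres0, map_zero]
    rw [this, zero_mul]
  have h1 : RingHom.ker (algebraMap (IsLocalRing.ResidueField O ⊗[W] B1) (X 0).C1) ⊓
      RingHom.ker (algebraMap (IsLocalRing.ResidueField O ⊗[W] B1) (X 1).C1) = ⊥ := by
    refine ker_inf_ker_eq_bot_of_surjective a1 sa1 _ _ fun z hz0 hz1 => ?_
    rw [eX1] at hz0
    rw [eY1] at hz1
    have hz0' : z ∈ hg.P1 0 := by rw [← (X 0).ker1]; exact hz0
    have hz1' : z ∈ hg.P1 1 := by rw [← (X 1).ker1]; exact hz1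
    obtain ⟨w, rfl⟩ := hg.inf1 z (fin2 hz0' hz1')
    rw [map_mul]
    have : a1 (algebraMap O (O ⊗[W] B1) π) = 0 := by
      rw [← hκ1]
      have hres0 : IsLocalRing.residue O π = 0 := by
        rw [IsLocalRing.residue_eq_zero_iff, hπ]
        exact Ideal.mem_span_singleton_self π
      rw [hres0, map_zero]
    rw [this, zero_mul]
  have h01 : RingHom.ker (algebraMap (IsLocalRing.ResidueField O ⊗[W] B01) (X 0).C01) ⊓
      RingHom.ker (algebraMap (IsLocalRing.ResidueField O ⊗[W] B01) (X 1).C01) = ⊥ := by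
    refine ker_inf_ker_eq_bot_of_surjective a01 sa01 _ _ fun z hz0 hz1 => ?_
    rw [eX01] at hz0
    rw [eY01] at hz1
    have hz0' : z ∈ hg.Q 0 := by rw [← ker01 0]; exact hz0
    have hz1' : z ∈ hg.Q 1 := by rw [← ker01 1]; exact hz1
    obtain ⟨w, rfl⟩ := inf01 z (fin2 hz0' hz1')
    rw [map_mul]
    have : a01 (algebraMap O (O ⊗[W] B01) π) = 0 := by
      rw [Algebra.TensorProduct.algebraMap_apply]
      show a01 (algebraMap O O π ⊗ₜ[W] (1 : B01)) = 0
      rw [algebraMap_left_tmul W O (IsLocalRing.ResidueField O) B01]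
      have hres0 : algebraMap O (IsLocalRing.ResidueField O) (algebraMap O O π) = 0 := by
        show IsLocalRing.residue O π = 0
        rw [IsLocalRing.residue_eq_zero_iff, hπ]
        exact Ideal.mem_span_singleton_self π
      rw [hres0, TensorProduct.zero_tmul]
    rw [this, zero_mul]
  have hr0 : (RingHom.ker (algebraMap (IsLocalRing.ResidueField O ⊗[W] B0) (X 0).C0) ⊔
      RingHom.ker (algebraMap (IsLocalRing.ResidueField O ⊗[W] B0) (X 1).C0)).IsRadical := by
    refine isRadical_ker_sup_ker_of_surjective a0 sa0 _ _ ?_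
    have e1 : RingHom.ker ((algebraMap (IsLocalRing.ResidueField O ⊗[W] B0) (X 0).C0).comp a0) =
        hg.P0 0 := by
      refine Eq.trans ?_ (X 0).ker0
      ext z
      rw [RingHom.mem_ker, RingHom.mem_ker, RingHom.comp_apply, eX0]
    have e2 : RingHom.ker ((algebraMap (IsLocalRing.ResidueField O ⊗[W] B0) (X 1).C0).comp a0) =
        hg.P0 1 := by
      refine Eq.trans ?_ (X 1).ker0
      ext z
      rw [RingHom.mem_ker, RingHom.mem_ker, RingHom.comp_apply, eY0]
    rw [e1, e2]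
    exact hrad0
  have hr1 : (RingHom.ker (algebraMap (IsLocalRing.ResidueField O ⊗[W] B1) (X 0).C1) ⊔
      RingHom.ker (algebraMap (IsLocalRing.ResidueField O ⊗[W] B1) (X 1).C1)).IsRadical := by
    refine isRadical_ker_sup_ker_of_surjective a1 sa1 _ _ ?_
    have e1 : RingHom.ker ((algebraMap (IsLocalRing.ResidueField O ⊗[W] B1) (X 0).C1).comp a1) =
        hg.P1 0 := by
      refine Eq.trans ?_ (X 0).ker1
      ext z
      rw [RingHom.mem_ker, RingHom.mem_ker, RingHom.comp_apply, eX1]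
    have e2 : RingHom.ker ((algebraMap (IsLocalRing.ResidueField O ⊗[W] B1) (X 1).C1).comp a1) =
        hg.P1 1 := by
      refine Eq.trans ?_ (X 1).ker1
      ext z
      rw [RingHom.mem_ker, RingHom.mem_ker, RingHom.comp_apply, eY1]
    rw [e1, e2]
    exact hrad1
  exact mem_J1L_of_bc_eq_one hinj p hroot (X 0).chart (X 1).chart hX0 hX1 hY0 hY1
    (X 0).hc0 (X 0).hc1 (X 1).hc0 (X 1).hc1 sX0 sX1 sX01 sY0 sY1 sY01 (hH0 0) (hH0 1)
    h0 h1 h01 hr0 hr1 y hyp x hx hxy (hres 0) (hres 1)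

/-- **(K), `Comp` form.**  `hg : NodalGood (c0.baseChange O) π (Fin 2)` the nodal special fibre,
`X i` its two components (`Bal60.Comp`, e.g. `NodalCoh30.compBaseChangeRes`), embedded in
`κ̄((q))` by `k0 i`, `k1 i`, `k01 i` compatibly with the residue maps of the Gauss rings of the two
expansions `e i`.  `y ∈ J⁰(L)`, `y ^ p = 1`, extended by the line `M ∈ P00 hg X` framed by `ε` with
`frame_j M ε ^ p = R_j ∙ g`: if `dl V (e i g) = 0` for `i = 0, 1` then `y ∈ J¹(L)`. -/
theorem mem_J1L_of_dl_eq_zero_comp {π : O} (hπ : IsLocalRing.maximalIdeal O = Ideal.span {π})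
    (hg : NodalGood (c0.baseChange O) π (Fin 2))
    (X : ∀ i, Comp (c0.baseChange O) (hg.P0 i) (hg.P1 i) (IsLocalRing.ResidueField O))
    (hinj : ExtInjective00 c0 O L (P00 hg X))
    (p : ℕ) [Fact p.Prime] [CharP (IsLocalRing.ResidueField O) p]
    (hroot : ∀ d : IsLocalRing.ResidueField O, ∃ δ : IsLocalRing.ResidueField O, δ ^ p = d)
    (hconst0 : ∀ i (a : O), algebraMap (IsLocalRing.ResidueField O) (X i).C0
      (IsLocalRing.residue O a) = algebraMap (O ⊗[W] B0) (X i).C0 (algebraMap O (O ⊗[W] B0) a))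
    (hconst1 : ∀ i (a : O), algebraMap (IsLocalRing.ResidueField O) (X i).C1
      (IsLocalRing.residue O a) = algebraMap (O ⊗[W] B1) (X i).C1 (algebraMap O (O ⊗[W] B1) a))
    (s01 : ∀ i, Function.Surjective (algebraMap (O ⊗[W] B01) (X i).C01))
    (ker01 : ∀ i, RingHom.ker (algebraMap (O ⊗[W] B01) (X i).C01) = hg.Q i)
    (hH0 : ∀ i, Fermat.Agent.T1.Red68.H0Const (X i).chart)
    (inf01 : ∀ x : O ⊗[W] B01, (∀ i, x ∈ hg.Q i) →
      ∃ y : O ⊗[W] B01, x = algebraMap O (O ⊗[W] B01) π * y)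
    (hrad0 : (hg.P0 0 ⊔ hg.P0 1).IsRadical) (hrad1 : (hg.P1 0 ⊔ hg.P1 1).IsRadical)
    -- the function field and the two expansions
    {F : Type v} [Field F] [Algebra (O ⊗[W] B0) F] [Algebra (O ⊗[W] B1) F]
    [Algebra (O ⊗[W] B01) F] [IsScalarTower (O ⊗[W] B0) (O ⊗[W] B01) F]
    [IsScalarTower (O ⊗[W] B1) (O ⊗[W] B01) F]
    {K : Type w} [Field K] (V : ValuationSubring K) (e : Fin 2 → F →+* LaurentSeries K)
    (k0 : ∀ i, (X i).C0 →+* LaurentSeries (Kap V)) (k1 : ∀ i, (X i).C1 →+* LaurentSeries (Kap V))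
    (k01 : ∀ i, (X i).C01 →+* LaurentSeries (Kap V))
    (hk0 : ∀ i z, k01 i (algebraMap (X i).C0 (X i).C01 z) = k0 i z)
    (hk1 : ∀ i z, k01 i (algebraMap (X i).C1 (X i).C01 z) = k1 i z)
    (hk0i : ∀ i, Function.Injective (k0 i)) (hk1i : ∀ i, Function.Injective (k1 i))
    (hk01i : ∀ i, Function.Injective (k01 i))
    (ι : K →+* F) (hι : ∀ i (c : K), e i (ι c) = HahnSeries.C c)
    (H : ∀ i (f : F), f ≠ 0 → Normalisable V (e i f))
    (hK : ∀ c : K, ∃ b : K, b ^ p = c)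
    (φ : ∀ i, (O ⊗[W] B01) →+* gaussSub V (e i))
    (hφ : ∀ i z, ((φ i z : gaussSub V (e i)) : F) = algebraMap (O ⊗[W] B01) F z)
    (hres : ∀ i z, gaussRes V (e i) (φ i z) = k01 i (algebraMap (O ⊗[W] B01) (X i).C01 z))
    (hpc0 : ∀ i (a : LaurentSeries (Kap V)) (c : (X i).C0), a ^ p = k0 i c → a ∈ (k0 i).range)
    (hpc1 : ∀ i (a : LaurentSeries (Kap V)) (c : (X i).C1), a ^ p = k1 i c → a ∈ (k1 i).range)
    (hker : ∀ i (w : gaussSub V (e i)), gaussRes V (e i) w ≠ 0 →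
      dlog (gaussRes V (e i) w) = 0 →
      ∃ v : gaussSub V (e i), gaussRes V (e i) w = gaussRes V (e i) v ^ p)
    (y : J0L c0 O L (P00 hg X)) (hyp : y ^ p = 1)
    {M : QC2 O (O ⊗[W] B0) (O ⊗[W] B1) (O ⊗[W] B01)} (hM : M.IsLine)
    (hMP : LinePic.mk (c0.baseChange O) M hM ∈ P00 hg X)
    (hMy : PicX.map c0 O L (LinePic.mk (c0.baseChange O) M hM) = y)
    (ε : M.N01 →ₗ[O ⊗[W] B01] F) (g : F) (hg0 : g ≠ 0)
    (hf0 : frame0 M ε ^ p = Submodule.span (O ⊗[W] B0) {g})
    (hf1 : frame1 M ε ^ p = Submodule.span (O ⊗[W] B1) {g})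
    (hdl : ∀ i, dl V (e i g) = 0) :
    (y : PicX c0 L) ∈ J1L c0 O L (P00 hg X) := by
  refine mem_J1L_of_res_eq_one c0 hπ hg X hinj p hroot hconst0 hconst1 s01 ker01 hH0 inf01
    hrad0 hrad1 y hyp _ hMP hMy fun i => ?_
  letI a0 : Algebra (X i).C0 (LaurentSeries (Kap V)) := (k0 i).toAlgebra
  letI a1 : Algebra (X i).C1 (LaurentSeries (Kap V)) := (k1 i).toAlgebra
  letI a01 : Algebra (X i).C01 (LaurentSeries (Kap V)) := (k01 i).toAlgebra
  haveI t0 : IsScalarTower (X i).C0 (X i).C01 (LaurentSeries (Kap V)) :=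
    IsScalarTower.of_algebraMap_eq fun z => (hk0 i z).symm
  haveI t1 : IsScalarTower (X i).C1 (X i).C01 (LaurentSeries (Kap V)) :=
    IsScalarTower.of_algebraMap_eq fun z => (hk1 i z).symm
  exact bc_mk_eq_one_of_dl_eq_zero V (e i) (X i).hc0 (X i).hc1 (c0.baseChange O) (X i).chart hM
    (hk0i i) (hk1i i) (hk01i i) ι (hι i) (H i) p (Fact.out : p.Prime).ne_zero hK (φ i) (hφ i)
    (hres i) (hpc0 i) (hpc1 i) (hker i) ε g hg0 hf0 hf1 (hdl i)

end Glue

end Fermat.Agent.T1B.Ker85
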