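/-
Fermat/Agent/T1B/Ker85/Transversal.lean (helper85) -- programme T1B (row 38), brick TORUS-INST (K2):
TRANSVERSALITY of the two components of the nodal special fibre: `(P₁ ⊔ P₂).IsRadical`
(hypotheses `hrad0`, `hrad1` of `Ker85.AsmComp` / `Torus85`), from the LOCAL node coordinates.

* `isRadical_of_local` : an ideal `I` is radical as soon as `I R_𝔪 = 𝔪 R_𝔪` (elementwise form) at every
  maximal ideal `𝔪 ⊇ I`;
* `le_of_local_span_pair` : local Nakayama without localisation types (Cayley--Hamilton on `P₁ / π`);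
* `isRadical_sup_of_strongCoords` : node coordinates WITH branch information (`x ∈ P₂`, `y ∈ P₁`,
  e.g. `ES/N34/NodeCoords29.nodeCoords_strong`, or helper37's `NodeData`): no noetherian hypothesis;
* `isRadical_sup_of_nodeCoords` : `R` noetherian, `P₁`, `P₂` primes containing `π` with
  `P₁ ⊓ P₂ ⊆ π R` (reduced fibre); at every maximal ideal `𝔪 ⊇ P₁ ⊔ P₂` there are WEAK node
  coordinates (`𝔪 R_𝔪 = (π, x, y)`, `x y ∈ π R_𝔪`; the literal `ES/N34` `NodeCoords`): then `P₁ ⊔ P₂` is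
  radical;
* `isRadical_sup_vertIdeal` : the instance on a chart `B ⊂ F` of a nodal model with the two vertical
  primes `B ∩ π O_i` (`NodalFacts23.vertIdeal`), node coordinates = field `node0`/`node1` of
  `NodalNumData`;
* `isRadical_comap_sup_of_equiv` : transport along a ring isomorphism (for `NodalGood.of_equiv`).
-/
import Mathlib
import Fermat.Agent.ES.N34.NumData13
import Fermat.Agent.T1B.NodalFacts23.Good

set_option autoImplicit false
set_option linter.unusedSectionVars false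
set_option linter.style.haveILetI false

namespace Fermat.Agent.T1B.Ker85

/-! ### Abstract form -/

section Abstract

variable {R : Type*} [CommRing R]

/-- An ideal which is locally (at every maximal ideal containing it) equal to that maximal ideal is
radical. -/
theorem isRadical_of_local (I : Ideal R)
    (h : ∀ 𝔪 : Ideal R, 𝔪.IsMaximal → I ≤ 𝔪 → ∀ x ∈ 𝔪, ∃ d : R, d ∉ 𝔪 ∧ d * x ∈ I) :
    I.IsRadical := by
  intro x hx
  obtain ⟨n, hn⟩ := hx
  -- the colon ideal `(I : x)` is the unit ideal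
  let J : Ideal R :=
    { carrier := {d | d * x ∈ I}
      zero_mem' := by simp
      add_mem' := fun {a b} ha hb => by
        show (a + b) * x ∈ I
        rw [add_mul]; exact I.add_mem ha hb
      smul_mem' := fun c a ha => by
        show (c • a) * x ∈ I
        rw [smul_eq_mul, mul_assoc]; exact I.mul_mem_left c ha }
  have hJ : ∀ d : R, d ∈ J ↔ d * x ∈ I := fun d => Iff.rfl
  by_contra hxI
  have hJne : J ≠ ⊤ := by
    intro htop
    have h1 : (1 : R) ∈ J := by rw [htop]; exact Submodule.mem_top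
    rw [hJ, one_mul] at h1
    exact hxI h1
  obtain ⟨𝔪, h𝔪, hJ𝔪⟩ := Ideal.exists_le_maximal J hJne
  have hI𝔪 : I ≤ 𝔪 := by
    intro d hd
    apply hJ𝔪
    rw [hJ]
    exact I.mul_mem_right x hd
  have hx𝔪 : x ∈ 𝔪 := h𝔪.isPrime.mem_of_pow_mem n (hI𝔪 hn)
  obtain ⟨d, hd, hdx⟩ := h 𝔪 h𝔪 hI𝔪 x hx𝔪
  exact hd (hJ𝔪 ((hJ d).2 hdx))

/-- **Transversality from node coordinates with branch information.** -/
theorem isRadical_sup_of_strongCoords (π : R) (P₁ P₂ : Ideal R) (hπ1 : π ∈ P₁)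
    (hnode : ∀ 𝔪 : Ideal R, 𝔪.IsMaximal → P₁ ≤ 𝔪 → P₂ ≤ 𝔪 →
      ∃ x y : R, x ∈ P₂ ∧ y ∈ P₁ ∧
        ∀ b ∈ 𝔪, ∃ d : R, d ∉ 𝔪 ∧ d * b ∈ Ideal.span {π, x, y}) :
    (P₁ ⊔ P₂).IsRadical := by
  refine isRadical_of_local _ fun 𝔪 h𝔪 hle b hb => ?_
  obtain ⟨x, y, hx, hy, hgen⟩ := hnode 𝔪 h𝔪 (le_sup_left.trans hle) (le_sup_right.trans hle)
  obtain ⟨d, hd, hdb⟩ := hgen b hb
  refine ⟨d, hd, ?_⟩
  have hspan : Ideal.span {π, x, y} ≤ P₁ ⊔ P₂ := by
    rw [Ideal.span_le]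
    intro z hz
    rcases hz with rfl | rfl | rfl
    · exact Ideal.mem_sup_left hπ1
    · exact Ideal.mem_sup_right hx
    · exact Ideal.mem_sup_left hy
  exact hspan hdb

open Polynomial in
/-- **Local Nakayama without localisation.**  `R` noetherian, `P₁`, `P₂` primes inside the prime `𝔪`,
`π ∈ P₂`, `y ∈ 𝔪 ∖ P₁`, and `P₁ ⊆ (π, y)` locally at `𝔪`.  Then `P₁ ⊆ P₂` (indeed
`P₁ R_𝔪 = π R_𝔪`). -/
theorem le_of_local_span_pair [IsNoetherianRing R] (π y : R) (𝔪 P₁ P₂ : Ideal R) [h𝔪 : 𝔪.IsPrime]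
    [h₁ : P₁.IsPrime] [h₂ : P₂.IsPrime] (hP2 : P₂ ≤ 𝔪) (hπ1 : π ∈ P₁) (hπ2 : π ∈ P₂)
    (hy : y ∈ 𝔪) (hy1 : y ∉ P₁)
    (hgen : ∀ b ∈ P₁, ∃ d : R, d ∉ 𝔪 ∧ d * b ∈ Ideal.span {π, y}) : P₁ ≤ P₂ := by
  classical
  -- a common denominator
  obtain ⟨s, hs⟩ := (isNoetherianRing_iff_ideal_fg R).1 inferInstance P₁
  have hsP : ∀ b ∈ s, b ∈ P₁ := fun b hb => hs ▸ Ideal.subset_span hb
  choose! d hd hdb using hgen
  let D : R := ∏ b ∈ s, d b
  have hD : D ∉ 𝔪 := by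
    intro h
    obtain ⟨b, hb, hbm⟩ := (h𝔪.prod_mem_iff).1 h
    exact hd b (hsP b hb) hbm
  -- `D b ∈ π R + y P₁` for all `b ∈ P₁`
  have key : ∀ b ∈ P₁, ∃ α β : R, β ∈ P₁ ∧ D * b = α * π + β * y := by
    intro b hb
    rw [← hs] at hb
    refine Submodule.span_induction (p := fun b _ => ∃ α β : R, β ∈ P₁ ∧ D * b = α * π + β * y)
      ?_ ?_ ?_ ?_ hb
    · intro b hb
      have hbP := hsP b hb
      obtain ⟨α, β, hαβ⟩ := Ideal.mem_span_pair.1 (hdb b hbP)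
      have hβ : β ∈ P₁ := by
        have h1 : β * y ∈ P₁ := by
          have : β * y = d b * b - α * π := by rw [← hαβ]; ring
          rw [this]
          exact P₁.sub_mem (P₁.mul_mem_left _ hbP) (P₁.mul_mem_left _ hπ1)
        exact (h₁.mem_or_mem h1).resolve_right hy1
      refine ⟨(∏ c ∈ s.erase b, d c) * α, (∏ c ∈ s.erase b, d c) * β, P₁.mul_mem_left _ hβ, ?_⟩
      have : D = (∏ c ∈ s.erase b, d c) * d b := by
        show ∏ c ∈ s, d c = _
        rw [← Finset.mul_prod_erase s d hb, mul_comm]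
      rw [this, mul_assoc, ← hαβ]
      ring
    · exact ⟨0, 0, P₁.zero_mem, by ring⟩
    · rintro a b _ _ ⟨α, β, hβ, h⟩ ⟨α', β', hβ', h'⟩
      exact ⟨α + α', β + β', P₁.add_mem hβ hβ', by rw [mul_add, h, h']; ring⟩
    · rintro r b _ ⟨α, β, hβ, h⟩
      refine ⟨r * α, r * β, P₁.mul_mem_left _ hβ, ?_⟩
      rw [smul_eq_mul, mul_left_comm, h]; ring
  -- Cayley--Hamilton on `P₁ / π`
  let Rb := R ⧸ Ideal.span {π}
  let mk : R →+* Rb := Ideal.Quotient.mk _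
  have hmk : Function.Surjective mk := Ideal.Quotient.mk_surjective
  let Pb : Ideal Rb := P₁.map mk
  haveI : IsNoetherianRing Rb := inferInstance
  haveI : Module.Finite Rb ↥Pb := Module.IsNoetherian.finite Rb ↥Pb
  let f : Module.End Rb ↥Pb := algebraMap Rb (Module.End Rb ↥Pb) (mk D)
  have hrange : LinearMap.range f ≤ Ideal.span {mk y} • (⊤ : Submodule Rb ↥Pb) := by
    rintro _ ⟨z, rfl⟩
    obtain ⟨b, hb, hbz⟩ := (Ideal.mem_map_iff_of_surjective mk hmk).1 z.2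
    obtain ⟨α, β, hβ, h⟩ := key b hb
    have hβ' : mk β ∈ Pb := Ideal.mem_map_of_mem mk hβ
    have : f z = mk y • (⟨mk β, hβ'⟩ : ↥Pb) := by
      apply Subtype.ext
      show mk D * (z : Rb) = mk y * mk β
      rw [← hbz, ← map_mul, h, map_add, map_mul, map_mul]
      have : mk π = 0 := Ideal.Quotient.eq_zero_iff_mem.2 (Ideal.mem_span_singleton_self π)
      rw [this, mul_zero, zero_add, mul_comm]
    rw [this]
    exact Submodule.smul_mem_smul (Ideal.mem_span_singleton_self _) Submodule.mem_top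
  obtain ⟨p, hmonic, -, hcoeff, hp⟩ :=
    LinearMap.exists_monic_and_natDegree_eq_and_coeff_mem_pow_and_aeval_eq_zero Rb f _ hrange
  -- `r̄ := p(D̄)` kills `P̄₁` and is not in `𝔪̄`
  have hp' : ∀ z : ↥Pb, (p.eval (mk D)) • z = 0 := by
    intro z
    have h1 : Polynomial.aeval f p = algebraMap Rb (Module.End Rb ↥Pb) (p.eval (mk D)) := by
      show Polynomial.aeval (algebraMap Rb (Module.End Rb ↥Pb) (mk D)) p = _
      rw [Polynomial.aeval_algebraMap_apply, Polynomial.aeval_def, Polynomial.eval₂_eq_eval_map,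
        Algebra.algebraMap_self, Polynomial.map_id]
    have h2 : (Polynomial.aeval f p) z = 0 := by rw [hp]; rfl
    rw [h1] at h2
    exact h2
  obtain ⟨r, hr⟩ := hmk (p.eval (mk D))
  have hπ𝔪 : π ∈ 𝔪 := hP2 hπ2
  have hr𝔪 : r ∉ 𝔪 := by
    intro hrm
    -- `mk r ∈ 𝔪̄`
    have h𝔪b : ∀ a : R, mk a ∈ 𝔪.map mk → a ∈ 𝔪 := by
      intro a ha
      obtain ⟨a', ha', haa'⟩ := (Ideal.mem_map_iff_of_surjective mk hmk).1 ha
      have : a' - a ∈ Ideal.span {π} := Ideal.Quotient.eq.1 haa'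
      have h2 : a' - a ∈ 𝔪 := (Ideal.span_singleton_le_iff_mem 𝔪).2 hπ𝔪 this
      have : a = a' - (a' - a) := by ring
      rw [this]
      exact 𝔪.sub_mem ha' h2
    have hyb : mk y ∈ 𝔪.map mk := Ideal.mem_map_of_mem mk hy
    have heval : p.eval (mk D) - mk D ^ p.natDegree ∈ 𝔪.map mk := by
      rw [Polynomial.eval_eq_sum_range, Finset.sum_range_succ, hmonic.coeff_natDegree, one_mul,
        add_sub_cancel_right]
      refine Ideal.sum_mem _ fun k hk => ?_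
      have hk' : k < p.natDegree := Finset.mem_range.1 hk
      have h1 : p.coeff k ∈ Ideal.span {mk y} ^ (p.natDegree - k) := hcoeff k
      have h2 : Ideal.span {mk y} ^ (p.natDegree - k) ≤ 𝔪.map mk := by
        refine (Ideal.pow_le_self (by omega)).trans ?_
        rw [Ideal.span_le, Set.singleton_subset_iff]
        exact hyb
      exact Ideal.mul_mem_right _ _ (h2 h1)
    have hDn : mk (D ^ p.natDegree) ∈ 𝔪.map mk := by
      have h1 : mk r ∈ 𝔪.map mk := Ideal.mem_map_of_mem mk hrm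
      rw [hr] at h1
      have := (𝔪.map mk).sub_mem h1 heval
      rw [sub_sub_cancel] at this
      rw [map_pow]
      exact this
    exact hD (h𝔪.mem_of_pow_mem _ (h𝔪b _ hDn))
  intro b hb
  have hb' : mk b ∈ Pb := Ideal.mem_map_of_mem mk hb
  have h0 := hp' ⟨mk b, hb'⟩
  have h1 : mk (r * b) = 0 := by
    have := congrArg Subtype.val h0
    rw [map_mul, hr]
    exact this
  have h2 : r * b ∈ P₂ :=
    (Ideal.span_singleton_le_iff_mem P₂).2 hπ2 (Ideal.Quotient.eq_zero_iff_mem.1 h1)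
  rcases h₂.mem_or_mem h2 with h | h
  · exact absurd (hP2 h) hr𝔪
  · exact h


/-- **Transversality from weak node coordinates** (`R` noetherian, reduced fibre). -/
theorem isRadical_sup_of_nodeCoords [IsNoetherianRing R] (π : R) (P₁ P₂ : Ideal R)
    [h₁ : P₁.IsPrime] [h₂ : P₂.IsPrime] (hπ1 : π ∈ P₁) (hπ2 : π ∈ P₂)
    (hinf : ∀ z : R, z ∈ P₁ → z ∈ P₂ → ∃ w : R, z = π * w)
    (hnode : ∀ 𝔪 : Ideal R, 𝔪.IsMaximal → P₁ ≤ 𝔪 → P₂ ≤ 𝔪 →
      ∃ x y : R, x ∈ 𝔪 ∧ y ∈ 𝔪 ∧ (∃ d : R, d ∉ 𝔪 ∧ ∃ e : R, d * (x * y) = π * e) ∧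
        ∀ b ∈ 𝔪, ∃ d : R, d ∉ 𝔪 ∧ d * b ∈ Ideal.span {π, x, y}) :
    (P₁ ⊔ P₂).IsRadical := by
  by_cases h12 : P₁ ≤ P₂
  · rw [sup_eq_right.2 h12]; exact h₂.isRadical
  by_cases h21 : P₂ ≤ P₁
  · rw [sup_eq_left.2 h21]; exact h₁.isRadical
  refine isRadical_of_local _ fun 𝔪 h𝔪 hle b hb => ?_
  haveI := h𝔪.isPrime
  have hle1 : P₁ ≤ 𝔪 := le_sup_left.trans hle
  have hle2 : P₂ ≤ 𝔪 := le_sup_right.trans hle
  obtain ⟨x, y, hx, hy, ⟨d, hd, e, hde⟩, hgen⟩ := hnode 𝔪 h𝔪 hle1 hle2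
  have hπ : π ∈ P₁ ⊔ P₂ := Ideal.mem_sup_left hπ1
  -- `x ∈ P ∨ y ∈ P` for `P = P₁, P₂`
  have hxy : ∀ P : Ideal R, P.IsPrime → P ≤ 𝔪 → π ∈ P → x ∈ P ∨ y ∈ P := by
    intro P hP hP𝔪 hπP
    have h1 : d * (x * y) ∈ P := by rw [hde]; exact P.mul_mem_right e hπP
    rcases hP.mem_or_mem h1 with h | h
    · exact absurd (hP𝔪 h) hd
    · exact hP.mem_or_mem h
  -- it suffices that `x, y ∈ P₁ ⊔ P₂`
  suffices hxyS : x ∈ P₁ ⊔ P₂ ∧ y ∈ P₁ ⊔ P₂ by
    obtain ⟨d', hd', hd'b⟩ := hgen b hb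
    refine ⟨d', hd', ?_⟩
    have hspan : Ideal.span {π, x, y} ≤ P₁ ⊔ P₂ := by
      rw [Ideal.span_le]
      intro z hz
      rcases hz with rfl | rfl | rfl
      · exact hπ
      · exact hxyS.1
      · exact hxyS.2
    exact hspan hd'b
  -- the degenerate case: one coordinate in both primes, the other in none
  have hbad : ∀ u v : R, u ∈ 𝔪 → v ∈ 𝔪 → u ∈ P₁ → u ∈ P₂ → v ∉ P₁ →
      (∀ c ∈ 𝔪, ∃ d : R, d ∉ 𝔪 ∧ d * c ∈ Ideal.span {π, u, v}) → False := by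
    intro u v _ hv hu1 hu2 hv1 hgen'
    obtain ⟨w, hw⟩ := hinf u hu1 hu2
    apply h12
    refine le_of_local_span_pair π v 𝔪 P₁ P₂ hle2 hπ1 hπ2 hv hv1 fun c hc => ?_
    obtain ⟨d', hd', hd'c⟩ := hgen' c (hle1 hc)
    refine ⟨d', hd', ?_⟩
    have hspan : Ideal.span {π, u, v} ≤ Ideal.span {π, v} := by
      rw [Ideal.span_le]
      intro z hz
      rcases hz with rfl | rfl | rfl
      · exact Ideal.subset_span (by simp)
      · rw [hw]
        exact Ideal.mul_mem_right _ _ (Ideal.subset_span (by simp))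
      · exact Ideal.subset_span (by simp)
    exact hspan hd'c
  have hgen_swap : ∀ c ∈ 𝔪, ∃ d : R, d ∉ 𝔪 ∧ d * c ∈ Ideal.span {π, y, x} := by
    intro c hc
    obtain ⟨d', hd', h⟩ := hgen c hc
    refine ⟨d', hd', ?_⟩
    have : ({π, y, x} : Set R) = {π, x, y} := by
      ext z; simp only [Set.mem_insert_iff, Set.mem_singleton_iff]; tauto
    rw [this]; exact h
  rcases hxy P₁ h₁ hle1 hπ1 with hx1 | hy1
  · rcases hxy P₂ h₂ hle2 hπ2 with hx2 | hy2
    · -- `x ∈ P₁ ⊓ P₂`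
      by_cases hy1 : y ∈ P₁
      · exact ⟨Ideal.mem_sup_left hx1, Ideal.mem_sup_left hy1⟩
      · exact (hbad x y hx hy hx1 hx2 hy1 hgen).elim
    · exact ⟨Ideal.mem_sup_left hx1, Ideal.mem_sup_right hy2⟩
  · rcases hxy P₂ h₂ hle2 hπ2 with hx2 | hy2
    · exact ⟨Ideal.mem_sup_right hx2, Ideal.mem_sup_left hy1⟩
    · -- `y ∈ P₁ ⊓ P₂`
      by_cases hx1 : x ∈ P₁
      · exact ⟨Ideal.mem_sup_left hx1, Ideal.mem_sup_left hy1⟩
      · exact (hbad y x hy hx hy1 hy2 hx1 hgen_swap).elim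

/-- Transport of `(P₁ ⊔ P₂).IsRadical` along a ring isomorphism. -/
theorem isRadical_comap_sup_of_equiv {R' : Type*} [CommRing R'] (e : R ≃+* R') (P₁ P₂ : Ideal R')
    (h : (P₁ ⊔ P₂).IsRadical) :
    (P₁.comap (e : R →+* R') ⊔ P₂.comap (e : R →+* R')).IsRadical := by
  have hsup : P₁.comap (e : R →+* R') ⊔ P₂.comap (e : R →+* R') =
      (P₁ ⊔ P₂).comap (e : R →+* R') := by
    apply le_antisymm
    · exact sup_le (Ideal.comap_mono le_sup_left) (Ideal.comap_mono le_sup_right)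
    · intro z hz
      rw [Ideal.mem_comap] at hz
      obtain ⟨a, ha, b, hb, hab⟩ := Submodule.mem_sup.1 hz
      have hz' : z = e.symm a + e.symm b := by
        apply e.injective
        rw [map_add, e.apply_symm_apply, e.apply_symm_apply]
        exact hab.symm
      rw [hz']
      refine Ideal.add_mem _ (Ideal.mem_sup_left ?_) (Ideal.mem_sup_right ?_)
      · rw [Ideal.mem_comap]; show e (e.symm a) ∈ P₁; rw [e.apply_symm_apply]; exact ha
      · rw [Ideal.mem_comap]; show e (e.symm b) ∈ P₂; rw [e.apply_symm_apply]; exact hb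
  rw [hsup]
  exact Ideal.IsRadical.comap (e : R →+* R') h

end Abstract

/-! ### The chart of a nodal model -/

section Chart

open Fermat.Agent.ES.N34.NodalCore13 Fermat.Agent.ES.N34.NumData13 Fermat.Agent.T1B.NodalFacts23

variable {R F : Type*} [CommRing R] [Field F] [Algebra R F]

/-- **Transversality on a chart of a nodal model**: `B ⊂ F` a noetherian saturated chart inside the two
valuation rings `O1`, `O2`, with weak node coordinates at the maximal ideals lying on both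
components (field `node0` / `node1` of `NodalNumData`).  Then `(B ∩ π O1) ⊔ (B ∩ π O2)` is
radical. -/
theorem isRadical_sup_vertIdeal (π : R) (B : Subalgebra R F) [IsNoetherianRing B]
    (O1 O2 : ValuationSubring F) (le1 : ∀ x ∈ B, x ∈ O1) (le2 : ∀ x ∈ B, x ∈ O2)
    (pi_ne : algebraMap R F π ≠ 0)
    (pi_nonunit1 : (algebraMap R F π)⁻¹ ∉ O1) (pi_nonunit2 : (algebraMap R F π)⁻¹ ∉ O2)
    (unif1 : ∀ x ∈ O1, x⁻¹ ∉ O1 → ∃ c ∈ O1, x = algebraMap R F π * c)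
    (unif2 : ∀ x ∈ O2, x⁻¹ ∉ O2 → ∃ c ∈ O2, x = algebraMap R F π * c)
    (sat : ∀ b ∈ B, ∀ c : F, c ∈ O1 → c ∈ O2 → b = algebraMap R F π * c → c ∈ B)
    (hnode : ∀ 𝔪 : Ideal B, 𝔪.IsMaximal → algebraMap R B π ∈ 𝔪 →
      ¬ OffBranch π B O1 𝔪 → ¬ OffBranch π B O2 𝔪 → NodeCoords π B 𝔪) :
    (vertIdeal π B O1 le1 ⊔ vertIdeal π B O2 le2).IsRadical := by
  haveI h₁ : (vertIdeal π B O1 le1).IsPrime := vertIdeal_isPrime le1 pi_ne pi_nonunit1 unif1
  haveI h₂ : (vertIdeal π B O2 le2).IsPrime := vertIdeal_isPrime le2 pi_ne pi_nonunit2 unif2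
  refine isRadical_sup_of_nodeCoords (algebraMap R B π) _ _ algebraMap_mem_vertIdeal
    algebraMap_mem_vertIdeal ?_ ?_
  · rintro z ⟨c, hc1, h1⟩ ⟨d, hd2, h2⟩
    have hcd : c = d := mul_left_cancel₀ pi_ne (h1.symm.trans h2)
    subst hcd
    exact ⟨⟨c, sat z z.2 c hc1 hd2 h1⟩, Subtype.ext h1⟩
  · intro 𝔪 h𝔪 hle1 hle2
    refine hnode 𝔪 h𝔪 (hle1 algebraMap_mem_vertIdeal) ?_ ?_
    · rintro ⟨e, he, c, hc, hec⟩
      exact he (hle1 ⟨c, hc, hec⟩)
    · rintro ⟨e, he, c, hc, hec⟩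
      exact he (hle2 ⟨c, hc, hec⟩)

end Chart

end Fermat.Agent.T1B.Ker85
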