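/-
Fermat/Agent/T1B/Ker85/GaussCentre.lean (helper85) -- programme T1B (row 38), brick TORUS-INST (A1):
THE COMPONENT `i` OF THE SPECIAL FIBRE IS THE CENTRE OF THE GAUSS VALUATION OF THE EXPANSION `e i`.

* `gaussRes_eq_zero_iff_mem_vertIdeal` : `ψ : F' →+* F` a field map (e.g. `FK N K → Fbar N`),
  `O' ⊂ F'` the restriction of the Gauss ring of `e : F →+* K((q))` (`x ∈ O' ↔ ψ x ∈ gaussSub V e`,
  e.g. `GaussW77.comap_gaussVal_iota_eq_O1 / comap_gaussVal_Wp_eq_O2`), `π` a uniformiser of `O'`, `B ⊂ O'`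
  a chart.  Then for `b ∈ B` :  `gaussRes (ψ b) = 0  ↔  b ∈ B ∩ π O'` (`NodalFacts23.vertIdeal`).
* `hker0_of_equiv`, `hker1_of_equiv`, `hker01_of_equiv` : the hypotheses `hker0/1/01` of
  `Ker85.mem_J1L_of_dl_eq_zero_quot` for `hg = NodalFacts23.nodalGood_of_equiv c0 M' e0 e1 e01 h0 h1`.
* `inf01_of_equiv`, `hrad0_of_equiv`, `hrad1_of_equiv` : the hypotheses `inf01`, `hrad0`, `hrad1` for
  the same `hg` (from `NodalFacts23.inf01` and `Ker85.isRadical_sup_vertIdeal`).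
* `gaussLift` : the map `φ : R01 →+* gaussSub V e` from `∀ z, algebraMap R01 F z ∈ gaussSub V e`.
-/
import Mathlib
import Fermat.Agent.T1B.Hecke3.GaussVal
import Fermat.Agent.T1B.NodalFacts23.BaseChange
import Fermat.Agent.T1B.Ker85.Transversal

set_option autoImplicit false
set_option linter.unusedSectionVars false
set_option linter.style.haveILetI false

open TensorProduct

namespace Fermat.Agent.T1B.Ker85

open Fermat.Agent.T1B.Hecke3 Fermat.Agent.T1B.NodalFacts23 Fermat.Agent.T1B.RedN3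
open Fermat.Agent.ES.N34.NodalCore13 Fermat.Agent.ES.N34.NumData13 Fermat.Agent.Jac
open Fermat.Agent.Jac.BaseChange75
open scoped Fermat.Agent.Jac.BaseChange75
open Fermat.Agent.T1.ModelCoh30 (ρ0 ρ1)

/-! ### Abstract form -/

section Abstract

variable {K : Type*} [Field K] (V : ValuationSubring K) {F : Type*} [Field F]
  (e : F →+* LaurentSeries K) {F' : Type*} [Field F'] (ψ : F' →+* F)
  {R : Type*} [CommRing R] [Algebra R F'] {π : R} {B : Subalgebra R F'} {O' : ValuationSubring F'}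

/-- a Gauss-integral function with zero residue has no Gauss-integral inverse (unless it is `0`). -/
theorem inv_not_mem_gaussSub_of_gaussRes_eq_zero {w : gaussSub V e} (hw0 : (w : F) ≠ 0)
    (hw : gaussRes V e w = 0) : ((w : F))⁻¹ ∉ gaussSub V e := by
  intro hinv
  have h1 : w * ⟨_, hinv⟩ = 1 := Subtype.ext (mul_inv_cancel₀ hw0)
  have h2 := congrArg (gaussRes V e) h1
  rw [map_mul, hw, zero_mul, map_one] at h2
  exact zero_ne_one h2

/-- **The centre of the Gauss valuation on a chart is the vertical prime.** -/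
theorem gaussRes_eq_zero_iff_mem_vertIdeal (hle : ∀ x ∈ B, x ∈ O')
    (hO : ∀ x : F', x ∈ O' ↔ ψ x ∈ gaussSub V e)
    (hnu : (algebraMap R F' π)⁻¹ ∉ O')
    (hunif : ∀ x ∈ O', x⁻¹ ∉ O' → ∃ c ∈ O', x = algebraMap R F' π * c)
    (b : ↥B) (w : gaussSub V e) (hw : (w : F) = ψ (b : F')) :
    gaussRes V e w = 0 ↔ b ∈ vertIdeal π B O' hle := by
  constructor
  · intro h0
    by_cases hb0 : (b : F') = 0
    · have : b = 0 := Subtype.ext hb0
      rw [this]
      exact Ideal.zero_mem _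
    · have hw0 : (w : F) ≠ 0 := by
        rw [hw]
        exact (map_ne_zero_iff ψ ψ.injective).2 hb0
      have hninv := inv_not_mem_gaussSub_of_gaussRes_eq_zero V e hw0 h0
      have hb' : ((b : F'))⁻¹ ∉ O' := by
        intro hmem
        apply hninv
        rw [hw, ← map_inv₀]
        exact (hO _).1 hmem
      exact hunif _ (hle _ b.2) hb'
  · rintro ⟨c, hc, hbc⟩
    -- `π ∈ O'` with zero residue
    have hπB : algebraMap R F' π ∈ B := B.algebraMap_mem π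
    have hπO : algebraMap R F' π ∈ O' := hle _ hπB
    let wπ : gaussSub V e := ⟨ψ (algebraMap R F' π), (hO _).1 hπO⟩
    let wc : gaussSub V e := ⟨ψ c, (hO _).1 hc⟩
    have hwπ : gaussRes V e wπ = 0 := by
      by_contra hne
      apply hnu
      have := inv_mem_gaussSub hne
      rw [hO, map_inv₀]
      exact this
    have hprod : w = wπ * wc := by
      apply Subtype.ext
      rw [hw, hbc, map_mul]
      rfl
    rw [hprod, map_mul, hwπ, zero_mul]

variable {R01 : Type*} [CommRing R01] [Algebra R01 F]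

/-- the lift of a Gauss-integral chart to the Gauss ring. -/
def gaussLift (h : ∀ z : R01, algebraMap R01 F z ∈ gaussSub V e) : R01 →+* gaussSub V e :=
  (algebraMap R01 F).codRestrict (gaussSub V e) h

@[simp] theorem coe_gaussLift (h : ∀ z : R01, algebraMap R01 F z ∈ gaussSub V e) (z : R01) :
    ((gaussLift V e h z : gaussSub V e) : F) = algebraMap R01 F z := rfl

end Abstract

/-! ### The instance for `nodalGood_of_equiv` -/

section Equiv

universe u v w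

variable {W O : Type u} [CommRing W] [CommRing O] [Algebra W O]
  {B0 B1 B01 : Type u} [CommRing B0] [CommRing B1] [CommRing B01]
  [Algebra W B0] [Algebra W B1] [Algebra W B01] [Algebra B0 B01] [Algebra B1 B01]
  [IsScalarTower W B0 B01] [IsScalarTower W B1 B01]
  {F' : Type u} [Field F'] [Algebra O F']
  {π' : O} {t' : F'} {B0' B1' : Subalgebra O F'} {O1' O2' : ValuationSubring F'}
  (c0 : TwoChart W B0 B1 B01)
  (M' : NodalTwoChartModel O F' π' t' B0' B1' O1' O2')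
  (e0 : (O ⊗[W] B0) ≃ₐ[O] ↥B0') (e1 : (O ⊗[W] B1) ≃ₐ[O] ↥B1')
  (e01 : (O ⊗[W] B01) ≃ₐ[O] ↥(B0' ⊔ B1'))
  (h0 : ∀ x : O ⊗[W] B0, e01 (algebraMap (O ⊗[W] B0) (O ⊗[W] B01) x) = ρ0 B0' B1' (e0 x))
  (h1 : ∀ x : O ⊗[W] B1, e01 (algebraMap (O ⊗[W] B1) (O ⊗[W] B01) x) = ρ1 B0' B1' (e1 x))
  {F : Type v} [Field F] [Algebra (O ⊗[W] B01) F]
  {K : Type w} [Field K] (V : ValuationSubring K) (e : Fin 2 → F →+* LaurentSeries K)
  (ψ : F' →+* F)
  (hF : ∀ z : O ⊗[W] B01, algebraMap (O ⊗[W] B01) F z = ψ ((e01 z : ↥(B0' ⊔ B1')) : F'))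
  (hO : ∀ (i : Fin 2) (x : F'), x ∈ comp O1' O2' i ↔ ψ x ∈ gaussSub V (e i))
  (φ : ∀ i, (O ⊗[W] B01) →+* gaussSub V (e i))
  (hφ : ∀ i z, ((φ i z : gaussSub V (e i)) : F) = algebraMap (O ⊗[W] B01) F z)

include hF hO hφ in
/-- `hker01` of `mem_J1L_of_dl_eq_zero_quot`. -/
theorem hker01_of_equiv (i : Fin 2) (z : O ⊗[W] B01) :
    gaussRes V (e i) (φ i z) = 0 ↔ z ∈ (nodalGood_of_equiv c0 M' e0 e1 e01 h0 h1).Q i :=
  gaussRes_eq_zero_iff_mem_vertIdeal V (e i) ψ (le_comp01 M' i) (hO i) (pi_nonunit_comp M' i)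
    (unif_comp M' i) (e01 z) (φ i z) ((hφ i z).trans (hF z))

include hF hO hφ in
/-- `hker0` of `mem_J1L_of_dl_eq_zero_quot`. -/
theorem hker0_of_equiv (i : Fin 2) (z : O ⊗[W] B0) :
    gaussRes V (e i) (φ i (algebraMap (O ⊗[W] B0) (O ⊗[W] B01) z)) = 0 ↔
      z ∈ (nodalGood_of_equiv c0 M' e0 e1 e01 h0 h1).P0 i := by
  refine gaussRes_eq_zero_iff_mem_vertIdeal V (e i) ψ (le_comp0 M' i) (hO i) (pi_nonunit_comp M' i)
    (unif_comp M' i) (e0 z) (φ i _) ?_
  rw [hφ, hF, h0]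
  rfl

include hF hO hφ in
/-- `hker1` of `mem_J1L_of_dl_eq_zero_quot`. -/
theorem hker1_of_equiv (i : Fin 2) (z : O ⊗[W] B1) :
    gaussRes V (e i) (φ i (algebraMap (O ⊗[W] B1) (O ⊗[W] B01) z)) = 0 ↔
      z ∈ (nodalGood_of_equiv c0 M' e0 e1 e01 h0 h1).P1 i := by
  refine gaussRes_eq_zero_iff_mem_vertIdeal V (e i) ψ (le_comp1 M' i) (hO i) (pi_nonunit_comp M' i)
    (unif_comp M' i) (e1 z) (φ i _) ?_
  rw [hφ, hF, h1]
  rfl

/-- `inf01` of `mem_J1L_of_dl_eq_zero_quot`: the overlap chart is saturated. -/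
theorem inf01_of_equiv (x : O ⊗[W] B01)
    (hx : ∀ i, x ∈ (nodalGood_of_equiv c0 M' e0 e1 e01 h0 h1).Q i) :
    ∃ y : O ⊗[W] B01, x = algebraMap O (O ⊗[W] B01) π' * y := by
  obtain ⟨y, hy⟩ := inf01 M' (e01 x) (fun i => hx i)
  refine ⟨e01.symm y, ?_⟩
  apply e01.injective
  rw [map_mul, e01.commutes, e01.apply_symm_apply]
  exact Subtype.ext hy

/-- `hrad0` of `mem_J1L_of_dl_eq_zero_quot`: the two components are transversal on chart `0`. -/
theorem hrad0_of_equiv [IsNoetherianRing ↥B0']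
    (hnode : ∀ 𝔪 : Ideal ↥B0', 𝔪.IsMaximal → algebraMap O ↥B0' π' ∈ 𝔪 →
      ¬ OffBranch π' B0' O1' 𝔪 → ¬ OffBranch π' B0' O2' 𝔪 → NodeCoords π' B0' 𝔪) :
    ((nodalGood_of_equiv c0 M' e0 e1 e01 h0 h1).P0 0 ⊔
      (nodalGood_of_equiv c0 M' e0 e1 e01 h0 h1).P0 1).IsRadical :=
  isRadical_comap_sup_of_equiv e0.toRingEquiv _ _
    (isRadical_sup_vertIdeal π' B0' O1' O2' M'.le_O1_0 M'.le_O2_0 M'.pi_ne M'.pi_nonunit1
      M'.pi_nonunit2 M'.unif1 M'.unif2 M'.sat0 hnode)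

/-- `hrad1` of `mem_J1L_of_dl_eq_zero_quot`: the two components are transversal on chart `1`. -/
theorem hrad1_of_equiv [IsNoetherianRing ↥B1']
    (hnode : ∀ 𝔪 : Ideal ↥B1', 𝔪.IsMaximal → algebraMap O ↥B1' π' ∈ 𝔪 →
      ¬ OffBranch π' B1' O1' 𝔪 → ¬ OffBranch π' B1' O2' 𝔪 → NodeCoords π' B1' 𝔪) :
    ((nodalGood_of_equiv c0 M' e0 e1 e01 h0 h1).P1 0 ⊔
      (nodalGood_of_equiv c0 M' e0 e1 e01 h0 h1).P1 1).IsRadical :=
  isRadical_comap_sup_of_equiv e1.toRingEquiv _ _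
    (isRadical_sup_vertIdeal π' B1' O1' O2' M'.le_O1_1 M'.le_O2_1 M'.pi_ne M'.pi_nonunit1
      M'.pi_nonunit2 M'.unif1 M'.unif2 M'.sat1 hnode)

end Equiv

end Fermat.Agent.T1B.Ker85
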