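/-
Fermat/Agent/T1B/Ker85/PBasis.lean (helper85) -- programme T1B (row 38), brick F8' slice S6 KER, part 1b:
`p`-bases of function fields of one variable over a perfect field (pure field theory).

* `finrank_powField_le` : `k` a field of characteristic `p`, `F ⊆ k` a subfield with `[k : F] < ∞`
  and `F = F^p(x)` (e.g. `F = κ(x)`, `κ` perfect).  Then `[k : k^p] ≤ p`.
* `exists_pBasis_repr` : if moreover `u ∉ k^p` then every `f ∈ k` is `Σ_{i<p} a_i^p u^i`.
-/
import Mathlib

set_option autoImplicit false

open Module Polynomial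

namespace Fermat.Agent.T1B.Ker85

variable {k : Type*} [Field k] (p : ℕ) [hp : Fact p.Prime] [CharP k p]

/-- `k^p` as a subfield of `k`. -/
noncomputable def powField : Subfield k := (⊤ : Subfield k).map (frobenius k p)

theorem mem_powField {y : k} : y ∈ powField (k := k) p ↔ ∃ a : k, a ^ p = y := by
  simp [powField, Subfield.mem_map, frobenius_def]

/-- `[F : F^p] ≤ p` when `F = F^p(x)`. -/
theorem relfinrank_map_frobenius (F : Subfield k) (x : k) (hx : x ∈ F)
    (hgen : F ≤ Subfield.closure ((F.map (frobenius k p) : Set k) ∪ {x})) :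
    Subfield.relfinrank (F.map (frobenius k p)) F ≤ p ∧
      Subfield.relfinrank (F.map (frobenius k p)) F ≠ 0 := by
  have hle : F.map (frobenius k p) ≤ F := by
    rintro _ ⟨y, hy, rfl⟩
    exact pow_mem hy p
  rw [Subfield.relfinrank_eq_finrank_of_le hle]
  have hext : Subfield.extendScalars hle =
      IntermediateField.adjoin (F.map (frobenius k p)) {x} := by
    apply IntermediateField.toSubfield_injective
    rw [Subfield.extendScalars_toSubfield, IntermediateField.adjoin_toSubfield]
    have hr : Set.range (algebraMap (F.map (frobenius k p)) k) = (F.map (frobenius k p) : Set k) :=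
      Subtype.range_coe
    rw [hr]
    apply le_antisymm hgen
    rw [Subfield.closure_le]
    rintro y (hy | hy)
    · exact hle hy
    · rw [Set.mem_singleton_iff] at hy
      rw [hy]; exact hx
  rw [hext]
  have hxp : x ^ p ∈ F.map (frobenius k p) := ⟨x, hx, rfl⟩
  have hroot : aeval x (X ^ p - C (⟨x ^ p, hxp⟩ : F.map (frobenius k p))) = 0 := by
    rw [map_sub, map_pow, aeval_X, aeval_C]
    exact sub_self _
  have hmonic : (X ^ p - C (⟨x ^ p, hxp⟩ : F.map (frobenius k p))).Monic :=
    monic_X_pow_sub_C _ hp.out.ne_zero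
  have hint : IsIntegral (F.map (frobenius k p)) x := ⟨_, hmonic, hroot⟩
  rw [IntermediateField.adjoin.finrank hint]
  refine ⟨?_, (minpoly.natDegree_pos hint).ne'⟩
  have := natDegree_le_of_dvd (minpoly.dvd _ x hroot) hmonic.ne_zero
  rwa [natDegree_X_pow_sub_C] at this

/-- **`[k : k^p] ≤ p`** for a finite extension `k` of a field `F = F^p(x)`. -/
theorem finrank_powField_le (F : Subfield k) (x : k) (hx : x ∈ F)
    (hgen : F ≤ Subfield.closure ((F.map (frobenius k p) : Set k) ∪ {x}))
    (hfin : finrank F k ≠ 0) :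
    finrank (powField (k := k) p) k ≤ p ∧ finrank (powField (k := k) p) k ≠ 0 := by
  obtain ⟨h1, h2⟩ := relfinrank_map_frobenius p F x hx hgen
  have hle : F.map (frobenius k p) ≤ F := by
    rintro _ ⟨y, hy, rfl⟩
    exact pow_mem hy p
  have hle' : F.map (frobenius k p) ≤ powField (k := k) p := (Subfield.gc_map_comap (frobenius k p)).monotone_l le_top
  have t1 := Subfield.relfinrank_mul_relfinrank hle (le_top : F ≤ ⊤)
  have t2 := Subfield.relfinrank_mul_relfinrank hle' (le_top : powField (k := k) p ≤ ⊤)
  have t3 : Subfield.relfinrank (F.map (frobenius k p)) (powField (k := k) p) =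
      Subfield.relfinrank F ⊤ := Subfield.relfinrank_map_map F ⊤ (frobenius k p)
  simp only [Subfield.relfinrank_top_right] at t1 t2 t3
  rw [t3, ← t1] at t2
  -- `n * m = d * n`
  have hm : finrank (powField (k := k) p) k = Subfield.relfinrank (F.map (frobenius k p)) F := by
    have := t2
    rw [mul_comm] at this
    exact Nat.eq_of_mul_eq_mul_right (Nat.pos_of_ne_zero hfin) this
  rw [hm]
  exact ⟨h1, h2⟩

/-- If `[k : k^p] ≤ p` and `u ∉ k^p` then `{u}` is a `p`-basis: every `f ∈ k` is
`Σ_{i<p} a_i^p u^i`. -/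
theorem exists_pBasis_repr (hle : finrank (powField (k := k) p) k ≤ p)
    (hne : finrank (powField (k := k) p) k ≠ 0) (u : k) (hu : ∀ a : k, a ^ p ≠ u) (f : k) :
    ∃ a : ℕ → k, f = ∑ i ∈ Finset.range p, a i ^ p * u ^ i := by
  classical
  have : FiniteDimensional (powField (k := k) p) k :=
    FiniteDimensional.of_finrank_pos (Nat.pos_of_ne_zero hne)
  have : CharP (powField (k := k) p) p :=
    (RingHom.charP_iff (algebraMap (powField (k := k) p) k)
      (algebraMap (powField (k := k) p) k).injective p).2 inferInstance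
  have : ExpChar (powField (k := k) p) p := ExpChar.prime hp.out
  have : IsPurelyInseparable (powField (k := k) p) k := by
    rw [isPurelyInseparable_iff_pow_mem _ p]
    intro y
    exact ⟨1, ⟨⟨y ^ p, (mem_powField p).2 ⟨y, rfl⟩⟩, by rw [pow_one]; rfl⟩⟩
  obtain ⟨n, y, hmin⟩ := IsPurelyInseparable.minpoly_eq_X_pow_sub_C (powField (k := k) p) p u
  have hdeg : (minpoly (powField (k := k) p) u).natDegree = p ^ n := by
    rw [hmin, natDegree_X_pow_sub_C]
  have hn0 : n ≠ 0 := by
    rintro rfl
    have h0 := minpoly.aeval (powField (k := k) p) u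
    rw [hmin, pow_zero, pow_one, map_sub, aeval_X, aeval_C, sub_eq_zero] at h0
    obtain ⟨a, ha⟩ := (mem_powField p).1 y.2
    exact hu a (by rw [ha, h0]; rfl)
  have hli := linearIndependent_pow (K := powField (k := k) p) u
  have hcard := hli.fintype_card_le_finrank
  rw [Fintype.card_fin, hdeg] at hcard
  have hpn : p ≤ p ^ n := by
    calc p = p ^ 1 := (pow_one p).symm
      _ ≤ p ^ n := Nat.pow_le_pow_right hp.out.pos (Nat.one_le_iff_ne_zero.2 hn0)
  have hd : (minpoly (powField (k := k) p) u).natDegree = p := by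
    rw [hdeg]; omega
  have hspan := hli.span_eq_top_of_card_eq_finrank' (by rw [Fintype.card_fin, hdeg]; omega)
  have hf : f ∈ Submodule.span (powField (k := k) p)
      (Set.range fun i : Fin (minpoly (powField (k := k) p) u).natDegree => u ^ (i : ℕ)) := by
    rw [hspan]; trivial
  rw [Submodule.mem_span_range_iff_exists_fun] at hf
  obtain ⟨c, hc⟩ := hf
  have hroot : ∀ z : powField (k := k) p, ∃ a : k, a ^ p = (z : k) := fun z =>
    (mem_powField p).1 z.2
  choose r hr using hroot
  have key : ∃ a : ℕ → k, f = ∑ i ∈ Finset.range (minpoly (powField (k := k) p) u).natDegree,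
      a i ^ p * u ^ i := by
    refine ⟨fun i => if h : i < (minpoly (powField (k := k) p) u).natDegree then r (c ⟨i, h⟩) else 0,
      ?_⟩
    rw [Finset.sum_range, ← hc]
    apply Finset.sum_congr rfl
    intro i _
    show c i • u ^ (i : ℕ) = (if h : (i : ℕ) < (minpoly (powField (k := k) p) u).natDegree then
      r (c ⟨i, h⟩) else 0) ^ p * u ^ (i : ℕ)
    rw [dif_pos i.2, hr, Subfield.smul_def, smul_eq_mul]
  rwa [hd] at key

end Fermat.Agent.T1B.Ker85
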