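/-
Fermat/Agent/T1B/Ker85/Sep.lean (helper85) -- programme T1B (row 38), brick F8' slice S6 KER, part 1:
the SEPARABILITY LEMMA of helper3's design (report 917, (d)).

`κ` a field of characteristic `p` with `p`-th roots.
* `exists_pow_eq_of_coeff` : a Laurent series whose exponents are all divisible by `p`
  (`θ f = 0` for `θ = q d/dq`) is a `p`-th power in `κ((q))`;
* `coeff_pow_char` : the exponents of a `p`-th power are divisible by `p`;
* `eq_zero_of_sum_pow_mul_pow_eq_zero` : `1, u, …, u^(p-1)` are linearly independent over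
  `κ((q))^p` if `p ∤ ord u`;
* `exists_pow_eq_of_pBasis` : let `k ⊆ κ((q))` be a subfield with a `p`-basis `{u}`, `p ∤ ord u`
  (every `f ∈ k` is `Σ_{i<p} a_i^p u^i`, `a_i ∈ k`; true if `k/κ(u)` is finite separable).  Then
  `k ∩ κ((q))^p = k^p`.
-/
import Mathlib

set_option autoImplicit false

open HahnSeries

namespace Fermat.Agent.T1B.Ker85

variable {κ : Type*} [Field κ] (p : ℕ) [hp : Fact p.Prime] [CharP κ p]

/-! ### Power series -/

/-- A power series supported on multiples of `p` is a `p`-th power. -/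
theorem PowerSeries.exists_pow_eq_of_coeff (hroot : ∀ d : κ, ∃ δ : κ, δ ^ p = d)
    (h : PowerSeries κ) (hh : ∀ n : ℕ, ¬ p ∣ n → PowerSeries.coeff n h = 0) :
    ∃ g : PowerSeries κ, g ^ p = h := by
  choose root hroot' using hroot
  refine ⟨PowerSeries.mk fun n => root (PowerSeries.coeff (p * n) h), ?_⟩
  have hp0 : p ≠ 0 := hp.out.ne_zero
  have : ExpChar κ p := ExpChar.prime hp.out
  have key := MvPowerSeries.map_frobenius_expand (σ := Unit) (R := κ) p hp0
    (f := (PowerSeries.mk fun n => root (PowerSeries.coeff (p * n) h) : PowerSeries κ))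
  rw [← key]
  ext m
  show PowerSeries.coeff m (PowerSeries.map (frobenius κ p)
    (PowerSeries.expand p hp0 (PowerSeries.mk fun n => root (PowerSeries.coeff (p * n) h)))) = _
  rw [PowerSeries.coeff_map, PowerSeries.coeff_expand]
  split_ifs with hm
  · obtain ⟨n, rfl⟩ := hm
    rw [Nat.mul_div_cancel_left _ hp.out.pos, PowerSeries.coeff_mk, frobenius_def, hroot']
  · rw [map_zero, hh m hm]

/-! ### Laurent series -/

/-- A Laurent series all of whose exponents are divisible by `p` is a `p`-th power. -/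
theorem exists_pow_eq_of_coeff (hroot : ∀ d : κ, ∃ δ : κ, δ ^ p = d) (f : LaurentSeries κ)
    (hf : ∀ n : ℤ, ¬ (p : ℤ) ∣ n → f.coeff n = 0) : ∃ g : LaurentSeries κ, g ^ p = f := by
  by_cases hf0 : f = 0
  · exact ⟨0, by rw [hf0, zero_pow hp.out.ne_zero]⟩
  -- the order is divisible by `p`
  have hord : (p : ℤ) ∣ f.order := by
    by_contra hcon
    exact (HahnSeries.leadingCoeff_ne_zero.2 hf0) (by rw [HahnSeries.leadingCoeff_eq]; exact hf _ hcon)
  obtain ⟨m, hm⟩ := hord
  -- the power series part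
  have hps : ∀ n : ℕ, ¬ p ∣ n → PowerSeries.coeff n f.powerSeriesPart = 0 := by
    intro n hn
    rw [LaurentSeries.powerSeriesPart_coeff]
    apply hf
    rw [hm]
    intro hdvd
    apply hn
    have : (p : ℤ) ∣ (n : ℤ) := (Int.dvd_add_right (Dvd.intro m rfl)).1 hdvd
    exact_mod_cast this
  obtain ⟨g0, hg0⟩ := PowerSeries.exists_pow_eq_of_coeff p hroot _ hps
  refine ⟨HahnSeries.single m 1 * (g0 : LaurentSeries κ), ?_⟩
  rw [mul_pow, HahnSeries.single_pow, one_pow, ← map_pow, hg0, nsmul_eq_mul, ← hm]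
  exact LaurentSeries.single_order_mul_powerSeriesPart f

omit hp in
/-- `κ((q))` has characteristic `p`. -/
theorem charP_laurent : CharP (LaurentSeries κ) p :=
  charP_of_injective_algebraMap (algebraMap κ (LaurentSeries κ)).injective p

/-- `(x - y)^p = x^p - y^p` in `κ((q))`. -/
theorem sub_pow_char' (x y : LaurentSeries κ) : (x - y) ^ p = x ^ p - y ^ p := by
  have : CharP (LaurentSeries κ) p := charP_laurent p
  exact sub_pow_char x y

/-- The exponents of a `p`-th power are divisible by `p` (converse of `exists_pow_eq_of_coeff`,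
no roots needed). -/
theorem coeff_pow_char (g : LaurentSeries κ) (n : ℤ) (hn : ¬ (p : ℤ) ∣ n) :
    (g ^ p).coeff n = 0 := by
  have : CharP (LaurentSeries κ) p := charP_laurent p
  -- write `g = q^m * (power series)`, then `g^p = q^(pm) * expand (frobenius coefficients)`
  have hp0 : p ≠ 0 := hp.out.ne_zero
  have : ExpChar κ p := ExpChar.prime hp.out
  have hg := LaurentSeries.single_order_mul_powerSeriesPart g
  have key := MvPowerSeries.map_frobenius_expand (σ := Unit) (R := κ) p hp0
    (f := (g.powerSeriesPart : PowerSeries κ))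
  have h1 : g ^ p = HahnSeries.single ((p : ℤ) * g.order) 1 *
      ((g.powerSeriesPart ^ p : PowerSeries κ) : LaurentSeries κ) := by
    conv_lhs => rw [← hg]
    rw [mul_pow, HahnSeries.single_pow, one_pow, ← map_pow, nsmul_eq_mul]
  rw [h1]
  have h2 : n = (n - (p : ℤ) * g.order) + (p : ℤ) * g.order := by ring
  rw [h2, HahnSeries.coeff_single_mul_add, one_mul]
  have hn' : ¬ (p : ℤ) ∣ (n - (p : ℤ) * g.order) := by
    intro hdvd
    apply hn
    have := dvd_add hdvd (Dvd.intro g.order rfl : (p : ℤ) ∣ (p : ℤ) * g.order)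
    rwa [sub_add_cancel] at this
  generalize (n - (p : ℤ) * g.order) = m at hn'
  rw [PowerSeries.coeff_coe]
  split_ifs with hm
  · rfl
  · rw [← key]
    show PowerSeries.coeff m.natAbs (PowerSeries.map (frobenius κ p)
      (PowerSeries.expand p hp0 g.powerSeriesPart)) = 0
    rw [PowerSeries.coeff_map, PowerSeries.coeff_expand, if_neg, map_zero]
    intro hk
    apply hn'
    have h3 : ((m.natAbs : ℕ) : ℤ) = m := Int.natAbs_of_nonneg (not_lt.1 hm)
    rw [← h3]
    exact_mod_cast hk

/-! ### Linear independence of `1, u, …, u^(p-1)` over `κ((q))^p` -/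

/-- Finitely many Hahn series, the nonzero ones among them having pairwise different orders,
whose sum is zero, all vanish. -/
theorem eq_zero_of_sum_eq_zero_of_order_inj {Γ R ι : Type*} [LinearOrder Γ] [Zero Γ]
    [AddCommMonoid R] (s : Finset ι) (t : ι → HahnSeries Γ R)
    (hinj : ∀ i ∈ s, ∀ j ∈ s, t i ≠ 0 → t j ≠ 0 → (t i).order = (t j).order → i = j)
    (hsum : ∑ i ∈ s, t i = 0) : ∀ i ∈ s, t i = 0 := by
  classical
  by_contra hcon
  push Not at hcon
  obtain ⟨i1, hi1s, hi1⟩ := hcon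
  have hS : (s.filter fun i => t i ≠ 0).Nonempty := ⟨i1, Finset.mem_filter.2 ⟨hi1s, hi1⟩⟩
  obtain ⟨i0, hi0, hmin⟩ := Finset.exists_min_image _ (fun i => (t i).order) hS
  rw [Finset.mem_filter] at hi0
  have hc : (∑ i ∈ s, t i).coeff (t i0).order = (t i0).coeff (t i0).order := by
    rw [HahnSeries.coeff_sum]
    apply Finset.sum_eq_single_of_mem i0 hi0.1
    intro j hj hji
    by_cases hj0 : t j = 0
    · rw [hj0, HahnSeries.coeff_zero]
    · apply HahnSeries.coeff_eq_zero_of_lt_order
      refine lt_of_le_of_ne (hmin j (Finset.mem_filter.2 ⟨hj, hj0⟩)) ?_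
      intro heq
      exact hji (hinj j hj i0 hi0.1 hj0 hi0.2 heq.symm)
  rw [hsum, HahnSeries.coeff_zero] at hc
  exact (HahnSeries.leadingCoeff_ne_zero.2 hi0.2) (by rw [HahnSeries.leadingCoeff_eq]; exact hc.symm)

omit [CharP κ p] in
/-- `1, u, …, u^(p-1)` are linearly independent over `κ((q))^p` when `p ∤ ord u`. -/
theorem eq_zero_of_sum_pow_mul_pow_eq_zero (u : LaurentSeries κ) (hu : ¬ (p : ℤ) ∣ u.order)
    (b : ℕ → LaurentSeries κ) (hsum : ∑ i ∈ Finset.range p, b i ^ p * u ^ i = 0) :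
    ∀ i < p, b i = 0 := by
  have hu0 : u ≠ 0 := by
    rintro rfl
    exact hu (by rw [HahnSeries.order_zero]; exact dvd_zero _)
  have hpz : Prime (p : ℤ) := Nat.prime_iff_prime_int.1 hp.out
  have key := eq_zero_of_sum_eq_zero_of_order_inj (Finset.range p)
    (fun i => b i ^ p * u ^ i) ?_ hsum
  · intro i hi
    have := key i (Finset.mem_range.2 hi)
    rcases mul_eq_zero.1 this with h | h
    · exact pow_eq_zero_iff hp.out.ne_zero |>.1 h
    · exact absurd h (pow_ne_zero _ hu0)
  · intro i hi j hj hti htj hord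
    rw [Finset.mem_range] at hi hj
    have hbi : b i ^ p ≠ 0 := left_ne_zero_of_mul hti
    have hbj : b j ^ p ≠ 0 := left_ne_zero_of_mul htj
    rw [HahnSeries.order_mul hbi (pow_ne_zero _ hu0), HahnSeries.order_mul hbj (pow_ne_zero _ hu0),
      HahnSeries.order_pow, HahnSeries.order_pow, HahnSeries.order_pow, HahnSeries.order_pow,
      nsmul_eq_mul, nsmul_eq_mul, nsmul_eq_mul, nsmul_eq_mul] at hord
    -- `p ∣ (i - j) * ord u`
    have hdvd : (p : ℤ) ∣ ((i : ℤ) - j) * u.order := by
      refine ⟨(b j).order - (b i).order, ?_⟩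
      linear_combination hord
    rcases hpz.dvd_or_dvd hdvd with h | h
    · -- `|i - j| < p`
      have : (i : ℤ) - j = 0 := by
        apply Int.eq_zero_of_abs_lt_dvd h
        rw [abs_lt]
        constructor <;> omega
      omega
    · exact absurd h hu

/-! ### The separability lemma -/

/-- **Separability lemma.**  Let `k ⊆ κ((q))` be a subset (in practice: the function field of a
curve over `κ` embedded by the `q`-expansion at a `κ`-rational point) having `{u}` as a `p`-basis
with `p ∤ ord u`: every `f ∈ k` is `Σ_{i<p} a_i^p u^i` with `a_i ∈ k`.  Then an element of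
`κ((q))` whose `p`-th power lies in `k` lies in `k`:  `k ∩ κ((q))^p = k^p`. -/
theorem mem_of_pow_mem_of_pBasis (k : Set (LaurentSeries κ)) (u : LaurentSeries κ)
    (hu : ¬ (p : ℤ) ∣ u.order)
    (hbasis : ∀ f ∈ k, ∃ a : ℕ → LaurentSeries κ, (∀ i, a i ∈ k) ∧
      f = ∑ i ∈ Finset.range p, a i ^ p * u ^ i)
    (g : LaurentSeries κ) (hg : g ^ p ∈ k) : g ∈ k := by
  obtain ⟨a, hak, ha⟩ := hbasis _ hg
  have hp0 : 0 < p := hp.out.pos
  -- `b 0 = a 0 - g`, `b i = a i` otherwise
  have hsum : ∑ i ∈ Finset.range p,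
      (Function.update a 0 (a 0 - g) i) ^ p * u ^ i = 0 := by
    obtain ⟨n, rfl⟩ : ∃ n, p = n + 1 := ⟨p - 1, by omega⟩
    rw [Finset.sum_range_succ'] at ha ⊢
    rw [Function.update_self, sub_pow_char' (n + 1), pow_zero, mul_one]
    rw [pow_zero, mul_one] at ha
    have : ∀ i ∈ Finset.range n, (Function.update a 0 (a 0 - g) (i + 1)) ^ (n + 1) * u ^ (i + 1)
        = a (i + 1) ^ (n + 1) * u ^ (i + 1) := by
      intro i _
      rw [Function.update_of_ne (Nat.succ_ne_zero i)]
    rw [Finset.sum_congr rfl this]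
    linear_combination -ha
  have h0 := eq_zero_of_sum_pow_mul_pow_eq_zero p u hu _ hsum 0 hp0
  rw [Function.update_self, sub_eq_zero] at h0
  rw [← h0]
  exact hak 0

/-- Same, with the derivation `θ = q d/dq` : if `f ∈ k` has all exponents divisible by `p`
(`θ f = 0`), `κ` has `p`-th roots and `k` has the `p`-basis `{u}`, `p ∤ ord u`, then `f = g^p` with
`g ∈ k`. -/
theorem exists_mem_pow_eq_of_pBasis (hroot : ∀ d : κ, ∃ δ : κ, δ ^ p = d)
    (k : Set (LaurentSeries κ)) (u : LaurentSeries κ) (hu : ¬ (p : ℤ) ∣ u.order)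
    (hbasis : ∀ f ∈ k, ∃ a : ℕ → LaurentSeries κ, (∀ i, a i ∈ k) ∧
      f = ∑ i ∈ Finset.range p, a i ^ p * u ^ i)
    (f : LaurentSeries κ) (hfk : f ∈ k) (hf : ∀ n : ℤ, ¬ (p : ℤ) ∣ n → f.coeff n = 0) :
    ∃ g ∈ k, g ^ p = f := by
  obtain ⟨g, hg⟩ := exists_pow_eq_of_coeff p hroot f hf
  exact ⟨g, mem_of_pow_mem_of_pBasis p k u hu hbasis g (hg ▸ hfk), hg⟩

end Fermat.Agent.T1B.Ker85
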