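/-
Fermat/Agent/T1B/Ker85/SepField.lean (helper85) -- programme T1B (row 38), brick F8' slice S6 KER, part 1c:
the separability lemma for an abstract function field with a `q`-expansion embedding.

`k` a field of characteristic `p`, finite over `κ₀(x)` with `κ₀` perfect (a function field of one
variable), `ι : k →+* κ((q))` a ring homomorphism (`q`-expansion at a point), `u ∈ k` with
`p ∤ ord_q (ι u)` (e.g. a uniformiser at the point, or `j` at the cusp `∞`).  Then
* `exists_pow_eq_of_map_pow` : `ι f = g^p` with `g ∈ κ((q))` implies `f ∈ k^p`;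
* `exists_pow_eq_of_theta_eq_zero` : if `κ` has `p`-th roots and all exponents of `ι f` are divisible
  by `p` (`θ (ι f) = 0`, `θ = q d/dq`), then `f ∈ k^p`.
No separability hypothesis is needed: `[k : k^p] ≤ p` by a degree count and `u ∉ k^p`.
-/
import Fermat.Agent.T1B.Ker85.Sep
import Fermat.Agent.T1B.Ker85.PBasis

set_option autoImplicit false

open Module Polynomial

namespace Fermat.Agent.T1B.Ker85

variable {κ : Type*} [Field κ] (p : ℕ) [hp : Fact p.Prime] [CharP κ p]
variable {k : Type*} [Field k] [CharP k p]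

/-- General form: `F ⊆ k` a subfield with `F = F^p(x)` and `[k : F] < ∞`. -/
theorem exists_pow_eq_of_map_pow' (F : Subfield k) (x : k) (hx : x ∈ F)
    (hgen : F ≤ Subfield.closure ((F.map (frobenius k p) : Set k) ∪ {x}))
    (hfin : finrank F k ≠ 0) (ι : k →+* LaurentSeries κ) (u : k)
    (hu : ¬ (p : ℤ) ∣ (ι u).order) (f : k) (g : LaurentSeries κ) (hg : g ^ p = ι f) :
    ∃ g' : k, g' ^ p = f ∧ ι g' = g := by
  obtain ⟨h1, h2⟩ := finrank_powField_le p F x hx hgen hfin
  have hu' : ∀ a : k, a ^ p ≠ u := by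
    rintro a rfl
    apply hu
    rw [map_pow, HahnSeries.order_pow, nsmul_eq_mul]
    exact Dvd.intro _ rfl
  have hbasis : ∀ f' ∈ Set.range ι, ∃ a : ℕ → LaurentSeries κ, (∀ i, a i ∈ Set.range ι) ∧
      f' = ∑ i ∈ Finset.range p, a i ^ p * (ι u) ^ i := by
    rintro _ ⟨f', rfl⟩
    obtain ⟨a, ha⟩ := exists_pBasis_repr p h1 h2 u hu' f'
    refine ⟨fun i => ι (a i), fun i => ⟨a i, rfl⟩, ?_⟩
    rw [ha, map_sum]
    apply Finset.sum_congr rfl
    intro i _
    rw [map_mul, map_pow, map_pow]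
  obtain ⟨g', hg'⟩ := mem_of_pow_mem_of_pBasis p (Set.range ι) (ι u) hu hbasis g (hg ▸ ⟨f, rfl⟩)
  refine ⟨g', ι.injective ?_, hg'⟩
  rw [map_pow, hg', hg]

variable {κ₀ : Type*} [Field κ₀] [Algebra κ₀ k]

/-- `κ₀(x) = κ₀(x)^p (x)` for `κ₀` perfect. -/
theorem adjoin_simple_le_closure (hroot₀ : ∀ d : κ₀, ∃ δ : κ₀, δ ^ p = d) (x : k) :
    (IntermediateField.adjoin κ₀ {x}).toSubfield ≤ Subfield.closure
      ((((IntermediateField.adjoin κ₀ {x}).toSubfield.map (frobenius k p) : Subfield k) : Set k)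
        ∪ {x}) := by
  rw [IntermediateField.adjoin_toSubfield, Subfield.closure_le]
  rintro y (⟨c, rfl⟩ | hy)
  · apply Subfield.subset_closure
    left
    obtain ⟨d, rfl⟩ := hroot₀ c
    refine ⟨algebraMap κ₀ k d, ?_, ?_⟩
    · exact Subfield.subset_closure (Or.inl ⟨d, rfl⟩)
    · rw [frobenius_def, map_pow]
  · exact Subfield.subset_closure (Or.inr hy)

/-- **Separability lemma, function-field form.**  `k` finite over `κ₀(x)`, `κ₀` perfect,
`ι : k → κ((q))`, `p ∤ ord (ι u)`: an element of `k` that becomes a `p`-th power in `κ((q))` is a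
`p`-th power in `k`. -/
theorem exists_pow_eq_of_map_pow (hroot₀ : ∀ d : κ₀, ∃ δ : κ₀, δ ^ p = d) (x : k)
    [FiniteDimensional (IntermediateField.adjoin κ₀ {x}) k] (ι : k →+* LaurentSeries κ) (u : k)
    (hu : ¬ (p : ℤ) ∣ (ι u).order) (f : k) (g : LaurentSeries κ) (hg : g ^ p = ι f) :
    ∃ g' : k, g' ^ p = f ∧ ι g' = g := by
  refine exists_pow_eq_of_map_pow' p (IntermediateField.adjoin κ₀ {x}).toSubfield x
    (IntermediateField.mem_adjoin_simple_self κ₀ x) (adjoin_simple_le_closure p hroot₀ x) ?_ ι u hu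
    f g hg
  exact (finrank_pos (R := IntermediateField.adjoin κ₀ {x}) (M := k)).ne'

/-- **Separability lemma, `θ`-form.**  If moreover `κ` has `p`-th roots and all exponents of the
`q`-expansion `ι f` are divisible by `p` (`θ(ι f) = 0`), then `f` is a `p`-th power in `k`. -/
theorem exists_pow_eq_of_theta_eq_zero (hroot₀ : ∀ d : κ₀, ∃ δ : κ₀, δ ^ p = d)
    (hroot : ∀ d : κ, ∃ δ : κ, δ ^ p = d) (x : k)
    [FiniteDimensional (IntermediateField.adjoin κ₀ {x}) k] (ι : k →+* LaurentSeries κ) (u : k)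
    (hu : ¬ (p : ℤ) ∣ (ι u).order) (f : k)
    (hf : ∀ n : ℤ, ¬ (p : ℤ) ∣ n → (ι f).coeff n = 0) : ∃ g' : k, g' ^ p = f := by
  obtain ⟨g, hg⟩ := exists_pow_eq_of_coeff p hroot (ι f) hf
  obtain ⟨g', hg', _⟩ := exists_pow_eq_of_map_pow p hroot₀ x ι u hu f g hg
  exact ⟨g', hg'⟩

end Fermat.Agent.T1B.Ker85
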