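/-
Fermat/Agent/T1B/Ker85/PClosed.lean (helper85) -- programme T1B (row 38), brick TORUS-INST (A2)+(A3),
abstract part: NORMALITY and `p`-CLOSEDNESS of the reduced chart of a component.

* `isIntegrallyClosed_of_locally_principal` : a noetherian domain all of whose maximal ideals are
  locally principal (elementwise form: `∃ x ∈ 𝔫, ∀ b ∈ 𝔫, ∃ d ∉ 𝔫, d * b ∈ (x)`) is integrally closed
  (it is a Dedekind domain or a field);
* `finiteDimensional_adjoin_of_finite_aeval` : `C` a domain, finite over `K[x₀]` (in the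
  `Module.AEval` form of `TwoChart.FiniteProjOverLine`): `Frac C` is finite over `K(x₀)`;
* `exists_eq_map_of_pow_eq_map` : **`p`-closedness.**  `K` perfect of characteristic `p`, `C` a normal
  domain finite over `K[x₀]`, `ι₀ : C ↪ κ((q))`, `u₁, u₂ ∈ C ∖ {0}` with
  `p ∤ ord (ι₀ u₁) - ord (ι₀ u₂)`.  If `a ∈ κ((q))` has `a ^ p ∈ ι₀ C` then `a ∈ ι₀ C`
  (hypotheses `hpc0`, `hpc1` of `Ker85.mem_J1L_of_dl_eq_zero_quot`).
-/
import Mathlib
import Fermat.Agent.T1B.Ker85.SepField

set_option autoImplicit false
set_option linter.unusedSectionVars false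
set_option linter.style.haveILetI false

open Polynomial

namespace Fermat.Agent.T1B.Ker85

/-! ### Normality from local principal generation -/

section Normal

variable {C : Type*} [CommRing C] [IsDomain C] [IsNoetherianRing C]

/-- A noetherian domain whose maximal ideals are locally principal is integrally closed. -/
theorem isIntegrallyClosed_of_locally_principal
    (h : ∀ 𝔫 : Ideal C, 𝔫.IsMaximal →
      ∃ x ∈ 𝔫, ∀ b ∈ 𝔫, ∃ d : C, d ∉ 𝔫 ∧ d * b ∈ Ideal.span {x}) :
    IsIntegrallyClosed C := by
  refine IsIntegrallyClosed.of_localization_maximal fun 𝔫 _ h𝔫 => ?_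
  obtain ⟨x, hx, hgen⟩ := h 𝔫 h𝔫
  have hprin : (IsLocalRing.maximalIdeal (Localization.AtPrime 𝔫)).IsPrincipal := by
    refine ⟨⟨algebraMap C (Localization.AtPrime 𝔫) x, ?_⟩⟩
    rw [← Localization.AtPrime.map_eq_maximalIdeal]
    apply le_antisymm
    · rw [Ideal.map_le_iff_le_comap]
      intro b hb
      obtain ⟨d, hd, hdb⟩ := hgen b hb
      obtain ⟨r, hr⟩ := Ideal.mem_span_singleton'.1 hdb
      have hdu : IsUnit (algebraMap C (Localization.AtPrime 𝔫) d) :=
        IsLocalization.map_units (Localization.AtPrime 𝔫) (⟨d, hd⟩ : 𝔫.primeCompl)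
      rw [Ideal.mem_comap]
      have h1 : algebraMap C (Localization.AtPrime 𝔫) d * algebraMap C (Localization.AtPrime 𝔫) b =
          algebraMap C (Localization.AtPrime 𝔫) r * algebraMap C (Localization.AtPrime 𝔫) x := by
        rw [← map_mul, ← map_mul, hr]
      obtain ⟨v, hv⟩ := hdu
      have h2 : algebraMap C (Localization.AtPrime 𝔫) b =
          (↑v⁻¹ * algebraMap C (Localization.AtPrime 𝔫) r) *
            algebraMap C (Localization.AtPrime 𝔫) x := by
        rw [mul_assoc, ← h1, ← hv, ← mul_assoc, Units.inv_mul, one_mul]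
      show algebraMap C (Localization.AtPrime 𝔫) b ∈
        Submodule.span (Localization.AtPrime 𝔫) {algebraMap C (Localization.AtPrime 𝔫) x}
      rw [h2]
      exact Ideal.mul_mem_left _ _ (Ideal.subset_span rfl)
    · show Ideal.span {algebraMap C (Localization.AtPrime 𝔫) x} ≤ _
      rw [Ideal.span_le, Set.singleton_subset_iff]
      exact Ideal.mem_map_of_mem _ hx
  have h43 : (IsLocalRing.maximalIdeal (Localization.AtPrime 𝔫)).IsPrincipal →
      IsIntegrallyClosed (Localization.AtPrime 𝔫) ∧
        ∀ P : Ideal (Localization.AtPrime 𝔫), P ≠ ⊥ → P.IsPrime →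
          P = IsLocalRing.maximalIdeal (Localization.AtPrime 𝔫) :=
    ((tfae_of_isNoetherianRing_of_isLocalRing_of_isDomain (Localization.AtPrime 𝔫)).out 4 3).1
  exact (h43 hprin).1

end Normal

/-! ### Finite over `K[x₀]` ⇒ `Frac C` finite over `K(x₀)` -/

section Finite

variable {K C : Type*} [Field K] [CommRing C] [IsDomain C] [Algebra K C]

/-- `C` finite over `K[x₀]`: every element of `C` is integral over `K(x₀)` in `Frac C`. -/
theorem isIntegral_adjoin_of_finite_aeval (x₀ : C)
    [hfin : Module.Finite K[X] (Module.AEval K C x₀)] (c : C) :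
    IsIntegral (IntermediateField.adjoin K {algebraMap C (FractionRing C) x₀})
      (algebraMap C (FractionRing C) c) := by
  letI algX : Algebra K[X] C := (aeval x₀ : K[X] →ₐ[K] C).toRingHom.toAlgebra
  have hsmul : ∀ (f : K[X]) (c : C), f • c = aeval x₀ f * c := fun f c => rfl
  let eqv : C ≃ₗ[K[X]] Module.AEval K C x₀ :=
    { (Module.AEval.of K C x₀).toAddEquiv with
      map_smul' := fun f c => by
        show Module.AEval.of K C x₀ (f • c) = f • Module.AEval.of K C x₀ c
        rw [hsmul, ← smul_eq_mul, Module.AEval.of_aeval_smul] }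
  haveI : Module.Finite K[X] C := Module.Finite.equiv eqv.symm
  obtain ⟨P, hPm, hP⟩ := Algebra.IsIntegral.isIntegral (R := K[X]) c
  -- the map `K[X] → K(x)`
  let x : FractionRing C := algebraMap C (FractionRing C) x₀
  let E := IntermediateField.adjoin K {x}
  let xE : E := ⟨x, IntermediateField.mem_adjoin_simple_self K x⟩
  let ψ : K[X] →+* E := (aeval xE : K[X] →ₐ[K] E).toRingHom
  have hcomp : (algebraMap E (FractionRing C)).comp ψ =
      (algebraMap C (FractionRing C)).comp (algebraMap K[X] C) := by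
    refine Polynomial.ringHom_ext (fun a => ?_) ?_
    · show algebraMap E (FractionRing C) (aeval xE (Polynomial.C a)) =
        algebraMap C (FractionRing C) (aeval x₀ (Polynomial.C a))
      rw [aeval_C, aeval_C, ← IsScalarTower.algebraMap_apply, ← IsScalarTower.algebraMap_apply]
    · show algebraMap E (FractionRing C) (aeval xE Polynomial.X) =
        algebraMap C (FractionRing C) (aeval x₀ Polynomial.X)
      rw [aeval_X, aeval_X]
      rfl
  refine ⟨P.map ψ, hPm.map ψ, ?_⟩
  rw [Polynomial.eval₂_map, hcomp, ← Polynomial.hom_eval₂, hP, map_zero]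

/-- `C` finite over `K[x₀]`: `Frac C` is finite over `K(x₀)`. -/
theorem finiteDimensional_adjoin_of_finite_aeval (x₀ : C)
    [hfin : Module.Finite K[X] (Module.AEval K C x₀)] :
    FiniteDimensional (IntermediateField.adjoin K {algebraMap C (FractionRing C) x₀})
      (FractionRing C) := by
  classical
  let x : FractionRing C := algebraMap C (FractionRing C) x₀
  let E := IntermediateField.adjoin K {x}
  obtain ⟨s, hs⟩ := hfin.fg_top
  -- the images of the generators
  let S : Set (FractionRing C) :=
    (fun g => algebraMap C (FractionRing C) ((Module.AEval.of K C x₀).symm g)) '' (s : Set _)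
  have hSfin : Finite S := Set.Finite.image _ s.finite_toSet
  have hSint : ∀ y ∈ S, IsIntegral E y := by
    rintro _ ⟨g, -, rfl⟩
    exact isIntegral_adjoin_of_finite_aeval x₀ _
  haveI := IntermediateField.finiteDimensional_adjoin hSint
  -- `C ⊆ E(S)`
  have hC : ∀ c : C, algebraMap C (FractionRing C) c ∈ IntermediateField.adjoin E S := by
    intro c
    have hmem : Module.AEval.of K C x₀ c ∈ Submodule.span K[X] (s : Set (Module.AEval K C x₀)) := by
      rw [hs]; exact Submodule.mem_top
    obtain ⟨f, -, hf⟩ := Submodule.mem_span_finset.1 hmem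
    have hc : c = ∑ g ∈ s, aeval x₀ (f g) * (Module.AEval.of K C x₀).symm g := by
      have := congrArg (Module.AEval.of K C x₀).symm hf
      rw [LinearEquiv.symm_apply_apply, map_sum] at this
      rw [← this]
      refine Finset.sum_congr rfl fun g _ => ?_
      rw [Module.AEval.of_symm_smul, smul_eq_mul]
    rw [hc, map_sum]
    refine sum_mem fun g hg => ?_
    rw [map_mul]
    refine mul_mem ?_ (IntermediateField.subset_adjoin E S ⟨g, hg, rfl⟩)
    have h1 : algebraMap C (FractionRing C) (aeval x₀ (f g)) = aeval x (f g) := by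
      rw [← Polynomial.aeval_algebraMap_apply]
    rw [h1]
    have h2 : aeval x (f g) ∈ E :=
      IntermediateField.algebra_adjoin_le_adjoin K {x} (Polynomial.aeval_mem_adjoin_singleton K x)
    exact (IntermediateField.adjoin E S).algebraMap_mem (⟨_, h2⟩ : E)
  -- `E(S) = ⊤`
  have htop : IntermediateField.adjoin E S = ⊤ := by
    rw [eq_top_iff]
    intro y _
    obtain ⟨a, b, hb, rfl⟩ := IsFractionRing.div_surjective (A := C) y
    exact div_mem (hC a) (hC b)
  have hfinTop : FiniteDimensional E (⊤ : IntermediateField E (FractionRing C)) := htop ▸ this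
  exact (IntermediateField.topEquiv (F := E) (E := FractionRing C)).toLinearEquiv.finiteDimensional

end Finite

/-! ### `p`-closedness -/

section PClosed

variable {K C κ : Type*} [Field K] [CommRing C] [IsDomain C] [Algebra K C] [Field κ]

/-- **`p`-closedness of a normal chart embedded in Laurent series.** -/
theorem exists_eq_map_of_pow_eq_map [IsIntegrallyClosed C] (p : ℕ) [Fact p.Prime] [CharP κ p]
    (hroot₀ : ∀ d : K, ∃ δ : K, δ ^ p = d) (x₀ : C)
    [hfin : Module.Finite K[X] (Module.AEval K C x₀)]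
    (ι₀ : C →+* LaurentSeries κ) (hι₀ : Function.Injective ι₀)
    (u₁ u₂ : C) (hu₁ : u₁ ≠ 0) (hu₂ : u₂ ≠ 0)
    (hu : ¬ (p : ℤ) ∣ (ι₀ u₁).order - (ι₀ u₂).order)
    (a : LaurentSeries κ) (z : C) (h : a ^ p = ι₀ z) : ∃ z' : C, a = ι₀ z' := by
  let ι : FractionRing C →+* LaurentSeries κ := IsFractionRing.lift hι₀
  have hι : ∀ c : C, ι (algebraMap C (FractionRing C) c) = ι₀ c :=
    fun c => IsFractionRing.lift_algebraMap hι₀ c
  haveI : CharP (LaurentSeries κ) p := charP_laurent p
  haveI : CharP (FractionRing C) p := RingHom.charP ι ι.injective p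
  haveI := finiteDimensional_adjoin_of_finite_aeval (K := K) x₀
  let u : FractionRing C := algebraMap C (FractionRing C) u₁ / algebraMap C (FractionRing C) u₂
  have h2 : ι₀ u₂ ≠ 0 := fun h0 => hu₂ (hι₀ (by rw [h0, map_zero]))
  have h1 : ι₀ u₁ ≠ 0 := fun h0 => hu₁ (hι₀ (by rw [h0, map_zero]))
  have hιu : ι u * ι₀ u₂ = ι₀ u₁ := by
    rw [map_div₀, hι, hι, div_mul_cancel₀ _ h2]
  have hιu0 : ι u ≠ 0 := by
    intro h0
    rw [h0, zero_mul] at hιu
    exact h1 hιu.symm
  have hord : (ι u).order = (ι₀ u₁).order - (ι₀ u₂).order := by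
    rw [← hιu, HahnSeries.order_mul hιu0 h2]
    ring
  have hu' : ¬ (p : ℤ) ∣ (ι u).order := by rwa [hord]
  obtain ⟨g', hg', hg'a⟩ := exists_pow_eq_of_map_pow p hroot₀
    (algebraMap C (FractionRing C) x₀) ι u hu' (algebraMap C (FractionRing C) z) a
    (by rw [h, hι])
  have hint : IsIntegral C g' := by
    refine ⟨Polynomial.X ^ p - Polynomial.C z,
      Polynomial.monic_X_pow_sub_C z (Fact.out : p.Prime).ne_zero, ?_⟩
    rw [Polynomial.eval₂_sub, Polynomial.eval₂_pow, Polynomial.eval₂_X, Polynomial.eval₂_C, hg',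
      sub_self]
  obtain ⟨z', hz'⟩ := IsIntegrallyClosed.algebraMap_eq_of_integral hint
  exact ⟨z', by rw [← hg'a, ← hz', hι]⟩

end PClosed

end Fermat.Agent.T1B.Ker85
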