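/-
Fermat/Agent/T1B/Ker85/CompNormal.lean (helper85) -- programme T1B (row 38), brick TORUS-INST (A2)+(A3),
instances: the reduced charts of the components of the nodal hub are NORMAL and `p`-CLOSED.

* `isIntegrallyClosed_quot_of_local` : `P` a prime of a noetherian ring `R`, `π ∈ P`; at every maximal
  ideal `𝔪 ⊇ P` either `𝔪 R_𝔪 = (π, s)` (smooth point) or `𝔪 R_𝔪 = (π, x, y)`, `x y ∈ π R_𝔪` (node).
  Then `R ⧸ P` is integrally closed.
* `isIntegrallyClosed_quot_vertIdeal` : the instance `R = B ⊂ F` a chart of a nodal model,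
  `P = B ∩ π O'` (`NodalFacts23.vertIdeal`), local data = fields `smooth0`/`node0` of `NodalNumData`.
* `isIntegrallyClosed_quot_P0_of_equiv`, `isIntegrallyClosed_quot_P1_of_equiv` : transport to the hub
  `hg = nodalGood_of_equiv c0 M' e0 e1 e01 h0 h1`.
* `hpc0_quotComp`, `hpc1_quotComp` : the hypotheses `hpc0`, `hpc1` of
  `Ker85.mem_J1L_of_dl_eq_zero_quot` from normality of `R_j ⧸ P_j i`, the kernel of the residue
  map, and two elements whose residues have orders differing by a non-multiple of `p`.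
-/
import Mathlib
import Fermat.Agent.T1B.Ker85.PClosed
import Fermat.Agent.T1B.Ker85.GaussCentre
import Fermat.Agent.T1B.Bal60.QuotPoint

set_option autoImplicit false
set_option linter.unusedSectionVars false
set_option linter.style.haveILetI false

open TensorProduct Polynomial

namespace Fermat.Agent.T1B.Ker85

open Fermat.Agent.T1B.NodalFacts23 Fermat.Agent.T1B.RedN3 Fermat.Agent.T1B.Bal60
open Fermat.Agent.ES.N34.NodalCore13 Fermat.Agent.ES.N34.NodalCL13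
open Fermat.Agent.ES.N34.NumData13 Fermat.Agent.Jac
open Fermat.Agent.Jac.BaseChange75
open scoped Fermat.Agent.Jac.BaseChange75
open Fermat.Agent.T1.ModelCoh30 (ρ0 ρ1)

/-! ### Abstract form -/

section Abstract

variable {R : Type*} [CommRing R] [IsNoetherianRing R]

/-- **Normality of a component from the local structure of the total space.** -/
theorem isIntegrallyClosed_quot_of_local (π : R) (P : Ideal R) [hP : P.IsPrime] (hπ : π ∈ P)
    (hloc : ∀ 𝔪 : Ideal R, 𝔪.IsMaximal → P ≤ 𝔪 →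
      (∃ s ∈ 𝔪, ∀ y ∈ 𝔪, ∃ d : R, d ∉ 𝔪 ∧ d * y ∈ Ideal.span {π, s}) ∨
      (∃ x y : R, x ∈ 𝔪 ∧ y ∈ 𝔪 ∧ (∃ d : R, d ∉ 𝔪 ∧ ∃ e : R, d * (x * y) = π * e) ∧
        ∀ b ∈ 𝔪, ∃ d : R, d ∉ 𝔪 ∧ d * b ∈ Ideal.span {π, x, y})) :
    IsIntegrallyClosed (R ⧸ P) := by
  refine isIntegrallyClosed_of_locally_principal fun 𝔫 h𝔫 => ?_
  -- the maximal ideal of `R` below `𝔫`
  have h𝔪 : (𝔫.comap (Ideal.Quotient.mk P)).IsMaximal :=
    Ideal.comap_isMaximal_of_surjective _ Ideal.Quotient.mk_surjective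
  have hle : P ≤ 𝔫.comap (Ideal.Quotient.mk P) := by
    intro z hz
    rw [Ideal.mem_comap, Ideal.Quotient.eq_zero_iff_mem.2 hz]
    exact 𝔫.zero_mem
  have hmk : ∀ z : R, Ideal.Quotient.mk P z ∈ 𝔫 ↔ z ∈ 𝔫.comap (Ideal.Quotient.mk P) :=
    fun z => Iff.rfl
  have hπ0 : Ideal.Quotient.mk P π = 0 := Ideal.Quotient.eq_zero_iff_mem.2 hπ
  rcases hloc _ h𝔪 hle with ⟨s, hs, hgen⟩ | ⟨x, y, hx, hy, ⟨d, hd, e, hde⟩, hgen⟩
  · refine ⟨Ideal.Quotient.mk P s, hs, fun b hb => ?_⟩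
    obtain ⟨b, rfl⟩ := Ideal.Quotient.mk_surjective b
    obtain ⟨d, hd, hdb⟩ := hgen b hb
    refine ⟨Ideal.Quotient.mk P d, hd, ?_⟩
    obtain ⟨α, β, hαβ⟩ := Ideal.mem_span_pair.1 hdb
    rw [← map_mul, ← hαβ, map_add, map_mul, map_mul, hπ0, mul_zero, zero_add]
    exact Ideal.mul_mem_left _ _ (Ideal.subset_span rfl)
  · -- `x ∈ P` or `y ∈ P`
    have hxy : d * (x * y) ∈ P := by rw [hde]; exact P.mul_mem_right _ hπ
    have hdP : d ∉ P := fun h => hd (hle h)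
    have hxyP : x ∈ P ∨ y ∈ P := by
      rcases hP.mem_or_mem hxy with h | h
      · exact absurd h hdP
      · exact hP.mem_or_mem h
    have key : ∀ (g o : R), g ∈ 𝔫.comap (Ideal.Quotient.mk P) → o ∈ P →
        (∀ b ∈ 𝔫.comap (Ideal.Quotient.mk P), ∃ d : R, d ∉ 𝔫.comap (Ideal.Quotient.mk P) ∧
          ∃ α β γ : R, α * π + β * o + γ * g = d * b) →
        ∃ x ∈ 𝔫, ∀ b ∈ 𝔫, ∃ d : R ⧸ P, d ∉ 𝔫 ∧ d * b ∈ Ideal.span {x} := by
      intro g o hg ho hgen'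
      refine ⟨Ideal.Quotient.mk P g, hg, fun b hb => ?_⟩
      obtain ⟨b, rfl⟩ := Ideal.Quotient.mk_surjective b
      obtain ⟨d', hd', α, β, γ, habc⟩ := hgen' b hb
      refine ⟨Ideal.Quotient.mk P d', hd', ?_⟩
      have ho0 : Ideal.Quotient.mk P o = 0 := Ideal.Quotient.eq_zero_iff_mem.2 ho
      rw [← map_mul, ← habc, map_add, map_add, map_mul, map_mul, map_mul, hπ0, ho0, mul_zero,
        mul_zero, zero_add, zero_add]
      exact Ideal.mul_mem_left _ _ (Ideal.subset_span rfl)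
    have hspan : ∀ b ∈ 𝔫.comap (Ideal.Quotient.mk P), ∃ d : R,
        d ∉ 𝔫.comap (Ideal.Quotient.mk P) ∧ ∃ α β γ : R, α * π + β * x + γ * y = d * b := by
      intro b hb
      obtain ⟨d', hd', hdb⟩ := hgen b hb
      obtain ⟨α, z, hz, h⟩ := Ideal.mem_span_insert.1 hdb
      obtain ⟨β, γ, hβγ⟩ := Ideal.mem_span_pair.1 hz
      exact ⟨d', hd', α, β, γ, by rw [h, ← hβγ]; ring⟩
    rcases hxyP with hxP | hyP
    · exact key y x hy hxP hspan
    · refine key x y hx hyP fun b hb => ?_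
      obtain ⟨d', hd', α, β, γ, h⟩ := hspan b hb
      exact ⟨d', hd', α, γ, β, by rw [← h]; ring⟩

/-- transport of normality of a quotient along a ring isomorphism. -/
theorem isIntegrallyClosed_quot_comap_of_equiv {R' : Type*} [CommRing R'] (e : R' ≃+* R)
    (P : Ideal R) [hn : IsIntegrallyClosed (R ⧸ P)] :
    IsIntegrallyClosed (R' ⧸ P.comap (e : R' →+* R)) := by
  have hmap : P = (P.comap (e : R' →+* R)).map (e : R' →+* R) :=
    (Ideal.map_comap_of_surjective _ e.surjective P).symm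
  exact IsIntegrallyClosed.of_equiv (Ideal.quotientEquiv _ P e hmap).symm

end Abstract

/-! ### The chart of a nodal model -/

section Chart

variable {R F : Type*} [CommRing R] [Field F] [Algebra R F]

/-- **Normality of the reduced chart of a component of a nodal model**: local data = fields
`smooth0`/`node0` (resp. `smooth1`/`node1`) of `NodalNumData`. -/
theorem isIntegrallyClosed_quot_vertIdeal (π : R) (B : Subalgebra R F) [IsNoetherianRing B]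
    (O1 O2 O' : ValuationSubring F) (hle : ∀ x ∈ B, x ∈ O')
    [hP : (vertIdeal π B O' hle).IsPrime]
    (hsmooth : ∀ 𝔪 : Ideal B, 𝔪.IsMaximal → algebraMap R B π ∈ 𝔪 →
      OffBranch π B O1 𝔪 ∨ OffBranch π B O2 𝔪 → SmoothAt π B 𝔪)
    (hnode : ∀ 𝔪 : Ideal B, 𝔪.IsMaximal → algebraMap R B π ∈ 𝔪 →
      ¬ OffBranch π B O1 𝔪 → ¬ OffBranch π B O2 𝔪 → NodeCoords π B 𝔪) :
    IsIntegrallyClosed (↥B ⧸ vertIdeal π B O' hle) := by
  refine isIntegrallyClosed_quot_of_local (algebraMap R B π) _ algebraMap_mem_vertIdeal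
    fun 𝔪 h𝔪 hPle => ?_
  have hπ𝔪 : algebraMap R B π ∈ 𝔪 := hPle algebraMap_mem_vertIdeal
  by_cases hoff : OffBranch π B O1 𝔪 ∨ OffBranch π B O2 𝔪
  · exact Or.inl (hsmooth 𝔪 h𝔪 hπ𝔪 hoff)
  · rw [not_or] at hoff
    exact Or.inr (hnode 𝔪 h𝔪 hπ𝔪 hoff.1 hoff.2)

end Chart

/-! ### The hub `nodalGood_of_equiv` -/

section Equiv

universe u

variable {W O : Type u} [CommRing W] [CommRing O] [Algebra W O]
  {B0 B1 B01 : Type u} [CommRing B0] [CommRing B1] [CommRing B01]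
  [Algebra W B0] [Algebra W B1] [Algebra W B01] [Algebra B0 B01] [Algebra B1 B01]
  [IsScalarTower W B0 B01] [IsScalarTower W B1 B01]
  {F' : Type u} [Field F'] [Algebra O F']
  {π' : O} {t' : F'} {B0' B1' : Subalgebra O F'} {O1' O2' : ValuationSubring F'}
  (c0 : TwoChart W B0 B1 B01)
  (M' : NodalTwoChartModel O F' π' t' B0' B1' O1' O2')
  (e0 : (O ⊗[W] B0) ≃ₐ[O] ↥B0') (e1 : (O ⊗[W] B1) ≃ₐ[O] ↥B1')
  (e01 : (O ⊗[W] B01) ≃ₐ[O] ↥(B0' ⊔ B1'))
  (h0 : ∀ x : O ⊗[W] B0, e01 (algebraMap (O ⊗[W] B0) (O ⊗[W] B01) x) = ρ0 B0' B1' (e0 x))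
  (h1 : ∀ x : O ⊗[W] B1, e01 (algebraMap (O ⊗[W] B1) (O ⊗[W] B01) x) = ρ1 B0' B1' (e1 x))

/-- The reduced chart `0` of the component `i` of the hub is normal. -/
theorem isIntegrallyClosed_quot_P0_of_equiv [IsNoetherianRing ↥B0'] (i : Fin 2)
    (hsmooth : ∀ 𝔪 : Ideal ↥B0', 𝔪.IsMaximal → algebraMap O ↥B0' π' ∈ 𝔪 →
      OffBranch π' B0' O1' 𝔪 ∨ OffBranch π' B0' O2' 𝔪 → SmoothAt π' B0' 𝔪)
    (hnode : ∀ 𝔪 : Ideal ↥B0', 𝔪.IsMaximal → algebraMap O ↥B0' π' ∈ 𝔪 →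
      ¬ OffBranch π' B0' O1' 𝔪 → ¬ OffBranch π' B0' O2' 𝔪 → NodeCoords π' B0' 𝔪) :
    IsIntegrallyClosed ((O ⊗[W] B0) ⧸ (nodalGood_of_equiv c0 M' e0 e1 e01 h0 h1).P0 i) := by
  haveI : (vertIdeal π' B0' (comp O1' O2' i) (le_comp0 M' i)).IsPrime :=
    vertIdeal_isPrime (le_comp0 M' i) M'.pi_ne (pi_nonunit_comp M' i) (unif_comp M' i)
  haveI := isIntegrallyClosed_quot_vertIdeal π' B0' O1' O2' (comp O1' O2' i) (le_comp0 M' i)
    hsmooth hnode
  exact isIntegrallyClosed_quot_comap_of_equiv e0.toRingEquiv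
    (vertIdeal π' B0' (comp O1' O2' i) (le_comp0 M' i))

/-- The reduced chart `1` of the component `i` of the hub is normal. -/
theorem isIntegrallyClosed_quot_P1_of_equiv [IsNoetherianRing ↥B1'] (i : Fin 2)
    (hsmooth : ∀ 𝔪 : Ideal ↥B1', 𝔪.IsMaximal → algebraMap O ↥B1' π' ∈ 𝔪 →
      OffBranch π' B1' O1' 𝔪 ∨ OffBranch π' B1' O2' 𝔪 → SmoothAt π' B1' 𝔪)
    (hnode : ∀ 𝔪 : Ideal ↥B1', 𝔪.IsMaximal → algebraMap O ↥B1' π' ∈ 𝔪 →
      ¬ OffBranch π' B1' O1' 𝔪 → ¬ OffBranch π' B1' O2' 𝔪 → NodeCoords π' B1' 𝔪) :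
    IsIntegrallyClosed ((O ⊗[W] B1) ⧸ (nodalGood_of_equiv c0 M' e0 e1 e01 h0 h1).P1 i) := by
  haveI : (vertIdeal π' B1' (comp O1' O2' i) (le_comp1 M' i)).IsPrime :=
    vertIdeal_isPrime (le_comp1 M' i) M'.pi_ne (pi_nonunit_comp M' i) (unif_comp M' i)
  haveI := isIntegrallyClosed_quot_vertIdeal π' B1' O1' O2' (comp O1' O2' i) (le_comp1 M' i)
    hsmooth hnode
  exact isIntegrallyClosed_quot_comap_of_equiv e1.toRingEquiv
    (vertIdeal π' B1' (comp O1' O2' i) (le_comp1 M' i))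

end Equiv

/-! ### `hpc0`, `hpc1` for the canonical components -/

section Quot

universe u

variable {W B0 B1 B01 : Type u} [CommRing W] [CommRing B0] [CommRing B1] [CommRing B01]
  [Algebra W B0] [Algebra W B1] [Algebra W B01] [Algebra B0 B01] [Algebra B1 B01]
  [IsScalarTower W B0 B01] [IsScalarTower W B1 B01]
  (c0 : TwoChart W B0 B1 B01)
  {O : Type u} [CommRing O] [IsDomain O] [IsDiscreteValuationRing O] [Algebra W O]

/-- **`hpc0`**: the reduction of chart `0` on the component `i` is `p`-closed in `κ((q))`. -/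
theorem hpc0_quotComp {π : O} (hg : NodalGood (c0.baseChange O) π (Fin 2))
    (hKp : RingHom.ker (algebraMap O (IsLocalRing.ResidueField O)) = Ideal.span {π})
    (fin0 : Module.Finite O[X] (Module.AEval O (O ⊗[W] B0) (c0.baseChange O).t))
    (fin1 : Module.Finite O[X] (Module.AEval O (O ⊗[W] B1) (c0.baseChange O).s))
    (i : Fin 2)
    (htr0 : ∀ q : O[X], aeval (c0.baseChange O).t q ∈ hg.P0 i → (C π : O[X]) ∣ q)
    (htr1 : ∀ q : O[X], aeval (c0.baseChange O).s q ∈ hg.P1 i → (C π : O[X]) ∣ q)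
    (p : ℕ) [Fact p.Prime] {κ : Type*} [Field κ] [CharP κ p]
    (hroot : ∀ d : IsLocalRing.ResidueField O, ∃ δ : IsLocalRing.ResidueField O, δ ^ p = d)
    [hn : IsIntegrallyClosed ((O ⊗[W] B0) ⧸ hg.P0 i)]
    (r0 : (O ⊗[W] B0) →+* LaurentSeries κ)
    (hker0 : ∀ z : O ⊗[W] B0, r0 z = 0 ↔ z ∈ hg.P0 i)
    (u₁ u₂ : O ⊗[W] B0) (hu₁ : u₁ ∉ hg.P0 i) (hu₂ : u₂ ∉ hg.P0 i)
    (hu : ¬ (p : ℤ) ∣ (r0 u₁).order - (r0 u₂).order)
    (a : LaurentSeries κ) (z : O ⊗[W] B0) (h : a ^ p = r0 z) :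
    ∃ z' : O ⊗[W] B0, a = r0 z' := by
  let X := quotComp hg i (IsLocalRing.ResidueField O)
    IsLocalRing.residue_surjective hKp fin0 fin1 htr0 htr1
  let k0 : ((O ⊗[W] B0) ⧸ hg.P0 i) →+* LaurentSeries κ :=
    Ideal.Quotient.lift (hg.P0 i) r0 fun a ha => (hker0 a).2 ha
  have hk0i : Function.Injective k0 := by
    rw [injective_iff_map_eq_zero]
    intro z hz
    obtain ⟨z', rfl⟩ := Ideal.Quotient.mk_surjective z
    exact Ideal.Quotient.eq_zero_iff_mem.2 ((hker0 z').1 hz)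
  haveI : Module.Finite (IsLocalRing.ResidueField O)[X]
      (Module.AEval (IsLocalRing.ResidueField O) X.C0 X.chart.t) := X.fpl.fin0
  haveI : IsIntegrallyClosed X.C0 := hn
  obtain ⟨z', hz'⟩ := exists_eq_map_of_pow_eq_map (K := IsLocalRing.ResidueField O) (C := X.C0)
    p hroot X.chart.t k0 hk0i (Ideal.Quotient.mk _ u₁) (Ideal.Quotient.mk _ u₂)
    (fun h0 => hu₁ (Ideal.Quotient.eq_zero_iff_mem.1 h0))
    (fun h0 => hu₂ (Ideal.Quotient.eq_zero_iff_mem.1 h0)) hu a (Ideal.Quotient.mk _ z) h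
  obtain ⟨z'', rfl⟩ := Ideal.Quotient.mk_surjective z'
  exact ⟨z'', hz'⟩

/-- **`hpc1`**: the reduction of chart `1` on the component `i` is `p`-closed in `κ((q))`. -/
theorem hpc1_quotComp {π : O} (hg : NodalGood (c0.baseChange O) π (Fin 2))
    (hKp : RingHom.ker (algebraMap O (IsLocalRing.ResidueField O)) = Ideal.span {π})
    (fin0 : Module.Finite O[X] (Module.AEval O (O ⊗[W] B0) (c0.baseChange O).t))
    (fin1 : Module.Finite O[X] (Module.AEval O (O ⊗[W] B1) (c0.baseChange O).s))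
    (i : Fin 2)
    (htr0 : ∀ q : O[X], aeval (c0.baseChange O).t q ∈ hg.P0 i → (C π : O[X]) ∣ q)
    (htr1 : ∀ q : O[X], aeval (c0.baseChange O).s q ∈ hg.P1 i → (C π : O[X]) ∣ q)
    (p : ℕ) [Fact p.Prime] {κ : Type*} [Field κ] [CharP κ p]
    (hroot : ∀ d : IsLocalRing.ResidueField O, ∃ δ : IsLocalRing.ResidueField O, δ ^ p = d)
    [hn : IsIntegrallyClosed ((O ⊗[W] B1) ⧸ hg.P1 i)]
    (r1 : (O ⊗[W] B1) →+* LaurentSeries κ)
    (hker1 : ∀ z : O ⊗[W] B1, r1 z = 0 ↔ z ∈ hg.P1 i)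
    (u₁ u₂ : O ⊗[W] B1) (hu₁ : u₁ ∉ hg.P1 i) (hu₂ : u₂ ∉ hg.P1 i)
    (hu : ¬ (p : ℤ) ∣ (r1 u₁).order - (r1 u₂).order)
    (a : LaurentSeries κ) (z : O ⊗[W] B1) (h : a ^ p = r1 z) :
    ∃ z' : O ⊗[W] B1, a = r1 z' := by
  let X := quotComp hg i (IsLocalRing.ResidueField O)
    IsLocalRing.residue_surjective hKp fin0 fin1 htr0 htr1
  let k1 : ((O ⊗[W] B1) ⧸ hg.P1 i) →+* LaurentSeries κ :=
    Ideal.Quotient.lift (hg.P1 i) r1 fun a ha => (hker1 a).2 ha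
  have hk1i : Function.Injective k1 := by
    rw [injective_iff_map_eq_zero]
    intro z hz
    obtain ⟨z', rfl⟩ := Ideal.Quotient.mk_surjective z
    exact Ideal.Quotient.eq_zero_iff_mem.2 ((hker1 z').1 hz)
  haveI : Module.Finite (IsLocalRing.ResidueField O)[X]
      (Module.AEval (IsLocalRing.ResidueField O) X.C1 X.chart.s) := X.fpl.fin1
  haveI : IsIntegrallyClosed X.C1 := hn
  obtain ⟨z', hz'⟩ := exists_eq_map_of_pow_eq_map (K := IsLocalRing.ResidueField O) (C := X.C1)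
    p hroot X.chart.s k1 hk1i (Ideal.Quotient.mk _ u₁) (Ideal.Quotient.mk _ u₂)
    (fun h0 => hu₁ (Ideal.Quotient.eq_zero_iff_mem.1 h0))
    (fun h0 => hu₂ (Ideal.Quotient.eq_zero_iff_mem.1 h0)) hu a (Ideal.Quotient.mk _ z) h
  obtain ⟨z'', rfl⟩ := Ideal.Quotient.mk_surjective z'
  exact ⟨z'', hz'⟩

end Quot

end Fermat.Agent.T1B.Ker85
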