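/-
Fermat/Agent/T1B/Ker85/AsmHub.lean (helper85) -- programme T1B (row 38), brick TORUS-INST (K5):
KER ON THE NODAL HUB `hg = NodalFacts23.nodalGood_of_equiv c0 hN.model e0 e1 e01 h0 h1`.

`mem_J1L_of_dl_eq_zero_hub` = `Ker85.mem_J1L_of_dl_eq_zero_quot` with the hypotheses
`φ`, `hφ`, `hker0/1/01` (GaussCentre), `inf01`, `hrad0/1` (Transversal), `hpc0/1` (CompNormal/PClosed)
DISCHARGED from

* `hN : NodalNumData O Lf F' π' t' B0' B1' O1' O2'` (noetherian charts, smooth points, node coordinates),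
* `ψ : F' →+* F` with `algebraMap (O ⊗[W] B01) F z = ψ (e01 z)` and
  `hO : x ∈ comp O1' O2' i ↔ ψ x ∈ gaussSub V (e i)` (the components are the centres of the two Gauss
  valuations: `GaussW77.comap_gaussVal_iota_eq_O1 / comap_gaussVal_Wp_eq_O2`),
* for each side `i` and chart `j` two elements of `R_j ∖ P_j i` whose residues have orders differing by
  a non-multiple of `p` (e.g. `t` itself on side 1: `ord t̄ = -1`).
-/
import Mathlib
import Fermat.Agent.T1B.Ker85.AsmQuot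
import Fermat.Agent.T1B.Ker85.GaussCentre
import Fermat.Agent.T1B.Ker85.CompNormal

set_option autoImplicit false
set_option linter.unusedSectionVars false
set_option linter.style.haveILetI false

open TensorProduct Polynomial

namespace Fermat.Agent.T1B.Ker85

open Fermat.Agent.Jac Fermat.Agent.Jac.LineOps39 Fermat.Agent.Jac.JGroup85Pic
open Fermat.Agent.Jac.JSmooth85Alg Fermat.Agent.Jac.BaseChange75
open Fermat.Agent.T1B.Hecke3 Fermat.Agent.T1B.Hol31.Frame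
open Fermat.Agent.T1.RedIface75 Fermat.Agent.T1B.RedN3 Fermat.Agent.T1B.Bal60
open Fermat.Agent.T1B.NodalFacts23
open Fermat.Agent.ES.N34.NodalCore13 Fermat.Agent.ES.N34.NumData13
open scoped Fermat.Agent.Jac.BaseChange75
open Fermat.Agent.T1.ModelCoh30 (ρ0 ρ1)

universe u v w

variable {W B0 B1 B01 : Type u} [CommRing W] [CommRing B0] [CommRing B1] [CommRing B01]
  [Algebra W B0] [Algebra W B1] [Algebra W B01] [Algebra B0 B01] [Algebra B1 B01]
  [IsScalarTower W B0 B01] [IsScalarTower W B1 B01]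
  (c0 : TwoChart W B0 B1 B01)
  {O : Type u} [CommRing O] [IsDomain O] [IsDiscreteValuationRing O] [Algebra W O]
  {L : Type u} [CommRing L] [Algebra W L] [Algebra O L] [IsScalarTower W O L]
  {Lf F' : Type u} [Field Lf] [Field F'] [Algebra O Lf] [Algebra Lf F'] [Algebra O F']
  [IsScalarTower O Lf F']
  {π' : O} {t' : F'} {B0' B1' : Subalgebra O F'} {O1' O2' : ValuationSubring F'}
  (hN : NodalNumData O Lf F' π' t' B0' B1' O1' O2')
  (e0 : (O ⊗[W] B0) ≃ₐ[O] ↥B0') (e1 : (O ⊗[W] B1) ≃ₐ[O] ↥B1')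
  (e01 : (O ⊗[W] B01) ≃ₐ[O] ↥(B0' ⊔ B1'))
  (h0 : ∀ x : O ⊗[W] B0, e01 (algebraMap (O ⊗[W] B0) (O ⊗[W] B01) x) = ρ0 B0' B1' (e0 x))
  (h1 : ∀ x : O ⊗[W] B1, e01 (algebraMap (O ⊗[W] B1) (O ⊗[W] B01) x) = ρ1 B0' B1' (e1 x))

include hN in
/-- the charts of the hub are Gauss-integral for both expansions. -/
theorem algebraMap_mem_gaussSub_of_equiv
    {F : Type v} [Field F] [Algebra (O ⊗[W] B01) F]
    {K : Type w} [Field K] (V : ValuationSubring K) (e : Fin 2 → F →+* LaurentSeries K)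
    (ψ : F' →+* F)
    (hF : ∀ z : O ⊗[W] B01, algebraMap (O ⊗[W] B01) F z = ψ ((e01 z : ↥(B0' ⊔ B1')) : F'))
    (hO : ∀ (i : Fin 2) (x : F'), x ∈ comp O1' O2' i ↔ ψ x ∈ gaussSub V (e i))
    (i : Fin 2) (z : O ⊗[W] B01) : algebraMap (O ⊗[W] B01) F z ∈ gaussSub V (e i) := by
  rw [hF, ← hO]
  exact le_comp01 hN.model i _ (e01 z).2

/-- **(K) on the nodal hub.** -/
theorem mem_J1L_of_dl_eq_zero_hub (hπ : IsLocalRing.maximalIdeal O = Ideal.span {π'})
    (hKp : RingHom.ker (algebraMap O (IsLocalRing.ResidueField O)) = Ideal.span {π'})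
    (fin0 : Module.Finite O[X] (Module.AEval O (O ⊗[W] B0) (c0.baseChange O).t))
    (fin1 : Module.Finite O[X] (Module.AEval O (O ⊗[W] B1) (c0.baseChange O).s))
    (htr0 : ∀ i, ∀ q : O[X], aeval (c0.baseChange O).t q ∈
      (nodalGood_of_equiv c0 hN.model e0 e1 e01 h0 h1).P0 i → (C π' : O[X]) ∣ q)
    (htr1 : ∀ i, ∀ q : O[X], aeval (c0.baseChange O).s q ∈
      (nodalGood_of_equiv c0 hN.model e0 e1 e01 h0 h1).P1 i → (C π' : O[X]) ∣ q)
    (hinj : ExtInjective00 c0 O L (P00 (nodalGood_of_equiv c0 hN.model e0 e1 e01 h0 h1)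
      fun i => quotComp (nodalGood_of_equiv c0 hN.model e0 e1 e01 h0 h1) i
        (IsLocalRing.ResidueField O) IsLocalRing.residue_surjective hKp fin0 fin1
        (htr0 i) (htr1 i)))
    (p : ℕ) [Fact p.Prime] [CharP (IsLocalRing.ResidueField O) p]
    (hroot : ∀ d : IsLocalRing.ResidueField O, ∃ δ : IsLocalRing.ResidueField O, δ ^ p = d)
    (hH0 : ∀ i, Fermat.Agent.T1.Red68.H0Const
      (quotComp (nodalGood_of_equiv c0 hN.model e0 e1 e01 h0 h1) i (IsLocalRing.ResidueField O)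
        IsLocalRing.residue_surjective hKp fin0 fin1 (htr0 i) (htr1 i)).chart)
    -- the function field and the two expansions
    {F : Type v} [Field F] [Algebra (O ⊗[W] B0) F] [Algebra (O ⊗[W] B1) F]
    [Algebra (O ⊗[W] B01) F] [IsScalarTower (O ⊗[W] B0) (O ⊗[W] B01) F]
    [IsScalarTower (O ⊗[W] B1) (O ⊗[W] B01) F]
    {K : Type w} [Field K] (V : ValuationSubring K) [CharP (Kap V) p]
    (e : Fin 2 → F →+* LaurentSeries K)
    (ι : K →+* F) (hι : ∀ i (c : K), e i (ι c) = HahnSeries.C c)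
    (H : ∀ i (f : F), f ≠ 0 → Normalisable V (e i f))
    (hK : ∀ c : K, ∃ b : K, b ^ p = c)
    (ψ : F' →+* F)
    (hF : ∀ z : O ⊗[W] B01, algebraMap (O ⊗[W] B01) F z = ψ ((e01 z : ↥(B0' ⊔ B1')) : F'))
    (hO : ∀ (i : Fin 2) (x : F'), x ∈ comp O1' O2' i ↔ ψ x ∈ gaussSub V (e i))
    -- elements with residues of order prime to `p`
    (u0 v0 : Fin 2 → O ⊗[W] B0)
    (hu0 : ∀ i, u0 i ∉ (nodalGood_of_equiv c0 hN.model e0 e1 e01 h0 h1).P0 i)
    (hv0 : ∀ i, v0 i ∉ (nodalGood_of_equiv c0 hN.model e0 e1 e01 h0 h1).P0 i)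
    (huv0 : ∀ i, ¬ (p : ℤ) ∣
      (gaussRes V (e i) (gaussLift V (e i)
        (algebraMap_mem_gaussSub_of_equiv hN e01 V e ψ hF hO i)
        (algebraMap (O ⊗[W] B0) (O ⊗[W] B01) (u0 i)))).order -
      (gaussRes V (e i) (gaussLift V (e i)
        (algebraMap_mem_gaussSub_of_equiv hN e01 V e ψ hF hO i)
        (algebraMap (O ⊗[W] B0) (O ⊗[W] B01) (v0 i)))).order)
    (u1 v1 : Fin 2 → O ⊗[W] B1)
    (hu1 : ∀ i, u1 i ∉ (nodalGood_of_equiv c0 hN.model e0 e1 e01 h0 h1).P1 i)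
    (hv1 : ∀ i, v1 i ∉ (nodalGood_of_equiv c0 hN.model e0 e1 e01 h0 h1).P1 i)
    (huv1 : ∀ i, ¬ (p : ℤ) ∣
      (gaussRes V (e i) (gaussLift V (e i)
        (algebraMap_mem_gaussSub_of_equiv hN e01 V e ψ hF hO i)
        (algebraMap (O ⊗[W] B1) (O ⊗[W] B01) (u1 i)))).order -
      (gaussRes V (e i) (gaussLift V (e i)
        (algebraMap_mem_gaussSub_of_equiv hN e01 V e ψ hF hO i)
        (algebraMap (O ⊗[W] B1) (O ⊗[W] B01) (v1 i)))).order)
    (hker : ∀ i (w : gaussSub V (e i)), gaussRes V (e i) w ≠ 0 →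
      dlog (gaussRes V (e i) w) = 0 →
      ∃ v : gaussSub V (e i), gaussRes V (e i) w = gaussRes V (e i) v ^ p)
    (y : J0L c0 O L (P00 (nodalGood_of_equiv c0 hN.model e0 e1 e01 h0 h1)
      fun i => quotComp (nodalGood_of_equiv c0 hN.model e0 e1 e01 h0 h1) i
        (IsLocalRing.ResidueField O) IsLocalRing.residue_surjective hKp fin0 fin1
        (htr0 i) (htr1 i))) (hyp : y ^ p = 1)
    {M : QC2 O (O ⊗[W] B0) (O ⊗[W] B1) (O ⊗[W] B01)} (hM : M.IsLine)
    (hMP : LinePic.mk (c0.baseChange O) M hM ∈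
      P00 (nodalGood_of_equiv c0 hN.model e0 e1 e01 h0 h1) fun i =>
        quotComp (nodalGood_of_equiv c0 hN.model e0 e1 e01 h0 h1) i
          (IsLocalRing.ResidueField O) IsLocalRing.residue_surjective hKp fin0 fin1
          (htr0 i) (htr1 i))
    (hMy : PicX.map c0 O L (LinePic.mk (c0.baseChange O) M hM) = y)
    (ε : M.N01 →ₗ[O ⊗[W] B01] F) (g : F) (hg0 : g ≠ 0)
    (hf0 : frame0 M ε ^ p = Submodule.span (O ⊗[W] B0) {g})
    (hf1 : frame1 M ε ^ p = Submodule.span (O ⊗[W] B1) {g})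
    (hdl : ∀ i, dl V (e i g) = 0) :
    (y : PicX c0 L) ∈ J1L c0 O L (P00 (nodalGood_of_equiv c0 hN.model e0 e1 e01 h0 h1)
      fun i => quotComp (nodalGood_of_equiv c0 hN.model e0 e1 e01 h0 h1) i
        (IsLocalRing.ResidueField O) IsLocalRing.residue_surjective hKp fin0 fin1
        (htr0 i) (htr1 i)) := by
  haveI := hN.noeth0
  haveI := hN.noeth1
  -- the lift of the charts to the Gauss rings
  let φ : ∀ i, (O ⊗[W] B01) →+* gaussSub V (e i) := fun i =>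
    gaussLift V (e i) (algebraMap_mem_gaussSub_of_equiv hN e01 V e ψ hF hO i)
  have hφ : ∀ i z, ((φ i z : gaussSub V (e i)) : F) = algebraMap (O ⊗[W] B01) F z :=
    fun i z => rfl
  have hk0 := hker0_of_equiv c0 hN.model e0 e1 e01 h0 h1 V e ψ hF hO φ hφ
  have hk1 := hker1_of_equiv c0 hN.model e0 e1 e01 h0 h1 V e ψ hF hO φ hφ
  have hk01 := hker01_of_equiv c0 hN.model e0 e1 e01 h0 h1 V e ψ hF hO φ hφ
  refine mem_J1L_of_dl_eq_zero_quot c0 hπ (nodalGood_of_equiv c0 hN.model e0 e1 e01 h0 h1) hKp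
    fin0 fin1 htr0 htr1 hinj p hroot hH0 (inf01_of_equiv c0 hN.model e0 e1 e01 h0 h1)
    (hrad0_of_equiv c0 hN.model e0 e1 e01 h0 h1 hN.node0)
    (hrad1_of_equiv c0 hN.model e0 e1 e01 h0 h1 hN.node1)
    V e ι hι H hK φ hφ hk0 hk1 hk01 ?_ ?_ hker y hyp hM hMP hMy ε g hg0 hf0 hf1 hdl
  · intro i a z haz
    haveI := isIntegrallyClosed_quot_P0_of_equiv c0 hN.model e0 e1 e01 h0 h1 i
      hN.smooth0 hN.node0
    exact hpc0_quotComp c0 (nodalGood_of_equiv c0 hN.model e0 e1 e01 h0 h1) hKp fin0 fin1 i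
      (htr0 i) (htr1 i) p hroot
      ((gaussRes V (e i)).comp ((φ i).comp (algebraMap (O ⊗[W] B0) (O ⊗[W] B01))))
      (hk0 i) (u0 i) (v0 i) (hu0 i) (hv0 i) (huv0 i) a z haz
  · intro i a z haz
    haveI := isIntegrallyClosed_quot_P1_of_equiv c0 hN.model e0 e1 e01 h0 h1 i
      hN.smooth1 hN.node1
    exact hpc1_quotComp c0 (nodalGood_of_equiv c0 hN.model e0 e1 e01 h0 h1) hKp fin0 fin1 i
      (htr0 i) (htr1 i) p hroot
      ((gaussRes V (e i)).comp ((φ i).comp (algebraMap (O ⊗[W] B1) (O ⊗[W] B01))))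
      (hk1 i) (u1 i) (v1 i) (hu1 i) (hv1 i) (huv1 i) a z haz

end Fermat.Agent.T1B.Ker85
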