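/-
Fermat/Agent/T1B/Ker85/CompH0L.lean (helper85) -- programme T1B (row 38), brick TORUS-INST (K3):
`H⁰(O) = κ` for a component of the special fibre EMBEDDED IN LAURENT SERIES (no rational point, no
algebraically closed base field needed; complements helper60's `Bal60/CompH0.lean`).

* `h0Const_of_laurent` : `d : TwoChart K C0 C1 C01` an integral two-chart curve over a field `K`,
  finite projective over the line, `k0 : C0 →+* K'((q))` injective with `k0 ∘ algebraMap = C ∘
  algebraMap K K'` and such that the constant coefficient of every `k0 x` lies in `K`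
  (e.g. all coefficients do: the `q`-expansion of the component is defined over `κ`).  Then
  `Red68.H0Const d`.  [A global function is integral over `K` (helper60), so its expansion is
  algebraic over `K'`, hence a constant `c ∈ K'` (`K'` is algebraically closed in `K'((q))`), and
  `c ∈ K` by the coefficient hypothesis.]
* `Comp.h0Const_of_laurent` : the same for the chart of a component `X : Bal60.Comp c P0 P1 K`.
-/
import Mathlib
import Fermat.Agent.T1B.Bal60.CompH0
import Fermat.Agent.RED.PUR.GaussBridge10

set_option autoImplicit false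
set_option linter.unusedSectionVars false
set_option linter.style.haveILetI false

universe u

namespace Fermat.Agent.T1B.Ker85

open Fermat.Agent.Jac Fermat.Agent.T1B.Bal60

section Chart

variable {K C0 C1 C01 : Type u} [Field K] [CommRing C0] [CommRing C1] [CommRing C01]
  [Algebra K C0] [Algebra K C1] [Algebra K C01] [Algebra C0 C01] [Algebra C1 C01]
  [IsScalarTower K C0 C01] [IsScalarTower K C1 C01]
  [IsDomain C0] [IsDomain C1] [Nontrivial C01]
  (d : TwoChart K C0 C1 C01) (hd : d.FiniteProjOverLine)
  {K' : Type*} [Field K'] [Algebra K K']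

include hd in
/-- **Global functions are constants** (chart 0 embedded in Laurent series). -/
theorem h0Const_of_laurent (k0 : C0 →+* LaurentSeries K') (hk0 : Function.Injective k0)
    (hC : ∀ a : K, k0 (algebraMap K C0 a) = HahnSeries.C (algebraMap K K' a))
    (hcoeff : ∀ x : C0, (k0 x).coeff 0 ∈ (algebraMap K K').range) :
    Fermat.Agent.T1.Red68.H0Const d := by
  intro x0 x1 h
  have hint : IsIntegral K x0 := (isIntegral_of_globalFn d hd x0 x1 h).1
  -- `k0 x0` is algebraic over `K'`
  obtain ⟨P, hPm, hP⟩ := hint
  have halg : IsAlgebraic K' (k0 x0) := by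
    refine ⟨P.map (algebraMap K K'), (hPm.map _).ne_zero, ?_⟩
    have h1 : Polynomial.eval₂ (k0.comp (algebraMap K C0)) (k0 x0) P = 0 := by
      rw [← Polynomial.hom_eval₂, hP, map_zero]
    rw [Polynomial.aeval_def, Polynomial.eval₂_map]
    have h2 : (algebraMap K' (LaurentSeries K')).comp (algebraMap K K') =
        k0.comp (algebraMap K C0) := by
      refine RingHom.ext fun a => ?_
      rw [RingHom.comp_apply, RingHom.comp_apply, hC]
      exact Fermat.Agent.RED.PUR.GaussGen8.algebraMap_eq_C (K := K') _
    rw [h2]
    exact h1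
  have hconst := Fermat.Agent.RED.PUR.GaussBridge10.eq_C_of_isAlgebraic halg
  obtain ⟨a, ha⟩ := hcoeff x0
  have hx0 : algebraMap K C0 a = x0 := by
    apply hk0
    rw [hC, hconst]
    exact congrArg _ ha
  exact ⟨a, hx0, const_of_const0 d x0 x1 h a hx0⟩

end Chart

section Comp

variable {A R0 R1 R01 : Type u} [CommRing A] [CommRing R0] [CommRing R1] [CommRing R01]
  [Algebra A R0] [Algebra A R1] [Algebra A R01] [Algebra R0 R01] [Algebra R1 R01]
  [IsScalarTower A R0 R01] [IsScalarTower A R1 R01]
  {c : TwoChart A R0 R1 R01} {P0 : Ideal R0} {P1 : Ideal R1} {K : Type u} [Field K]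
  (X : Comp c P0 P1 K) {K' : Type*} [Field K'] [Algebra K K']

/-- Global functions on a component embedded in Laurent series are constants. -/
theorem Comp.h0Const_of_laurent (k0 : X.C0 →+* LaurentSeries K') (hk0 : Function.Injective k0)
    (hC : ∀ a : K, k0 (algebraMap K X.C0 a) = HahnSeries.C (algebraMap K K' a))
    (hcoeff : ∀ x : X.C0, (k0 x).coeff 0 ∈ (algebraMap K K').range) :
    Fermat.Agent.T1.Red68.H0Const X.chart :=
  Fermat.Agent.T1B.Ker85.h0Const_of_laurent X.chart X.fpl k0 hk0 hC hcoeff

end Comp

end Fermat.Agent.T1B.Ker85
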