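/-
Fermat/Agent/T1B/Ker85/AsmQuot.lean (helper85) -- programme T1B (row 38), brick TORUS-INST (K4):
KER for the CANONICAL components `Bal60.quotComp hg i` (`C_j = R_j ⧸ P_j i`; this is what
`NodalCoh30.compOfEquivRes` / `compBaseChangeRes` unfold to).  The embeddings of the component charts
in `κ̄((q))` are now CONSTRUCTED from the Gauss residue maps: the only inputs about the two
expansions `e i` are

* `φ i : R01 →+* gaussSub V (e i)` (the charts are Gauss-integral),
* `hker0/1/01` : `gaussRes (φ i z) = 0 ↔ z ∈ P0 i / P1 i / Q i` (the component `i` IS the centre of the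
  Gauss valuation of `e i`),
* `hpc0/1` : the reductions of the two charts are `p`-closed in `κ̄((q))`,
* `hker` : Gauss units with `dlog = 0` are `p`-th powers of residues (helper16).
-/
import Mathlib
import Fermat.Agent.T1B.Ker85.AsmComp
import Fermat.Agent.T1B.Bal60.QuotPoint
import Fermat.Agent.T1B.Ker85.CompH0L

set_option autoImplicit false
set_option linter.unusedSectionVars false
set_option linter.style.haveILetI false

open TensorProduct Polynomial

namespace Fermat.Agent.T1B.Ker85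

open Fermat.Agent.Jac Fermat.Agent.Jac.LineOps39 Fermat.Agent.Jac.JGroup85Pic
open Fermat.Agent.Jac.JSmooth85Alg Fermat.Agent.Jac.BaseChange75
open Fermat.Agent.T1B.Hecke3 Fermat.Agent.T1B.Hol31.Frame
open Fermat.Agent.T1.RedIface75 Fermat.Agent.T1B.RedN3 Fermat.Agent.T1B.Bal60
open scoped Fermat.Agent.Jac.BaseChange75

universe u v w

variable {W B0 B1 B01 : Type u} [CommRing W] [CommRing B0] [CommRing B1] [CommRing B01]
  [Algebra W B0] [Algebra W B1] [Algebra W B01] [Algebra B0 B01] [Algebra B1 B01]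
  [IsScalarTower W B0 B01] [IsScalarTower W B1 B01]
  (c0 : TwoChart W B0 B1 B01)
  {O : Type u} [CommRing O] [IsDomain O] [IsDiscreteValuationRing O] [Algebra W O]
  {L : Type u} [CommRing L] [Algebra W L] [Algebra O L] [IsScalarTower W O L]

/-- **(K) for the canonical components.** -/
theorem mem_J1L_of_dl_eq_zero_quot {π : O} (hπ : IsLocalRing.maximalIdeal O = Ideal.span {π})
    (hg : NodalGood (c0.baseChange O) π (Fin 2))
    (hKp : RingHom.ker (algebraMap O (IsLocalRing.ResidueField O)) = Ideal.span {π})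
    (fin0 : Module.Finite O[X] (Module.AEval O (O ⊗[W] B0) (c0.baseChange O).t))
    (fin1 : Module.Finite O[X] (Module.AEval O (O ⊗[W] B1) (c0.baseChange O).s))
    (htr0 : ∀ i, ∀ q : O[X], aeval (c0.baseChange O).t q ∈ hg.P0 i → (C π : O[X]) ∣ q)
    (htr1 : ∀ i, ∀ q : O[X], aeval (c0.baseChange O).s q ∈ hg.P1 i → (C π : O[X]) ∣ q)
    (hinj : ExtInjective00 c0 O L (P00 hg fun i => quotComp hg i (IsLocalRing.ResidueField O)
      IsLocalRing.residue_surjective hKp fin0 fin1 (htr0 i) (htr1 i)))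
    (p : ℕ) [Fact p.Prime] [CharP (IsLocalRing.ResidueField O) p]
    (hroot : ∀ d : IsLocalRing.ResidueField O, ∃ δ : IsLocalRing.ResidueField O, δ ^ p = d)
    (hH0 : ∀ i, Fermat.Agent.T1.Red68.H0Const (quotComp hg i (IsLocalRing.ResidueField O)
      IsLocalRing.residue_surjective hKp fin0 fin1 (htr0 i) (htr1 i)).chart)
    (inf01 : ∀ x : O ⊗[W] B01, (∀ i, x ∈ hg.Q i) →
      ∃ y : O ⊗[W] B01, x = algebraMap O (O ⊗[W] B01) π * y)
    (hrad0 : (hg.P0 0 ⊔ hg.P0 1).IsRadical) (hrad1 : (hg.P1 0 ⊔ hg.P1 1).IsRadical)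
    -- the function field and the two expansions
    {F : Type v} [Field F] [Algebra (O ⊗[W] B0) F] [Algebra (O ⊗[W] B1) F]
    [Algebra (O ⊗[W] B01) F] [IsScalarTower (O ⊗[W] B0) (O ⊗[W] B01) F]
    [IsScalarTower (O ⊗[W] B1) (O ⊗[W] B01) F]
    {K : Type w} [Field K] (V : ValuationSubring K) (e : Fin 2 → F →+* LaurentSeries K)
    (ι : K →+* F) (hι : ∀ i (c : K), e i (ι c) = HahnSeries.C c)
    (H : ∀ i (f : F), f ≠ 0 → Normalisable V (e i f))
    (hK : ∀ c : K, ∃ b : K, b ^ p = c)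
    (φ : ∀ i, (O ⊗[W] B01) →+* gaussSub V (e i))
    (hφ : ∀ i z, ((φ i z : gaussSub V (e i)) : F) = algebraMap (O ⊗[W] B01) F z)
    (hker0 : ∀ i (z : O ⊗[W] B0),
      gaussRes V (e i) (φ i (algebraMap (O ⊗[W] B0) (O ⊗[W] B01) z)) = 0 ↔ z ∈ hg.P0 i)
    (hker1 : ∀ i (z : O ⊗[W] B1),
      gaussRes V (e i) (φ i (algebraMap (O ⊗[W] B1) (O ⊗[W] B01) z)) = 0 ↔ z ∈ hg.P1 i)
    (hker01 : ∀ i (z : O ⊗[W] B01), gaussRes V (e i) (φ i z) = 0 ↔ z ∈ hg.Q i)
    (hpc0 : ∀ i (a : LaurentSeries (Kap V)) (z : O ⊗[W] B0),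
      a ^ p = gaussRes V (e i) (φ i (algebraMap (O ⊗[W] B0) (O ⊗[W] B01) z)) →
      ∃ z' : O ⊗[W] B0, a = gaussRes V (e i) (φ i (algebraMap (O ⊗[W] B0) (O ⊗[W] B01) z')))
    (hpc1 : ∀ i (a : LaurentSeries (Kap V)) (z : O ⊗[W] B1),
      a ^ p = gaussRes V (e i) (φ i (algebraMap (O ⊗[W] B1) (O ⊗[W] B01) z)) →
      ∃ z' : O ⊗[W] B1, a = gaussRes V (e i) (φ i (algebraMap (O ⊗[W] B1) (O ⊗[W] B01) z')))
    (hker : ∀ i (w : gaussSub V (e i)), gaussRes V (e i) w ≠ 0 →
      dlog (gaussRes V (e i) w) = 0 →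
      ∃ v : gaussSub V (e i), gaussRes V (e i) w = gaussRes V (e i) v ^ p)
    (y : J0L c0 O L (P00 hg fun i => quotComp hg i (IsLocalRing.ResidueField O)
      IsLocalRing.residue_surjective hKp fin0 fin1 (htr0 i) (htr1 i))) (hyp : y ^ p = 1)
    {M : QC2 O (O ⊗[W] B0) (O ⊗[W] B1) (O ⊗[W] B01)} (hM : M.IsLine)
    (hMP : LinePic.mk (c0.baseChange O) M hM ∈ P00 hg fun i =>
      quotComp hg i (IsLocalRing.ResidueField O)
        IsLocalRing.residue_surjective hKp fin0 fin1 (htr0 i) (htr1 i))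
    (hMy : PicX.map c0 O L (LinePic.mk (c0.baseChange O) M hM) = y)
    (ε : M.N01 →ₗ[O ⊗[W] B01] F) (g : F) (hg0 : g ≠ 0)
    (hf0 : frame0 M ε ^ p = Submodule.span (O ⊗[W] B0) {g})
    (hf1 : frame1 M ε ^ p = Submodule.span (O ⊗[W] B1) {g})
    (hdl : ∀ i, dl V (e i g) = 0) :
    (y : PicX c0 L) ∈ J1L c0 O L (P00 hg fun i => quotComp hg i (IsLocalRing.ResidueField O)
      IsLocalRing.residue_surjective hKp fin0 fin1 (htr0 i) (htr1 i)) := by
  -- the residue maps on the three rings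
  let ρ0 : ∀ i, (O ⊗[W] B0) →+* LaurentSeries (Kap V) := fun i =>
    (gaussRes V (e i)).comp ((φ i).comp (algebraMap (O ⊗[W] B0) (O ⊗[W] B01)))
  let ρ1 : ∀ i, (O ⊗[W] B1) →+* LaurentSeries (Kap V) := fun i =>
    (gaussRes V (e i)).comp ((φ i).comp (algebraMap (O ⊗[W] B1) (O ⊗[W] B01)))
  let ρ01 : ∀ i, (O ⊗[W] B01) →+* LaurentSeries (Kap V) := fun i =>
    (gaussRes V (e i)).comp (φ i)
  -- the induced embeddings of the quotients
  let k0 : ∀ i, ((O ⊗[W] B0) ⧸ hg.P0 i) →+* LaurentSeries (Kap V) := fun i =>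
    Ideal.Quotient.lift (hg.P0 i) (ρ0 i) fun a ha => (hker0 i a).2 ha
  let k1 : ∀ i, ((O ⊗[W] B1) ⧸ hg.P1 i) →+* LaurentSeries (Kap V) := fun i =>
    Ideal.Quotient.lift (hg.P1 i) (ρ1 i) fun a ha => (hker1 i a).2 ha
  let k01 : ∀ i, ((O ⊗[W] B01) ⧸ hg.Q i) →+* LaurentSeries (Kap V) := fun i =>
    Ideal.Quotient.lift (hg.Q i) (ρ01 i) fun a ha => (hker01 i a).2 ha
  have hk0i : ∀ i, Function.Injective (k0 i) := fun i => by
    rw [injective_iff_map_eq_zero]
    intro z hz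
    obtain ⟨z', rfl⟩ := Ideal.Quotient.mk_surjective z
    exact Ideal.Quotient.eq_zero_iff_mem.2 ((hker0 i z').1 hz)
  have hk1i : ∀ i, Function.Injective (k1 i) := fun i => by
    rw [injective_iff_map_eq_zero]
    intro z hz
    obtain ⟨z', rfl⟩ := Ideal.Quotient.mk_surjective z
    exact Ideal.Quotient.eq_zero_iff_mem.2 ((hker1 i z').1 hz)
  have hk01i : ∀ i, Function.Injective (k01 i) := fun i => by
    rw [injective_iff_map_eq_zero]
    intro z hz
    obtain ⟨z', rfl⟩ := Ideal.Quotient.mk_surjective z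
    exact Ideal.Quotient.eq_zero_iff_mem.2 ((hker01 i z').1 hz)
  refine mem_J1L_of_dl_eq_zero_comp c0 hπ hg
    (fun i => quotComp hg i (IsLocalRing.ResidueField O)
      IsLocalRing.residue_surjective hKp fin0 fin1 (htr0 i) (htr1 i)) hinj p hroot
    (fun i a => quotComp_const hg i (IsLocalRing.ResidueField O)
      IsLocalRing.residue_surjective hKp fin0 fin1 (htr0 i) (htr1 i) a)
    (fun i a => quotComp_const1 hg i (IsLocalRing.ResidueField O)
      IsLocalRing.residue_surjective hKp fin0 fin1 (htr0 i) (htr1 i) a)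
    (fun i => Ideal.Quotient.mk_surjective) (fun i => Ideal.mk_ker) hH0 inf01 hrad0 hrad1
    V e k0 k1 k01 ?_ ?_ hk0i hk1i hk01i ι hι H hK φ hφ ?_ ?_ ?_ hker y hyp hM hMP hMy ε g hg0
    hf0 hf1 hdl
  · intro i z
    obtain ⟨z', rfl⟩ := Ideal.Quotient.mk_surjective z
    rfl
  · intro i z
    obtain ⟨z', rfl⟩ := Ideal.Quotient.mk_surjective z
    rfl
  · intro i z
    rfl
  · intro i a c hac
    obtain ⟨z, rfl⟩ := Ideal.Quotient.mk_surjective c
    obtain ⟨z', hz'⟩ := hpc0 i a z hac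
    exact ⟨Ideal.Quotient.mk _ z', hz'.symm⟩
  · intro i a c hac
    obtain ⟨z, rfl⟩ := Ideal.Quotient.mk_surjective c
    obtain ⟨z', hz'⟩ := hpc1 i a z hac
    exact ⟨Ideal.Quotient.mk _ z', hz'.symm⟩

/-- **`H⁰ = κ` for the canonical component `i`**, from the Gauss residue map: the constants of `O`
reduce to constants, and the constant coefficients of the reductions of chart `0` lie in `κ`. -/
theorem h0Const_quotComp_of_gauss {π : O} (hg : NodalGood (c0.baseChange O) π (Fin 2))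
    (hKp : RingHom.ker (algebraMap O (IsLocalRing.ResidueField O)) = Ideal.span {π})
    (fin0 : Module.Finite O[X] (Module.AEval O (O ⊗[W] B0) (c0.baseChange O).t))
    (fin1 : Module.Finite O[X] (Module.AEval O (O ⊗[W] B1) (c0.baseChange O).s))
    (i : Fin 2)
    (htr0 : ∀ q : O[X], aeval (c0.baseChange O).t q ∈ hg.P0 i → (C π : O[X]) ∣ q)
    (htr1 : ∀ q : O[X], aeval (c0.baseChange O).s q ∈ hg.P1 i → (C π : O[X]) ∣ q)
    {K' : Type*} [Field K'] [Algebra (IsLocalRing.ResidueField O) K']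
    (ρ0 : (O ⊗[W] B0) →+* LaurentSeries K')
    (hker0 : ∀ z : O ⊗[W] B0, ρ0 z = 0 ↔ z ∈ hg.P0 i)
    (hconstO : ∀ a : O, ρ0 (algebraMap O (O ⊗[W] B0) a) =
      HahnSeries.C (algebraMap (IsLocalRing.ResidueField O) K' (IsLocalRing.residue O a)))
    (hcoeff : ∀ z : O ⊗[W] B0,
      (ρ0 z).coeff 0 ∈ (algebraMap (IsLocalRing.ResidueField O) K').range) :
    Fermat.Agent.T1.Red68.H0Const (quotComp hg i (IsLocalRing.ResidueField O)
      IsLocalRing.residue_surjective hKp fin0 fin1 htr0 htr1).chart := by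
  let k0 : ((O ⊗[W] B0) ⧸ hg.P0 i) →+* LaurentSeries K' :=
    Ideal.Quotient.lift (hg.P0 i) ρ0 fun a ha => (hker0 a).2 ha
  have hk0i : Function.Injective k0 := by
    rw [injective_iff_map_eq_zero]
    intro z hz
    obtain ⟨z', rfl⟩ := Ideal.Quotient.mk_surjective z
    exact Ideal.Quotient.eq_zero_iff_mem.2 ((hker0 z').1 hz)
  refine Comp.h0Const_of_laurent (quotComp hg i (IsLocalRing.ResidueField O)
    IsLocalRing.residue_surjective hKp fin0 fin1 htr0 htr1) k0 hk0i ?_ ?_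
  · intro r
    obtain ⟨a, rfl⟩ := IsLocalRing.residue_surjective r
    have h1 := quotComp_const hg i (IsLocalRing.ResidueField O)
      IsLocalRing.residue_surjective hKp fin0 fin1 htr0 htr1 a
    have h2 : algebraMap O (IsLocalRing.ResidueField O) a = IsLocalRing.residue O a := rfl
    rw [h2] at h1
    rw [h1]
    exact hconstO a
  · intro z
    obtain ⟨z', rfl⟩ := Ideal.Quotient.mk_surjective z
    exact hcoeff z'

end Fermat.Agent.T1B.Ker85
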