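/-
Fermat/Agent/T1B/Ker85/CoeffRes.lean (helper85) -- programme T1B (row 38), brick TORUS-INST (A4):
THE RESIDUES OF THE FINITE-LEVEL FUNCTIONS HAVE COEFFICIENTS IN THE RESIDUE FIELD OF THE NUMBER FIELD.

`A` a valuation subring of `ℚ̄`, `K ⊂ ℚ̄`, `O = AK A K = A ∩ K` with a uniformiser.

* `gaussRes_eq_coeffMap_of_descent` (generic): if the expansion `e u` of a Gauss element descends to
  `y ∈ Frac O((q)) ⊂ K((q))` then `y` is Gauss-integral over `O` and
  `gaussRes A e u = coeffMap (resO φ A) (gaussRed O y)`; `coeff_gaussRes_mem_range`.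
* `exists_descent_coe` (side 1) and `exists_descent_W` (side 2: any expansion `W` of `FF (M' q)` with
  `W (α f) = f(q^q)`, `W (β h) = h`, `W c = c`, e.g. the Atkin–Lehner expansion `W_q`):
  the expansions of `FK (M' q) K ⊗ ℚ̄` descend to `Frac O((q))` (`FrickeFK8.mem_subfield_of_gen`).
* `coeff_gaussRes_coe_mem_range`, `coeff_gaussRes_W_mem_range` : the consumer forms
  (hypothesis `hcoeff` of `Ker85.h0Const_quotComp_of_gauss`).
-/
import Mathlib
import Fermat.Agent.T1B.GaussW77.Finite

set_option autoImplicit false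
set_option linter.unusedSectionVars false

noncomputable section

open HahnSeries ModularCurve IntermediateField

namespace Fermat.Agent.T1B.Ker85

open Fermat.Agent.RED.Interface4 Fermat.Agent.RED.PUR.GaussGen8
open Fermat.Agent.RED.DESC.PlaceExtend27 Fermat.Agent.RED.DESC.CoeffDescent1
open Fermat.Agent.ES.N34.FrickeFK8 Fermat.Agent.ES.N34.ModelDefs9
open Fermat.Agent.T1B.Hecke3 Fermat.Agent.T1B.GaussW95 Fermat.Agent.T1B.GaussW77
open Fermat.Agent.X0 Fermat.Agent.X0.Analytic

/-! ### Generic form -/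

section Generic

variable {K L : Type*} [Field K] [Field L] (φ : K →+* L) (A : ValuationSubring L)
  {F : Type*} [Field F] (e : F →+* LaurentSeries L)

/-- **Residues descend with the expansion.** -/
theorem gaussRes_eq_coeffMap_of_descent {π : ↥(A.comap φ)} (hπ : IsUnif (A.comap φ) π)
    (u : gaussSub A e) (y : LaurentSeries K) (hy : y ∈ fracField (A.comap φ))
    (he : e (u : F) = coeffMap φ y) :
    ∃ hy' : y ∈ gaussRing (A.comap φ),
      gaussRes A e u = coeffMap (resO φ A) (gaussRed (A.comap φ) ⟨y, hy'⟩) := by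
  have hu : e (u : F) ∈ gaussRing A := u.2
  rw [he] at hu
  have hy' : y ∈ gaussRing (A.comap φ) := (coeffMap_mem_gaussRing_iff hπ hy).1 hu
  refine ⟨hy', ?_⟩
  obtain ⟨a, s, h⟩ := hy'
  have h' : IsIntRep A e (u : F) (coeffMap (inclO φ A) a) (coeffMap (inclO φ A) s) := by
    have := isRep_map (φ := φ) (A := A) h
    rw [← he] at this
    exact this
  rw [gaussRes_eq h', gaussRed_eq (A.comap φ) (f := ⟨y, _⟩) h, map_div₀]
  exact congrArg₂ (· / ·) (redL_inclO φ A a) (redL_inclO φ A s)

/-- the coefficients of the residue lie in the residue field of `A ∩ K`. -/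
theorem coeff_gaussRes_mem_range {π : ↥(A.comap φ)} (hπ : IsUnif (A.comap φ) π)
    (u : gaussSub A e) (y : LaurentSeries K) (hy : y ∈ fracField (A.comap φ))
    (he : e (u : F) = coeffMap φ y) (n : ℤ) :
    (gaussRes A e u).coeff n ∈ (resO φ A).range := by
  obtain ⟨hy', h⟩ := gaussRes_eq_coeffMap_of_descent φ A e hπ u y hy he
  rw [h, coeffMap_coeff]
  exact ⟨_, rfl⟩

end Generic

/-! ### Descent of the two expansions at the finite level -/

section Descent

variable {A : ValuationSubring Qbar} {K : IntermediateField ℚ Qbar} (M' q : ℕ) [NeZero M']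
  [NeZero q]

/-- side 1: the expansion at `∞` of `x ⊗ ℚ̄` is `x`. -/
theorem exists_descent_coe (hE : FK (M' * q) K ≤ fracField (AK A K)) (x : FK (M' * q) K) :
    ∃ y : LaurentSeries K, y ∈ fracField (AK A K) ∧
      coeHom (M' * q) (baseChangeHom (M' * q) K x) = coeffMap (algebraMap K Qbar) y :=
  ⟨x, hE x.2, rfl⟩

variable (W : Fbar (M' * q) →+* LaurentSeries Qbar)
  (hWα : ∀ f : Fbar M', W (heckeAlphaBar Qbar M' q f) = qExpand Qbar q (f : LaurentSeries Qbar))
  (hWβ : ∀ h : Fbar M', W (heckeBetaBar Qbar M' q h) = (h : LaurentSeries Qbar))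
  (hWc : ∀ c : Qbar, W (algebraMap Qbar (Fbar (M' * q)) c) = HahnSeries.C c)

/-- the subfield of `K`-rational, `O`-bounded series inside `ℚ̄((q))`. -/
def descSub (A : ValuationSubring Qbar) (K : IntermediateField ℚ Qbar) :
    Subfield (LaurentSeries Qbar) :=
  (fracField (AK A K)).toSubfield.map (coeffMap (algebraMap K Qbar))

theorem mem_descSub_iff {f : LaurentSeries Qbar} :
    f ∈ descSub A K ↔ ∃ y : LaurentSeries K, y ∈ fracField (AK A K) ∧
      coeffMap (algebraMap K Qbar) y = f := by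
  unfold descSub
  rw [Subfield.mem_map]
  rfl

include hWα hWβ hWc in
/-- **side 2: `W` maps `FK (M' q) K ⊗ ℚ̄` into `K((q)) ⊗ ℚ̄`.** -/
theorem exists_descent_W (hq : q.Prime) (hE : FK (M' * q) K ≤ fracField (AK A K))
    (x : FK (M' * q) K) :
    ∃ y : LaurentSeries K, y ∈ fracField (AK A K) ∧
      W (baseChangeHom (M' * q) K x) = coeffMap (algebraMap K Qbar) y := by
  suffices h : x ∈ (descSub A K).comap (W.comp (baseChangeHom (M' * q) K)) by
    obtain ⟨y, hy, hyx⟩ := mem_descSub_iff.1 h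
    exact ⟨y, hy, hyx.symm⟩
  refine mem_subfield_of_gen (M' * q) K _ ?_ ?_ x
  · intro d _ hd
    show W (baseChangeHom (M' * q) K (xdL (M' * q) K d hd)) ∈ descSub A K
    rw [baseChangeHom_xdL]
    -- `j(q^d) ∈ Frac O((q))`
    have hjd : ∀ (d' : ℕ) [NeZero d'], d' ∣ M' * q →
        qExpand K d' (jqModC K) ∈ fracField (AK A K) := by
      intro d' _ hd'
      exact hE (xdL (M' * q) K d' hd').2
    have hcoe : ∀ (d' : ℕ) [NeZero d'], coeffMap (algebraMap K Qbar) (qExpand K d' (jqModC K)) =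
        qExpand Qbar d' jqK := by
      intro d' _
      rw [Fermat.Agent.X0.CuspGood.coeffMap_qExpand]
      congr 1
      rw [jqK, coeffEmb, ← jqModC_rat, coeffMap_jqModC, coeffMap_jqModC]
    by_cases hqd : q ∣ d
    · -- `d = q * d'`, `d' ∣ M'` : `x_d = β x_{d'}`
      obtain ⟨d', rfl⟩ := hqd
      have hd'0 : d' ≠ 0 := by
        rintro rfl
        exact (NeZero.ne (q * 0)) (mul_zero q)
      haveI : NeZero d' := ⟨hd'0⟩
      have hd'M : d' ∣ M' := by
        have h1 : q * d' ∣ q * M' := by rw [mul_comm q M']; exact hd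
        exact (Nat.mul_dvd_mul_iff_left hq.pos).1 h1
      have hβ : jdF (M' * q) (q * d') hd = heckeBetaBar Qbar M' q (jdF M' d' hd'M) := by
        apply Subtype.ext
        rw [coe_heckeBetaBar, coe_jdF_eq_qExpand, coe_jdF_eq_qExpand, qExpand_qExpand]
      rw [hβ, hWβ, coe_jdF_eq_qExpand]
      exact mem_descSub_iff.2 ⟨qExpand K d' (jqModC K),
        hjd d' (Dvd.dvd.mul_right hd'M q), hcoe d'⟩
    · -- `d ∣ M'` : `x_d = α x_d`
      have hdM : d ∣ M' := (Nat.Coprime.dvd_mul_right
        ((Nat.Coprime.symm ((Nat.Prime.coprime_iff_not_dvd hq).2 hqd)))).1 hd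
      have hα : jdF (M' * q) d hd = heckeAlphaBar Qbar M' q (jdF M' d hdM) := by
        apply Subtype.ext
        rw [coe_heckeAlphaBar, coe_jdF_eq_qExpand, coe_jdF_eq_qExpand]
      rw [hα, hWα, coe_jdF_eq_qExpand, qExpand_qExpand]
      haveI : NeZero (q * d) := ⟨mul_ne_zero (NeZero.ne q) (NeZero.ne d)⟩
      refine mem_descSub_iff.2 ⟨qExpand K (q * d) (jqModC K), ?_, hcoe (q * d)⟩
      rw [← qExpand_qExpand]
      exact qExpand_mem_fracField (AK A K) q (hjd d hd)
  · intro c
    show W (baseChangeHom (M' * q) K (algebraMap K (FK (M' * q) K) c)) ∈ descSub A K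
    rw [baseChangeHom_algebraMap, hWc]
    refine mem_descSub_iff.2 ⟨HahnSeries.C c, ?_, ?_⟩
    · rw [← algebraMap_eq_C]
      exact (fracField (AK A K)).algebraMap_mem c
    · rw [Fermat.Agent.RED.PUR.GaussGen8.coeffMap_C]
      rfl

end Descent

/-! ### Consumer forms -/

section Consumer

variable {A : ValuationSubring Qbar} {K : IntermediateField ℚ Qbar} (M' q : ℕ) [NeZero M']
  [NeZero q] {π : ↥(AK A K)}

/-- **side 1**: the residue of a finite-level function has coefficients in `Res (A ∩ K)`. -/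
theorem coeff_gaussRes_coe_mem_range (hπ : IsUnif (AK A K) π)
    (hE : FK (M' * q) K ≤ fracField (AK A K))
    (u : gaussSub A (coeHom (M' * q))) (x : FK (M' * q) K)
    (hux : (u : Fbar (M' * q)) = baseChangeHom (M' * q) K x) (n : ℤ) :
    (gaussRes A (coeHom (M' * q)) u).coeff n ∈ (resO (algebraMap K Qbar) A).range := by
  obtain ⟨y, hy, hxy⟩ := exists_descent_coe (A := A) M' q hE x
  exact coeff_gaussRes_mem_range (algebraMap K Qbar) A (coeHom (M' * q)) hπ u y hy
    (by rw [hux, hxy]) n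

/-- **side 2**: the same for an Atkin–Lehner type expansion `W`. -/
theorem coeff_gaussRes_W_mem_range (W : Fbar (M' * q) →+* LaurentSeries Qbar)
    (hWα : ∀ f : Fbar M', W (heckeAlphaBar Qbar M' q f) = qExpand Qbar q (f : LaurentSeries Qbar))
    (hWβ : ∀ h : Fbar M', W (heckeBetaBar Qbar M' q h) = (h : LaurentSeries Qbar))
    (hWc : ∀ c : Qbar, W (algebraMap Qbar (Fbar (M' * q)) c) = HahnSeries.C c)
    (hq : q.Prime) (hπ : IsUnif (AK A K) π)
    (hE : FK (M' * q) K ≤ fracField (AK A K))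
    (u : gaussSub A W) (x : FK (M' * q) K)
    (hux : (u : Fbar (M' * q)) = baseChangeHom (M' * q) K x) (n : ℤ) :
    (gaussRes A W u).coeff n ∈ (resO (algebraMap K Qbar) A).range := by
  obtain ⟨y, hy, hxy⟩ := exists_descent_W (A := A) M' q W hWα hWβ hWc hq hE x
  exact coeff_gaussRes_mem_range (algebraMap K Qbar) A W hπ u y hy (by rw [hux, hxy]) n

end Consumer

end Fermat.Agent.T1B.Ker85
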