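/-
Fermat/Agent/T1B/Ker85/CompTriv.lean (helper85) -- programme T1B (row 38), brick F8' slice S6 KER, part 2b:
a line on a NORMAL integral two-chart curve whose `p`-th power is generated by the `p`-th power of
a rational function is trivial (the Kummer map `Pic(C)[p] → k^× / (k^×)^p` is injective).

* `eq_span_singleton_of_pow_eq` : `C` integrally closed in the field `k`, `I ⊆ k` a `C`-submodule with
  `I^p = (g^p)`, `g ≠ 0`: then `I = (g)`.
* `nonempty_iso_unit_of_frame` : a line `L` on the two-chart curve `c` with a FRAME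
  `φ : L.N01 ↪ k` (`k` a field containing the chart rings; a frame is the same as a nonzero rational
  section of the dual), so that `L` becomes the pair of fractional ideals `I_j = φ (L.N_j) ⊆ k`.
  If `I_0^p = g^p C_0` and `I_1^p = g^p C_1` (the divisor of `g^p` is `p` times the divisor of the
  frame) then `L ≅ O`.
-/
import Mathlib
import Fermat.Agent.T1B.Torus85.Abstract
import Fermat.Agent.Jac.AbelJacobi73.Effective

set_option autoImplicit false
set_option linter.unusedSectionVars false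

open TensorProduct

namespace Fermat.Agent.T1B.Ker85

open Fermat.Agent.Jac Fermat.Agent.Jac.LineOps39 Fermat.Agent.Jac.JGroup85Pic

universe u

/-! ### The core lemma on fractional ideals -/

/-- `C` integrally closed in the field `k`; a `C`-submodule `I ⊆ k` with `I^p = (g^p)` is `(g)`. -/
theorem eq_span_singleton_of_pow_eq {C k : Type*} [CommRing C] [Field k] [Algebra C k]
    (hn : ∀ a : k, IsIntegral C a → a ∈ (algebraMap C k).range)
    (I : Submodule C k) (g : k) (hg : g ≠ 0) (p : ℕ) (hp : p ≠ 0)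
    (h : I ^ p = Submodule.span C {g ^ p}) : I = Submodule.span C {g} := by
  -- `I ⊆ (g)`
  have hle : ∀ a ∈ I, ∃ c : C, a = c • g := by
    intro a ha
    have hap : a ^ p ∈ I ^ p := Submodule.pow_mem_pow I ha p
    rw [h, Submodule.mem_span_singleton] at hap
    obtain ⟨c, hc⟩ := hap
    have hint : IsIntegral C (a / g) := by
      refine ⟨Polynomial.X ^ p - Polynomial.C c, Polynomial.monic_X_pow_sub_C c hp, ?_⟩
      rw [Polynomial.eval₂_sub, Polynomial.eval₂_pow, Polynomial.eval₂_X, Polynomial.eval₂_C,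
        div_pow, ← hc, Algebra.smul_def, mul_div_assoc, div_self (pow_ne_zero _ hg), mul_one,
        sub_self]
    obtain ⟨c', hc'⟩ := hn _ hint
    refine ⟨c', ?_⟩
    rw [Algebra.smul_def, hc', div_mul_cancel₀ _ hg]
  -- elements of `I^(m+1)` are `j • g^(m+1)` with `j • g ∈ I`
  have hpow : ∀ m : ℕ, ∀ x ∈ I ^ (m + 1), ∃ j : C, j • g ∈ I ∧ x = j • g ^ (m + 1) := by
    intro m
    induction m with
    | zero =>
      intro x hx
      rw [zero_add, pow_one] at hx
      obtain ⟨c, rfl⟩ := hle x hx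
      exact ⟨c, hx, by rw [zero_add, pow_one]⟩
    | succ m ih =>
      intro x hx
      rw [pow_succ] at hx
      refine Submodule.mul_induction_on hx ?_ ?_
      · intro b hb a ha
        obtain ⟨j, hj, rfl⟩ := ih b hb
        obtain ⟨c, rfl⟩ := hle a ha
        refine ⟨j * c, ?_, ?_⟩
        · rw [mul_smul]
          exact I.smul_mem j ha
        · rw [pow_succ _ (m + 1), smul_mul_smul_comm]
      · rintro x y ⟨j, hj, rfl⟩ ⟨j', hj', rfl⟩
        exact ⟨j + j', by rw [add_smul]; exact I.add_mem hj hj', by rw [add_smul]⟩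
  apply le_antisymm
  · intro a ha
    obtain ⟨c, rfl⟩ := hle a ha
    exact Submodule.mem_span_singleton.2 ⟨c, rfl⟩
  · rw [Submodule.span_singleton_le_iff_mem]
    obtain ⟨m, rfl⟩ : ∃ m, p = m + 1 := ⟨p - 1, by omega⟩
    have hgp : g ^ (m + 1) ∈ I ^ (m + 1) := by
      rw [h]
      exact Submodule.mem_span_singleton_self _
    obtain ⟨j, hj, hjg⟩ := hpow m _ hgp
    have h1 : algebraMap C k j = 1 := by
      rw [Algebra.smul_def] at hjg
      exact mul_right_cancel₀ (pow_ne_zero _ hg)
        (show algebraMap C k j * g ^ (m + 1) = 1 * g ^ (m + 1) by rw [one_mul, ← hjg])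
    rwa [Algebra.smul_def, h1, one_mul] at hj

/-! ### Lines on a normal two-chart curve -/

section Frame

variable {κ C0 C1 C01 : Type u} [Field κ] [CommRing C0] [CommRing C1] [CommRing C01]
  [Algebra κ C0] [Algebra κ C1] [Algebra κ C01] [Algebra C0 C01] [Algebra C1 C01]
  [IsScalarTower κ C0 C01] [IsScalarTower κ C1 C01]
  {k : Type u} [Field k] [Algebra C0 k] [Algebra C1 k] [Algebra C01 k]
  [IsScalarTower C0 C01 k] [IsScalarTower C1 C01 k]

/-- The chart-`0` part of a frame. -/
noncomputable def frame0 (L : QC2 κ C0 C1 C01) (φ : L.N01 →ₗ[C01] k) : L.N0 →ₗ[C0] k :=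
  (φ.restrictScalars C0).comp L.r0

/-- The chart-`1` part of a frame. -/
noncomputable def frame1 (L : QC2 κ C0 C1 C01) (φ : L.N01 →ₗ[C01] k) : L.N1 →ₗ[C1] k :=
  (φ.restrictScalars C1).comp L.r1

@[simp] theorem frame0_apply (L : QC2 κ C0 C1 C01) (φ : L.N01 →ₗ[C01] k) (n : L.N0) :
    frame0 L φ n = φ (L.r0 n) := rfl

@[simp] theorem frame1_apply (L : QC2 κ C0 C1 C01) (φ : L.N01 →ₗ[C01] k) (n : L.N1) :
    frame1 L φ n = φ (L.r1 n) := rfl

/-- **Kummer injectivity.**  `L` a line on a two-chart curve whose charts are integrally closed in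
the field `k`, framed by `φ : L.N01 ↪ k`.  If the `p`-th powers of the fractional ideals
`φ (L.N_j) ⊆ k` are generated by `g^p` for one `g ∈ k^×`, then `L` is trivial. -/
theorem nonempty_iso_unit_of_frame (L : QC2 κ C0 C1 C01) (hL : L.IsLine)
    (hn0 : ∀ a : k, IsIntegral C0 a → a ∈ (algebraMap C0 k).range)
    (hn1 : ∀ a : k, IsIntegral C1 a → a ∈ (algebraMap C1 k).range)
    (φ : L.N01 →ₗ[C01] k) (hφ : Function.Injective φ)
    (hr0 : Function.Injective L.r0) (hr1 : Function.Injective L.r1)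
    (g : k) (hg : g ≠ 0) (p : ℕ) (hp : p ≠ 0)
    (h0 : LinearMap.range (frame0 L φ) ^ p = Submodule.span C0 {g ^ p})
    (h1 : LinearMap.range (frame1 L φ) ^ p = Submodule.span C1 {g ^ p}) :
    Nonempty (QC2.Iso (QC2.unit : QC2 κ C0 C1 C01) L) := by
  have e0 := eq_span_singleton_of_pow_eq hn0 _ g hg p hp h0
  have e1 := eq_span_singleton_of_pow_eq hn1 _ g hg p hp h1
  -- the generators
  have hg0 : g ∈ LinearMap.range (frame0 L φ) := by
    rw [e0]; exact Submodule.mem_span_singleton_self _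
  have hg1 : g ∈ LinearMap.range (frame1 L φ) := by
    rw [e1]; exact Submodule.mem_span_singleton_self _
  obtain ⟨s0, hs0⟩ := hg0
  obtain ⟨s1, hs1⟩ := hg1
  have hcompat : L.r0 s0 = L.r1 s1 := hφ (by
    rw [← frame0_apply, ← frame1_apply, hs0, hs1])
  have hσ : (s0, s1) ∈ L.H0 := by
    show L.d (s0, s1) = 0
    simp only [QC2.d, LinearMap.coprod_apply, LinearMap.restrictScalars_apply, LinearMap.neg_apply]
    rw [hcompat, add_neg_cancel]
  refine Fermat.Agent.T1B.Torus85.nonempty_iso_unit_of_span L hL ⟨(s0, s1), hσ⟩ ?_ ?_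
  · rw [eq_top_iff]
    intro n _
    have hn : frame0 L φ n ∈ LinearMap.range (frame0 L φ) := ⟨n, rfl⟩
    rw [e0, Submodule.mem_span_singleton] at hn
    obtain ⟨a, ha⟩ := hn
    refine Submodule.mem_span_singleton.2 ⟨a, ?_⟩
    apply hr0
    apply hφ
    rw [← frame0_apply, ← frame0_apply, map_smul, hs0, ha]
  · rw [eq_top_iff]
    intro n _
    have hn : frame1 L φ n ∈ LinearMap.range (frame1 L φ) := ⟨n, rfl⟩
    rw [e1, Submodule.mem_span_singleton] at hn
    obtain ⟨a, ha⟩ := hn
    refine Submodule.mem_span_singleton.2 ⟨a, ?_⟩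
    apply hr1
    apply hφ
    rw [← frame1_apply, ← frame1_apply, map_smul, hs1, ha]

/-- Class form of `nonempty_iso_unit_of_frame`. -/
theorem mk_eq_one_of_frame (c : TwoChart κ C0 C1 C01) (L : QC2 κ C0 C1 C01) (hL : L.IsLine)
    (hn0 : ∀ a : k, IsIntegral C0 a → a ∈ (algebraMap C0 k).range)
    (hn1 : ∀ a : k, IsIntegral C1 a → a ∈ (algebraMap C1 k).range)
    (φ : L.N01 →ₗ[C01] k) (hφ : Function.Injective φ)
    (hr0 : Function.Injective L.r0) (hr1 : Function.Injective L.r1)
    (g : k) (hg : g ≠ 0) (p : ℕ) (hp : p ≠ 0)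
    (h0 : LinearMap.range (frame0 L φ) ^ p = Submodule.span C0 {g ^ p})
    (h1 : LinearMap.range (frame1 L φ) ^ p = Submodule.span C1 {g ^ p}) :
    LinePic.mk c L hL = 1 := by
  obtain ⟨e⟩ := nonempty_iso_unit_of_frame L hL hn0 hn1 φ hφ hr0 hr1 g hg p hp h0 h1
  rw [LinePic.one_def]
  exact (LinePic.mk_eq_mk isLine_unit hL e).symm

/-- `nonempty_iso_unit_of_frame` with the standard typeclass hypotheses: the charts are integrally
closed domains with fraction field `k`. -/
theorem mk_eq_one_of_frame' [IsDomain C0] [IsDomain C1] [IsDomain C01]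
    [IsIntegrallyClosed C0] [IsIntegrallyClosed C1] [IsFractionRing C0 k] [IsFractionRing C1 k]
    (c : TwoChart κ C0 C1 C01) (L : QC2 κ C0 C1 C01) (hL : L.IsLine)
    (φ : L.N01 →ₗ[C01] k) (hφ : Function.Injective φ)
    (g : k) (hg : g ≠ 0) (p : ℕ) (hp : p ≠ 0)
    (h0 : LinearMap.range (frame0 L φ) ^ p = Submodule.span C0 {g ^ p})
    (h1 : LinearMap.range (frame1 L φ) ^ p = Submodule.span C1 {g ^ p}) :
    LinePic.mk c L hL = 1 :=
  mk_eq_one_of_frame c L hL
    (fun _ ha => (isIntegrallyClosed_iff k).1 inferInstance ha)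
    (fun _ ha => (isIntegrallyClosed_iff k).1 inferInstance ha) φ hφ
    (Fermat.Agent.Jac.AbelJacobi73.r0_injective c L hL)
    (Fermat.Agent.Jac.AbelJacobi73.r1_injective c L hL) g hg p hp h0 h1

end Frame

end Fermat.Agent.T1B.Ker85
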