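/-
Fermat/Agent/T1B/Ker85/DeltaKerTop.lean (helper85) -- programme T1B (row 38), brick TORUS-INST (K10):
THE FIELD `δ_ker` OF `Local66.Glue.localGeom_of_fields`, VERBATIM, FROM THE PER-LEVEL STATEMENT.

  `δ_ker : ∀ x, j x ∈ J0top c0 P00 hPP → (∀ s, δ s x = 0) → j x ∈ J1top c0 P00 hPP`

= AD-MAIN (`ADPe93.Completion.adMain`: `j x ∈ J0top ⇒ x ∈ J0a D`) ; the union over the algebraic levels
(`Ker85.deltaKer_of_level`) ; the converse (`ADPe93.Completion.j_mem_unionSub_of_mem_J1a`).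

Inputs: helper93's `Completion D j` (concrete: `ADPe93.Inst.completion`), EXT-INJ-FIELD `hinjE`,
the reflection / preservation of `P00` along `O i → Ô` (`hrefl`, `hmap`: helper53
`NodalBC53/Bal.map_mem_P00_iff`), the preservation of `J¹` (`hred`: functoriality of the reduction map),
and the per-level `δ_ker` (`hlevel`: `Ker85.mem_J1L_of_delta_eq_zero_level`).
-/
import Mathlib
import Fermat.Agent.T1B.ADPe93.Assembly
import Fermat.Agent.T1B.Local66.Objects
import Fermat.Agent.T1B.Ker85.LevelUnion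

set_option autoImplicit false
set_option linter.unusedSectionVars false

namespace Fermat.Agent.T1B.Ker85

open Fermat.Agent.Jac Fermat.Agent.T1.RedIface75 Fermat.Agent.T1B.RedN3
open Fermat.Agent.T1B.AD74.J0a Fermat.Agent.T1B.ADPe93
open Fermat.Agent.T1B.Local66.Union Fermat.Agent.T1B.Local66.LocalBase
open Fermat.Agent.T1B.Local66.Objects Fermat.Agent.T1B.Bridge54.IpUnion
open Fermat.Agent.T1.HubInst98

variable {p : ℕ} [Fact p.Prime] {K : IntermediateField ℚ Fermat.Agent.RED.Interface4.Qbar}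
  [Nonempty (NLevel p K)]
  {B0 B1 B01 : Type} [CommRing B0] [CommRing B1] [CommRing B01]
  [Algebra (Wb p K) B0] [Algebra (Wb p K) B1] [Algebra (Wb p K) B01] [Algebra B0 B01]
  [Algebra B1 B01] [IsScalarTower (Wb p K) B0 B01] [IsScalarTower (Wb p K) B1 B01]
  {c0 : TwoChart (Wb p K) B0 B1 B01}
  {G : Type} [AddCommGroup G] {ι : Type} [Preorder ι] [IsDirected ι (· ≤ ·)] [Nonempty ι]
  {O L : ι → Type} [∀ i, CommRing (O i)] [∀ i, IsDomain (O i)]
  [∀ i, IsDiscreteValuationRing (O i)] [∀ i, Algebra (Wb p K) (O i)]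
  [∀ i, CommRing (L i)] [∀ i, Algebra (Wb p K) (L i)] [∀ i, Algebra (O i) (L i)]
  [∀ i, IsScalarTower (Wb p K) (O i) (L i)]

/-- **The field `δ_ker` of `Local66.Glue.localGeom_of_fields`.** -/
theorem deltaKer_top {D : Levels (G := G) c0 O L} {j : G →+ Atop p K c0} (Cm : Completion D j)
    (hinjE : ∀ E : NLevel p K, Function.Injective (bcE c0 E))
    (P00 : ∀ E : NLevel p K, Subgroup (PicO c0 E)) (hPP : Compatible c0 P00)
    (hrefl : ∀ i (y : PicX c0 (O i)), Cm.toO i y ∈ P00 (Cm.Ehat i) → y ∈ D.P00 i)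
    (hmap : ∀ i (y : PicX c0 (O i)), y ∈ D.P00 i → Cm.toO i y ∈ P00 (Cm.Ehat i))
    (hred : ∀ i (y : PicX c0 (O i)), red c0 (O i) y = 1 → Cm.toO i y ∈ J1Fam c0 (Cm.Ehat i))
    {q : ℕ} (hT : ∀ x : G, q • x = 0)
    {S : Type*} {D' : Type*} [Zero D'] (δ : S → G → D')
    (hlevel : ∀ (x : G) (i : ι), D.d i x ∈ J0L c0 (O i) (L i) (D.P00 i) → D.d i x ^ q = 1 →
      (∀ s, δ s x = 0) → ∃ k, D.d k x ∈ J1L c0 (O k) (L k) (D.P00 k))
    (x : G) (hx : j x ∈ J0top c0 P00 hPP) (hδ : ∀ s, δ s x = 0) : j x ∈ J1top c0 P00 hPP := by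
  have h0 : x ∈ J0a D := Cm.adMain hinjE P00 hPP hrefl x hx
  have h1 : x ∈ J1a D := deltaKer_of_level (fun y : G => y) hT δ hlevel x h0 hδ
  exact Cm.j_mem_unionSub_of_mem_J1a (fun E => P00 E ⊓ J1Fam c0 E)
    (compatible_inf c0 hPP (compatible_J1Fam c0))
    (fun i y hy hy1 => Subgroup.mem_inf.2 ⟨hmap i y hy, hred i y hy1⟩) x h1

end Fermat.Agent.T1B.Ker85
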