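/-
Fermat/Agent/T1B/Ker85/DlField.lean (helper85) -- programme T1B (row 38), brick F8' slice S6 KER /
bridge for FLAG (5) of helper45 (local vs global valued fields).

The `q`-dlog `Hecke3.dl` under a CHANGE OF VALUED FIELD: `τ : K →+* K'`, `A`, `A'` valuation
subrings with `A = A'.comap τ` (a local inclusion, e.g. `(ℚ̄, A) ⊂ (ℚ̄_p, V)` or `(E, O_E) ⊂ (ℚ̄_p, V)`).

* `inclV`, `kapMap` : the induced maps `A → A'`, `κ(A) → κ(A')`;
* `IsNormRep.mapField`, `Normalisable.mapField` : transport of Gauss normalisations;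
* `dlog_coeffMap` : `dlog` commutes with coefficientwise field maps;
* `dl_mapField` : `dl A' (coeffMap τ f) = coeffMap (kapMap) (dl A f)` for `f` normalisable;
* `dl_mapField_eq_zero_iff` : `dl A' (coeffMap τ f) = 0 ↔ dl A f = 0`.
* `mem_gaussSub_of_comp`, `gaussRes_of_comp` : a field map `ψ : F → F'` over `τ`
  (`e' ∘ ψ = coeffMap τ ∘ e`) maps `gaussSub A e` into `gaussSub A' e'`, compatibly with the residue
  maps.
-/
import Mathlib
import Fermat.Agent.T1B.Hecke3.DlAbs
import Fermat.Agent.T1B.Hecke3.GaussVal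

set_option autoImplicit false
set_option linter.unusedSectionVars false

noncomputable section

namespace Fermat.Agent.T1B.Ker85

open HahnSeries ModularCurve Fermat.Agent.T1B.Hecke3 Fermat.Agent.IG.PR.Theta20

variable {K K' : Type*} [Field K] [Field K'] (A : ValuationSubring K) (A' : ValuationSubring K')
  (τ : K →+* K') (hτ : ∀ x : K, x ∈ A ↔ τ x ∈ A')

/-- The local inclusion `A → A'` induced by `τ`. -/
def inclV : ↥A →+* ↥A' := τ.restrict A A' (fun x hx => (hτ x).1 hx)

@[simp] theorem inclV_coe (x : ↥A) : ((inclV A A' τ hτ x : ↥A') : K') = τ (x : K) := rfl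

theorem isLocalHom_inclV : IsLocalHom (inclV A A' τ hτ) := by
  constructor
  intro x hx
  obtain ⟨y, hy⟩ := isUnit_iff_exists_inv.mp hx
  have h1 : τ (x : K) * (y : K') = 1 := congrArg (fun z : ↥A' => (z : K')) hy
  have hx0 : (x : K) ≠ 0 := by
    intro h0
    rw [h0, map_zero, zero_mul] at h1
    exact zero_ne_one h1
  have h2 : τ ((x : K)⁻¹) = (y : K') := by
    rw [map_inv₀]
    exact inv_eq_of_mul_eq_one_right h1
  have h4 : (x : K)⁻¹ ∈ A := by
    rw [hτ, h2]; exact y.2
  refine isUnit_iff_exists_inv.mpr ⟨⟨(x : K)⁻¹, h4⟩, ?_⟩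
  apply Subtype.ext
  show (x : K) * (x : K)⁻¹ = 1
  exact mul_inv_cancel₀ hx0

/-- The induced map of residue fields. -/
def kapMap : Kap A →+* Kap A' :=
  haveI := isLocalHom_inclV A A' τ hτ
  IsLocalRing.ResidueField.map (inclV A A' τ hτ)

theorem kapMap_residue (x : ↥A) :
    kapMap A A' τ hτ (IsLocalRing.residue ↥A x) = IsLocalRing.residue ↥A' (inclV A A' τ hτ x) := by
  haveI := isLocalHom_inclV A A' τ hτ
  exact IsLocalRing.ResidueField.map_residue (inclV A A' τ hτ) x

theorem redA_inclV (a : LaurentSeries ↥A) :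
    redA A' (coeffMap (inclV A A' τ hτ) a) = coeffMap (kapMap A A' τ hτ) (redA A a) := by
  ext n
  simp only [redA, coeffMap_coeff]
  exact (kapMap_residue A A' τ hτ _).symm

theorem embA_inclV (a : LaurentSeries ↥A) :
    embA A' (coeffMap (inclV A A' τ hτ) a) = coeffMap τ (embA A a) := by
  ext n
  simp only [embA, coeffMap_coeff]
  rfl

theorem coeffMap_injective_of_field {k k' : Type*} [Field k] [Field k'] (ρ : k →+* k') :
    Function.Injective (coeffMap ρ) := by
  intro x y h
  ext n
  apply ρ.injective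
  have := congrArg (fun z => z.coeff n) h
  simpa only [coeffMap_coeff] using this

theorem coeffMap_C_field {R S : Type*} [CommRing R] [CommRing S] (φ : R →+* S) (c : R) :
    coeffMap φ (HahnSeries.C c : LaurentSeries R) = HahnSeries.C (φ c) := coeffMap_C' φ c

variable {A}

include hτ in
theorem isNormRep_mapField {f : LaurentSeries K} {c : K} {a s : LaurentSeries ↥A}
    (h : IsNormRep A f c a s) :
    IsNormRep A' (coeffMap τ f) (τ c) (coeffMap (inclV A A' τ hτ) a)
      (coeffMap (inclV A A' τ hτ) s) := by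
  obtain ⟨hc, ha, hs, he⟩ := h
  have hinj := coeffMap_injective_of_field (kapMap A A' τ hτ)
  refine ⟨(map_ne_zero τ).2 hc, ?_, ?_, ?_⟩
  · rw [redA_inclV]
    exact fun h0 => ha (hinj (by rw [h0, map_zero]))
  · rw [redA_inclV]
    exact fun h0 => hs (hinj (by rw [h0, map_zero]))
  · rw [embA_inclV, embA_inclV, ← he, map_mul, map_mul, coeffMap_C_field]

include hτ in
theorem normalisable_mapField {f : LaurentSeries K} (h : Normalisable A f) :
    Normalisable A' (coeffMap τ f) := by
  obtain ⟨c, a, s, h⟩ := h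
  exact ⟨_, _, _, isNormRep_mapField A' τ hτ h⟩

/-- `dlog` commutes with coefficientwise field homomorphisms. -/
theorem dlog_coeffMap {k k' : Type*} [Field k] [Field k'] (ρ : k →+* k') (g : LaurentSeries k) :
    dlog (coeffMap ρ g) = coeffMap ρ (dlog g) := by
  unfold dlog
  rw [map_mul, coeffMap_theta, map_inv₀]

/-- **`dl` under a change of valued field.** -/
theorem dl_mapField {f : LaurentSeries K} (hf : Normalisable A f) :
    dl A' (coeffMap τ f) = coeffMap (kapMap A A' τ hτ) (dl A f) := by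
  obtain ⟨c, a, s, h⟩ := hf
  rw [dl_eq_of_rep (isNormRep_mapField A' τ hτ h), dl_eq_of_rep h, redA_inclV, redA_inclV, dlog_coeffMap,
    dlog_coeffMap, map_sub]

include hτ in
theorem dl_mapField_eq_zero_iff {f : LaurentSeries K} (hf : Normalisable A f) :
    dl A' (coeffMap τ f) = 0 ↔ dl A f = 0 := by
  rw [dl_mapField A' τ hτ hf]
  constructor
  · intro h
    exact coeffMap_injective_of_field (kapMap A A' τ hτ) (by rw [h, map_zero])
  · intro h
    rw [h, map_zero]

/-! ### Gauss rings along a map of function fields over `τ` -/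

section Gauss

variable {F F' : Type*} [Field F] [Field F'] (e : F →+* LaurentSeries K)
  (e' : F' →+* LaurentSeries K') (ψ : F →+* F')
  (hψ : ∀ f : F, e' (ψ f) = coeffMap τ (e f))

include hψ in
theorem isIntRep_mapField {f : F} {a s : LaurentSeries ↥A} (h : IsIntRep A e f a s) :
    IsIntRep A' e' (ψ f) (coeffMap (inclV A A' τ hτ) a) (coeffMap (inclV A A' τ hτ) s) := by
  obtain ⟨hs, he⟩ := h
  have hinj := coeffMap_injective_of_field (kapMap A A' τ hτ)
  refine ⟨?_, ?_⟩
  · rw [redA_inclV]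
    exact fun h0 => hs (hinj (by rw [h0, map_zero]))
  · rw [embA_inclV, embA_inclV, hψ, ← he, map_mul]

include hτ hψ in
theorem mem_gaussSub_of_comp {f : F} (h : f ∈ gaussSub A e) : ψ f ∈ gaussSub A' e' := by
  obtain ⟨a, s, h⟩ := h
  exact ⟨_, _, isIntRep_mapField A' τ hτ e e' ψ hψ h⟩

/-- The map `gaussSub A e → gaussSub A' e'` induced by `ψ`. -/
def gaussSubMap : gaussSub A e →+* gaussSub A' e' :=
  (ψ.comp (gaussSub A e).subtype).codRestrict (gaussSub A' e')
    (fun x => mem_gaussSub_of_comp A' τ hτ e e' ψ hψ x.2)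

@[simp] theorem gaussSubMap_coe (x : gaussSub A e) :
    ((gaussSubMap A' τ hτ e e' ψ hψ x : gaussSub A' e') : F') = ψ (x : F) := rfl

theorem gaussRes_gaussSubMap (x : gaussSub A e) :
    gaussRes A' e' (gaussSubMap A' τ hτ e e' ψ hψ x) =
      coeffMap (kapMap A A' τ hτ) (gaussRes A e x) := by
  obtain ⟨a, s, h⟩ := x.2
  have h' := isIntRep_mapField A' τ hτ e e' ψ hψ h
  rw [gaussRes_eq (f := gaussSubMap A' τ hτ e e' ψ hψ x) h', gaussRes_eq (f := x) h,
    redA_inclV, redA_inclV, map_div₀]

end Gauss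

end Fermat.Agent.T1B.Ker85
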