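/-
Fermat/Agent/T1B/Ker85/H0Hub.lean (helper85) -- programme T1B (row 38), brick TORUS-INST (A5):
`H⁰(O) = κ` FOR THE COMPONENTS OF THE NODAL HUB OVER `O = A ∩ K` (hypothesis `hH0` of
`Ker85.mem_J1L_of_dl_eq_zero_hub`).

Generic setting: `φ : K →+* L'` a field embedding (application: a number field `K ⊂ ℚ̄`),
`A ⊂ L'` a valuation subring, `O = A.comap φ` a discrete valuation ring, `e : F →+* L'((q))` an
expansion of a function field `F` over `L'`, `ψ : F' →+* F` (application: `baseChangeHom N K`) such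
that the expansions of `ψ F'` DESCEND to `Frac O((q)) ⊂ K((q))` (`hdesc`; `Ker85.exists_descent_coe`,
`Ker85.exists_descent_W`) and the constants of `O` expand to constants (`hconst`).

* `h0Const_quotComp_of_descent` : for a nodal hub `hg : NodalGood (c0.baseChange O) π' (Fin 2)` and a
  ring map `f0 : O ⊗[W] B0 →+* F'` (the chart) with Gauss-integral image, whose residue map has kernel
  `hg.P0 i`:  `Red68.H0Const (quotComp hg i (ResidueField O) ..).chart`.
-/
import Mathlib
import Fermat.Agent.T1B.Ker85.AsmQuot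
import Fermat.Agent.T1B.GaussW95.Descent

set_option autoImplicit false
set_option linter.unusedSectionVars false
set_option linter.style.haveILetI false

open TensorProduct Polynomial

namespace Fermat.Agent.T1B.Ker85

open Fermat.Agent.Jac Fermat.Agent.Jac.BaseChange75
open Fermat.Agent.T1B.Hecke3 Fermat.Agent.T1B.RedN3 Fermat.Agent.T1B.Bal60
open Fermat.Agent.RED.PUR.GaussGen8 Fermat.Agent.T1B.GaussW95 ModularCurve
open scoped Fermat.Agent.Jac.BaseChange75

universe u v w

section Generic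

variable {K : Type u} {L' : Type v} [Field K] [Field L'] (φ : K →+* L') (A : ValuationSubring L')
  {F : Type w} [Field F] (e : F →+* LaurentSeries L')

/-- residues descend with the expansion (restatement of `Ker85.gaussRes_eq_coeffMap_of_descent`,
kept here to avoid importing the modular-curve files). -/
theorem gaussRes_eq_coeffMap_of_descent' {π : ↥(A.comap φ)} (hπ : IsUnif (A.comap φ) π)
    (u : gaussSub A e) (y : LaurentSeries K) (hy : y ∈ fracField (A.comap φ))
    (he : e (u : F) = coeffMap φ y) :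
    ∃ hy' : y ∈ gaussRing (A.comap φ),
      gaussRes A e u = coeffMap (resO φ A) (gaussRed (A.comap φ) ⟨y, hy'⟩) := by
  have hu : e (u : F) ∈ gaussRing A := u.2
  rw [he] at hu
  have hy' : y ∈ gaussRing (A.comap φ) := (coeffMap_mem_gaussRing_iff hπ hy).1 hu
  refine ⟨hy', ?_⟩
  obtain ⟨a, s, h⟩ := hy'
  have h' : IsIntRep A e (u : F) (coeffMap (inclO φ A) a) (coeffMap (inclO φ A) s) := by
    have := isRep_map (φ := φ) (A := A) h
    rw [← he] at this
    exact this
  rw [gaussRes_eq h', gaussRed_eq (A.comap φ) (f := ⟨y, _⟩) h, map_div₀]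
  exact congrArg₂ (· / ·) (redL_inclO φ A a) (redL_inclO φ A s)

/-- the residue of a constant of `O`. -/
theorem gaussRes_const_of_descent {π : ↥(A.comap φ)} (hπ : IsUnif (A.comap φ) π)
    (u : gaussSub A e) (a : ↥(A.comap φ)) (he : e (u : F) = HahnSeries.C (φ (a : K))) :
    gaussRes A e u = HahnSeries.C (resO φ A (IsLocalRing.residue ↥(A.comap φ) a)) := by
  have hy : (HahnSeries.C (a : K) : LaurentSeries K) ∈ fracField (A.comap φ) := by
    rw [← algebraMap_eq_C]
    exact (fracField (A.comap φ)).algebraMap_mem _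
  obtain ⟨hy', h⟩ := gaussRes_eq_coeffMap_of_descent' φ A e hπ u (HahnSeries.C (a : K)) hy
    (by rw [he, Fermat.Agent.RED.PUR.GaussGen8.coeffMap_C])
  rw [h]
  have h1 : gaussRed (A.comap φ) ⟨HahnSeries.C (a : K), hy'⟩ =
      HahnSeries.C (res0 (A.comap φ) a) := by
    have h2 := gaussRed_embK (A.comap φ) (HahnSeries.C a)
    rw [redL_C] at h2
    rw [← h2]
    congr 1
    exact Subtype.ext (embK_C (A.comap φ) a).symm
  rw [h1, Fermat.Agent.RED.PUR.GaussGen8.coeffMap_C]

end Generic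

section Hub

variable {K : Type u} {L' : Type v} [Field K] [Field L'] (φ : K →+* L') (A : ValuationSubring L')
  [IsDiscreteValuationRing ↥(A.comap φ)]
  {W B0 B1 B01 : Type u} [CommRing W] [CommRing B0] [CommRing B1] [CommRing B01]
  [Algebra W B0] [Algebra W B1] [Algebra W B01] [Algebra B0 B01] [Algebra B1 B01]
  [IsScalarTower W B0 B01] [IsScalarTower W B1 B01]
  (c0 : TwoChart W B0 B1 B01) [Algebra W ↥(A.comap φ)]
  {F' : Type*} [Field F'] [Algebra ↥(A.comap φ) F']
  {F : Type w} [Field F] (e : F →+* LaurentSeries L') (ψ : F' →+* F)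

/-- **`H⁰ = κ` for the component `i` of a nodal hub over `O = A ∩ K`.** -/
theorem h0Const_quotComp_of_descent {π' : ↥(A.comap φ)} (hπ : IsUnif (A.comap φ) π')
    (hg : NodalGood (c0.baseChange ↥(A.comap φ)) π' (Fin 2))
    (hKp : RingHom.ker (algebraMap ↥(A.comap φ) (IsLocalRing.ResidueField ↥(A.comap φ))) =
      Ideal.span {π'})
    (fin0 : Module.Finite (↥(A.comap φ))[X]
      (Module.AEval ↥(A.comap φ) (↥(A.comap φ) ⊗[W] B0) (c0.baseChange ↥(A.comap φ)).t))
    (fin1 : Module.Finite (↥(A.comap φ))[X]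
      (Module.AEval ↥(A.comap φ) (↥(A.comap φ) ⊗[W] B1) (c0.baseChange ↥(A.comap φ)).s))
    (i : Fin 2)
    (htr0 : ∀ q : (↥(A.comap φ))[X], aeval (c0.baseChange ↥(A.comap φ)).t q ∈ hg.P0 i →
      (C π' : (↥(A.comap φ))[X]) ∣ q)
    (htr1 : ∀ q : (↥(A.comap φ))[X], aeval (c0.baseChange ↥(A.comap φ)).s q ∈ hg.P1 i →
      (C π' : (↥(A.comap φ))[X]) ∣ q)
    (hdesc : ∀ x : F', ∃ y : LaurentSeries K, y ∈ fracField (A.comap φ) ∧
      e (ψ x) = coeffMap φ y)
    (hconst : ∀ a : ↥(A.comap φ), e (ψ (algebraMap ↥(A.comap φ) F' a)) = HahnSeries.C (φ (a : K)))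
    (f0 : (↥(A.comap φ) ⊗[W] B0) →+* F')
    (hf0 : ∀ a : ↥(A.comap φ), f0 (algebraMap ↥(A.comap φ) (↥(A.comap φ) ⊗[W] B0) a) =
      algebraMap ↥(A.comap φ) F' a)
    (hmem : ∀ z, ψ (f0 z) ∈ gaussSub A e)
    (hker0 : ∀ z, gaussRes A e ⟨ψ (f0 z), hmem z⟩ = 0 ↔ z ∈ hg.P0 i) :
    Fermat.Agent.T1.Red68.H0Const (quotComp hg i (IsLocalRing.ResidueField ↥(A.comap φ))
      IsLocalRing.residue_surjective hKp fin0 fin1 htr0 htr1).chart := by
  letI : Algebra (IsLocalRing.ResidueField ↥(A.comap φ)) (Kap A) := (resO φ A).toAlgebra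
  let r0 : (↥(A.comap φ) ⊗[W] B0) →+* LaurentSeries (Kap A) :=
    (gaussRes A e).comp ((ψ.comp f0).codRestrict (gaussSub A e) hmem)
  refine h0Const_quotComp_of_gauss c0 hg hKp fin0 fin1 i htr0 htr1 r0 hker0 ?_ ?_
  · intro a
    show gaussRes A e ⟨ψ (f0 (algebraMap _ _ a)), hmem _⟩ = _
    exact gaussRes_const_of_descent φ A e hπ _ a (by
      show e (ψ (f0 (algebraMap _ _ a))) = _
      rw [hf0, hconst])
  · intro z
    obtain ⟨y, hy, hyz⟩ := hdesc (f0 z)
    obtain ⟨hy', h⟩ := gaussRes_eq_coeffMap_of_descent' φ A e hπ ⟨ψ (f0 z), hmem z⟩ y hy hyz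
    show (gaussRes A e ⟨ψ (f0 z), hmem z⟩).coeff 0 ∈ _
    rw [h, coeffMap_coeff]
    exact ⟨_, rfl⟩

end Hub

end Fermat.Agent.T1B.Ker85
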