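/-
Fermat/Agent/T1B/Ker85/H0Level.lean (helper85) -- programme T1B (row 38), brick TORUS-INST (K8):
THE HYPOTHESIS `hH0` OF `Ker85.mem_J1L_of_dl_eq_zero_hub` / `mem_J1L_of_delta_eq_zero_level` ON THE
NODAL HUB OVER `O = V.comap φ` (application: `φ = algebraMap ↥L ℚ̄`, `O = AK A L`).

`hH0_hub_of_descent` : for the hub `hg = nodalGood_of_equiv c0 hN.model e0 e1 e01 h0 h1`, two expansions
`e i : F →+* K((q))` and `ψ : F' →+* F` with
* `hO`    : the components are the centres of the two Gauss valuations,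
* `hdesc` : the expansions of `ψ F'` descend to `Frac O((q))` (`Ker85.exists_descent_coe`,
            `Ker85.exists_descent_W`),
* `hconst`: the constants of `O` expand to constants,
every component `quotComp hg i κ(O) ..` has `H⁰ = κ(O)`.
-/
import Mathlib
import Fermat.Agent.T1B.Ker85.AsmHub
import Fermat.Agent.T1B.Ker85.H0Hub

set_option autoImplicit false
set_option linter.unusedSectionVars false
set_option linter.style.haveILetI false

open TensorProduct Polynomial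

namespace Fermat.Agent.T1B.Ker85

open Fermat.Agent.Jac Fermat.Agent.Jac.BaseChange75
open Fermat.Agent.T1B.Hecke3 Fermat.Agent.T1B.RedN3 Fermat.Agent.T1B.Bal60
open Fermat.Agent.T1B.NodalFacts23
open Fermat.Agent.ES.N34.NodalCore13 Fermat.Agent.ES.N34.NumData13
open Fermat.Agent.RED.PUR.GaussGen8 Fermat.Agent.T1B.GaussW95 ModularCurve
open scoped Fermat.Agent.Jac.BaseChange75
open Fermat.Agent.T1.ModelCoh30 (ρ0 ρ1)

universe u v w

variable {Kf : Type u} [Field Kf] {K : Type w} [Field K] (φ : Kf →+* K) (V : ValuationSubring K)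
  [IsDiscreteValuationRing ↥(V.comap φ)]
  {W B0 B1 B01 : Type u} [CommRing W] [CommRing B0] [CommRing B1] [CommRing B01]
  [Algebra W B0] [Algebra W B1] [Algebra W B01] [Algebra B0 B01] [Algebra B1 B01]
  [IsScalarTower W B0 B01] [IsScalarTower W B1 B01]
  (c0 : TwoChart W B0 B1 B01) [Algebra W ↥(V.comap φ)]
  {Lf F' : Type u} [Field Lf] [Field F'] [Algebra ↥(V.comap φ) Lf] [Algebra Lf F']
  [Algebra ↥(V.comap φ) F'] [IsScalarTower ↥(V.comap φ) Lf F']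
  {π' : ↥(V.comap φ)} {t' : F'} {B0' B1' : Subalgebra ↥(V.comap φ) F'}
  {O1' O2' : ValuationSubring F'}
  (hN : NodalNumData ↥(V.comap φ) Lf F' π' t' B0' B1' O1' O2')
  (e0 : (↥(V.comap φ) ⊗[W] B0) ≃ₐ[↥(V.comap φ)] ↥B0')
  (e1 : (↥(V.comap φ) ⊗[W] B1) ≃ₐ[↥(V.comap φ)] ↥B1')
  (e01 : (↥(V.comap φ) ⊗[W] B01) ≃ₐ[↥(V.comap φ)] ↥(B0' ⊔ B1'))
  (h0 : ∀ x : ↥(V.comap φ) ⊗[W] B0,
    e01 (algebraMap (↥(V.comap φ) ⊗[W] B0) (↥(V.comap φ) ⊗[W] B01) x) = ρ0 B0' B1' (e0 x))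
  (h1 : ∀ x : ↥(V.comap φ) ⊗[W] B1,
    e01 (algebraMap (↥(V.comap φ) ⊗[W] B1) (↥(V.comap φ) ⊗[W] B01) x) = ρ1 B0' B1' (e1 x))

/-- **`hH0` on the nodal hub over `O = V.comap φ`.** -/
theorem hH0_hub_of_descent (hπ : IsUnif (V.comap φ) π')
    (hKp : RingHom.ker (algebraMap ↥(V.comap φ) (IsLocalRing.ResidueField ↥(V.comap φ))) =
      Ideal.span {π'})
    (fin0 : Module.Finite (↥(V.comap φ))[X]
      (Module.AEval ↥(V.comap φ) (↥(V.comap φ) ⊗[W] B0) (c0.baseChange ↥(V.comap φ)).t))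
    (fin1 : Module.Finite (↥(V.comap φ))[X]
      (Module.AEval ↥(V.comap φ) (↥(V.comap φ) ⊗[W] B1) (c0.baseChange ↥(V.comap φ)).s))
    (htr0 : ∀ i, ∀ q : (↥(V.comap φ))[X], aeval (c0.baseChange ↥(V.comap φ)).t q ∈
      (nodalGood_of_equiv c0 hN.model e0 e1 e01 h0 h1).P0 i → (C π' : (↥(V.comap φ))[X]) ∣ q)
    (htr1 : ∀ i, ∀ q : (↥(V.comap φ))[X], aeval (c0.baseChange ↥(V.comap φ)).s q ∈
      (nodalGood_of_equiv c0 hN.model e0 e1 e01 h0 h1).P1 i → (C π' : (↥(V.comap φ))[X]) ∣ q)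
    {F : Type v} [Field F] (e : Fin 2 → F →+* LaurentSeries K) (ψ : F' →+* F)
    (hO : ∀ (i : Fin 2) (x : F'), x ∈ comp O1' O2' i ↔ ψ x ∈ gaussSub V (e i))
    (hdesc : ∀ (i : Fin 2) (x : F'), ∃ y : LaurentSeries Kf, y ∈ fracField (V.comap φ) ∧
      e i (ψ x) = coeffMap φ y)
    (hconst : ∀ (i : Fin 2) (a : ↥(V.comap φ)),
      e i (ψ (algebraMap ↥(V.comap φ) F' a)) = HahnSeries.C (φ (a : Kf))) (i : Fin 2) :
    Fermat.Agent.T1.Red68.H0Const
      (quotComp (nodalGood_of_equiv c0 hN.model e0 e1 e01 h0 h1) i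
        (IsLocalRing.ResidueField ↥(V.comap φ)) IsLocalRing.residue_surjective hKp fin0 fin1
        (htr0 i) (htr1 i)).chart := by
  let f0 : (↥(V.comap φ) ⊗[W] B0) →+* F' :=
    (B0'.val : ↥B0' →+* F').comp (e0 : (↥(V.comap φ) ⊗[W] B0) →+* ↥B0')
  have hf0 : ∀ a : ↥(V.comap φ),
      f0 (algebraMap ↥(V.comap φ) (↥(V.comap φ) ⊗[W] B0) a) = algebraMap ↥(V.comap φ) F' a := by
    intro a
    show ((e0 (algebraMap ↥(V.comap φ) (↥(V.comap φ) ⊗[W] B0) a) : ↥B0') : F') = _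
    rw [e0.commutes]
    rfl
  have hmem : ∀ z, ψ (f0 z) ∈ gaussSub V (e i) := fun z =>
    (hO i _).1 (le_comp0 hN.model i _ (e0 z).2)
  refine h0Const_quotComp_of_descent φ V c0 (e i) ψ hπ
    (nodalGood_of_equiv c0 hN.model e0 e1 e01 h0 h1) hKp fin0 fin1 i (htr0 i) (htr1 i)
    (hdesc i) (hconst i) f0 hf0 hmem ?_
  intro z
  exact gaussRes_eq_zero_iff_mem_vertIdeal V (e i) ψ (le_comp0 hN.model i) (hO i)
    (pi_nonunit_comp hN.model i) (unif_comp hN.model i) (e0 z) ⟨ψ (f0 z), hmem z⟩ rfl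

end Fermat.Agent.T1B.Ker85
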