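/-
Fermat/Agent/T1B/Ker85/H0Concrete.lean (helper85) -- programme T1B (row 38), brick TORUS-INST (K9):
`hH0` AT A NUMBER-FIELD LEVEL: `O = AK A L`, `F' = FK (M' q) L`, `F = Fbar (M' q)`,
`ψ = baseChangeHom (M' q) L` (`= Dict59.cL (M' q) L`), `e 0 = coeHom (M' q)` (`= Hecke3.iotaHom`),
`e 1 = W` any expansion with `W (α f) = f(q^q)`, `W (β h) = h`, `W c = c` (`= ALP90.AL1.Wp`).

* `hdesc_numField`, `hconst_numField` : the hypotheses `hdesc`, `hconst` of `Ker85.hH0_hub_of_descent`;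
* `hH0_numField` : `H⁰ = κ(O)` for the two components of the nodal hub over `AK A L`
  (hypothesis `hH0` of `Ker85.mem_J1L_of_dl_eq_zero_hub` / `mem_J1L_of_delta_eq_zero_level`),
  from `hO` alone.
-/
import Mathlib
import Fermat.Agent.T1B.Ker85.H0Level
import Fermat.Agent.T1B.Ker85.CoeffRes

set_option autoImplicit false
set_option linter.unusedSectionVars false
set_option linter.style.haveILetI false

open TensorProduct Polynomial

noncomputable section

namespace Fermat.Agent.T1B.Ker85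

open HahnSeries ModularCurve IntermediateField
open Fermat.Agent.Jac Fermat.Agent.Jac.BaseChange75
open Fermat.Agent.T1B.Hecke3 Fermat.Agent.T1B.RedN3 Fermat.Agent.T1B.Bal60
open Fermat.Agent.T1B.NodalFacts23
open Fermat.Agent.ES.N34.NodalCore13 Fermat.Agent.ES.N34.NumData13
open Fermat.Agent.RED.Interface4 Fermat.Agent.RED.PUR.GaussGen8
open Fermat.Agent.RED.DESC.PlaceExtend27
open Fermat.Agent.T1B.GaussW95 Fermat.Agent.T1B.GaussW77
open scoped Fermat.Agent.Jac.BaseChange75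
open Fermat.Agent.T1.ModelCoh30 (ρ0 ρ1)

set_option synthInstance.maxHeartbeats 400000
set_option maxHeartbeats 1000000

/-! ### Local shortcut instances (instance search at `↥(AK A K)`, `↥(FK N K)` is slow) -/

local instance (priority := high) scAlgKF85 (K : IntermediateField ℚ Qbar) (N : ℕ) [NeZero N] :
    Algebra ↥K ↥(FK N K) := inferInstance

local instance (priority := high) scAlgAK85 (A : ValuationSubring Qbar)
    (K : IntermediateField ℚ Qbar) : Algebra ↥(AK A K) ↥K := inferInstance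

local instance (priority := high) scAlgAF85 (A : ValuationSubring Qbar)
    (K : IntermediateField ℚ Qbar) (N : ℕ) [NeZero N] : Algebra ↥(AK A K) ↥(FK N K) :=
  inferInstance

local instance (priority := high) scTower85 (A : ValuationSubring Qbar)
    (K : IntermediateField ℚ Qbar) (N : ℕ) [NeZero N] :
    IsScalarTower ↥(AK A K) ↥K ↥(FK N K) := inferInstance

variable (A : ValuationSubring Qbar) (L : IntermediateField ℚ Qbar) (M' q : ℕ) [NeZero M']
  [NeZero q]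
  (e : Fin 2 → Fbar (M' * q) →+* LaurentSeries Qbar)
  (he0 : e 0 = coeHom (M' * q))
  (hWα : ∀ f : Fbar M', e 1 (heckeAlphaBar Qbar M' q f) = qExpand Qbar q (f : LaurentSeries Qbar))
  (hWβ : ∀ h : Fbar M', e 1 (heckeBetaBar Qbar M' q h) = (h : LaurentSeries Qbar))
  (hWc : ∀ c : Qbar, e 1 (algebraMap Qbar (Fbar (M' * q)) c) = HahnSeries.C c)

include he0 hWα hWβ hWc in
/-- `hdesc`: both expansions of `FK (M' q) L ⊗ ℚ̄` descend to `Frac O((q))`. -/
theorem hdesc_numField (hq : q.Prime) (hE : FK (M' * q) L ≤ fracField (AK A L)) (i : Fin 2)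
    (x : FK (M' * q) L) :
    ∃ y : LaurentSeries L, y ∈ fracField (AK A L) ∧
      e i (baseChangeHom (M' * q) L x) = coeffMap (algebraMap L Qbar) y := by
  induction i using Fin.cases with
  | zero =>
    rw [he0]
    exact exists_descent_coe (A := A) M' q hE x
  | succ j =>
    have hj : j = 0 := Subsingleton.elim _ _
    subst hj
    exact exists_descent_W (A := A) M' q (e 1) hWα hWβ hWc hq hE x

include he0 hWc in
/-- `hconst`: the constants of `O` expand to constants. -/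
theorem hconst_numField (i : Fin 2) (a : ↥(AK A L)) :
    e i (baseChangeHom (M' * q) L (algebraMap ↥(AK A L) (FK (M' * q) L) a)) =
      HahnSeries.C (algebraMap L Qbar (a : L)) := by
  have h1 : algebraMap ↥(AK A L) (FK (M' * q) L) a = algebraMap L (FK (M' * q) L) (a : L) := rfl
  rw [h1, baseChangeHom_algebraMap]
  induction i using Fin.cases with
  | zero =>
    rw [he0]
    show algebraMap Qbar (LaurentSeries Qbar) _ = _
    exact algebraMap_eq_C _
  | succ j =>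
    have hj : j = 0 := Subsingleton.elim _ _
    subst hj
    exact hWc _

variable {W B0 B1 B01 : Type} [CommRing W] [CommRing B0] [CommRing B1] [CommRing B01]
  [Algebra W B0] [Algebra W B1] [Algebra W B01] [Algebra B0 B01] [Algebra B1 B01]
  [IsScalarTower W B0 B01] [IsScalarTower W B1 B01]
  (c0 : TwoChart W B0 B1 B01)

include he0 hWα hWβ hWc in
/-- **`hH0` at a number-field level**, for a valuation subring `OL` of `L` which is `A ∩ L`
(auxiliary form: instance search does not unfold `AK`). -/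
theorem hH0_numField_aux (OL : ValuationSubring ↥L) (hOL : OL = A.comap (algebraMap ↥L Qbar))
    [Algebra W ↥OL] [IsDiscreteValuationRing ↥OL]
    {π' : ↥OL} {t' : FK (M' * q) L} {B0' B1' : Subalgebra ↥OL (FK (M' * q) L)}
    {O1' O2' : ValuationSubring (FK (M' * q) L)}
    (hN : NodalNumData ↥OL ↥L ↥(FK (M' * q) L) π' t' B0' B1' O1' O2')
    (e0 : (↥OL ⊗[W] B0) ≃ₐ[↥OL] ↥B0')
    (e1 : (↥OL ⊗[W] B1) ≃ₐ[↥OL] ↥B1')
    (e01 : (↥OL ⊗[W] B01) ≃ₐ[↥OL] ↥(B0' ⊔ B1'))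
    (h0 : ∀ x : ↥OL ⊗[W] B0,
      e01 (algebraMap (↥OL ⊗[W] B0) (↥OL ⊗[W] B01) x) = ρ0 B0' B1' (e0 x))
    (h1 : ∀ x : ↥OL ⊗[W] B1,
      e01 (algebraMap (↥OL ⊗[W] B1) (↥OL ⊗[W] B01) x) = ρ1 B0' B1' (e1 x))
    (hq : q.Prime) (hπ : IsUnif OL π')
    (hE : FK (M' * q) L ≤ fracField OL)
    (hKp : RingHom.ker (algebraMap ↥OL (IsLocalRing.ResidueField ↥OL)) = Ideal.span {π'})
    (fin0 : Module.Finite (↥OL)[X] (Module.AEval ↥OL (↥OL ⊗[W] B0) (c0.baseChange ↥OL).t))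
    (fin1 : Module.Finite (↥OL)[X] (Module.AEval ↥OL (↥OL ⊗[W] B1) (c0.baseChange ↥OL).s))
    (htr0 : ∀ i, ∀ r : (↥OL)[X], aeval (c0.baseChange ↥OL).t r ∈
      (nodalGood_of_equiv c0 hN.model e0 e1 e01 h0 h1).P0 i → (C π' : (↥OL)[X]) ∣ r)
    (htr1 : ∀ i, ∀ r : (↥OL)[X], aeval (c0.baseChange ↥OL).s r ∈
      (nodalGood_of_equiv c0 hN.model e0 e1 e01 h0 h1).P1 i → (C π' : (↥OL)[X]) ∣ r)
    (hO : ∀ (i : Fin 2) (x : FK (M' * q) L),
      x ∈ comp O1' O2' i ↔ baseChangeHom (M' * q) L x ∈ gaussSub A (e i))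
    (i : Fin 2) :
    Fermat.Agent.T1.Red68.H0Const
      (quotComp (nodalGood_of_equiv c0 hN.model e0 e1 e01 h0 h1) i
        (IsLocalRing.ResidueField ↥OL) IsLocalRing.residue_surjective hKp fin0 fin1
        (htr0 i) (htr1 i)).chart := by
  subst hOL
  exact hH0_hub_of_descent (algebraMap ↥L Qbar) A c0 hN e0 e1 e01 h0 h1 hπ hKp fin0 fin1 htr0 htr1
    e (baseChangeHom (M' * q) L) hO
    (hdesc_numField A L M' q e he0 hWα hWβ hWc hq hE)
    (hconst_numField A L M' q e he0 hWc) i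

variable [Algebra W ↥(AK A L)] [IsDiscreteValuationRing ↥(AK A L)]
  {π' : ↥(AK A L)} {t' : FK (M' * q) L} {B0' B1' : Subalgebra ↥(AK A L) (FK (M' * q) L)}
  {O1' O2' : ValuationSubring (FK (M' * q) L)}
  (hN : NodalNumData ↥(AK A L) ↥L ↥(FK (M' * q) L) π' t' B0' B1' O1' O2')
  (e0 : (↥(AK A L) ⊗[W] B0) ≃ₐ[↥(AK A L)] ↥B0')
  (e1 : (↥(AK A L) ⊗[W] B1) ≃ₐ[↥(AK A L)] ↥B1')
  (e01 : (↥(AK A L) ⊗[W] B01) ≃ₐ[↥(AK A L)] ↥(B0' ⊔ B1'))
  (h0 : ∀ x : ↥(AK A L) ⊗[W] B0,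
    e01 (algebraMap (↥(AK A L) ⊗[W] B0) (↥(AK A L) ⊗[W] B01) x) = ρ0 B0' B1' (e0 x))
  (h1 : ∀ x : ↥(AK A L) ⊗[W] B1,
    e01 (algebraMap (↥(AK A L) ⊗[W] B1) (↥(AK A L) ⊗[W] B01) x) = ρ1 B0' B1' (e1 x))

include he0 hWα hWβ hWc in
/-- **`hH0` at a number-field level.** -/
theorem hH0_numField (hq : q.Prime) (hπ : IsUnif (AK A L) π')
    (hE : FK (M' * q) L ≤ fracField (AK A L))
    (hKp : RingHom.ker (algebraMap ↥(AK A L) (IsLocalRing.ResidueField ↥(AK A L))) =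
      Ideal.span {π'})
    (fin0 : Module.Finite (↥(AK A L))[X]
      (Module.AEval ↥(AK A L) (↥(AK A L) ⊗[W] B0) (c0.baseChange ↥(AK A L)).t))
    (fin1 : Module.Finite (↥(AK A L))[X]
      (Module.AEval ↥(AK A L) (↥(AK A L) ⊗[W] B1) (c0.baseChange ↥(AK A L)).s))
    (htr0 : ∀ i, ∀ r : (↥(AK A L))[X], aeval (c0.baseChange ↥(AK A L)).t r ∈
      (nodalGood_of_equiv c0 hN.model e0 e1 e01 h0 h1).P0 i → (C π' : (↥(AK A L))[X]) ∣ r)
    (htr1 : ∀ i, ∀ r : (↥(AK A L))[X], aeval (c0.baseChange ↥(AK A L)).s r ∈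
      (nodalGood_of_equiv c0 hN.model e0 e1 e01 h0 h1).P1 i → (C π' : (↥(AK A L))[X]) ∣ r)
    (hO : ∀ (i : Fin 2) (x : FK (M' * q) L),
      x ∈ comp O1' O2' i ↔ baseChangeHom (M' * q) L x ∈ gaussSub A (e i))
    (i : Fin 2) :
    Fermat.Agent.T1.Red68.H0Const
      (quotComp (nodalGood_of_equiv c0 hN.model e0 e1 e01 h0 h1) i
        (IsLocalRing.ResidueField ↥(AK A L)) IsLocalRing.residue_surjective hKp fin0 fin1
        (htr0 i) (htr1 i)).chart :=
  hH0_numField_aux A L M' q e he0 hWα hWβ hWc c0 (AK A L) rfl hN e0 e1 e01 h0 h1 hq hπ hE hKp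
    fin0 fin1 htr0 htr1 hO i

end Fermat.Agent.T1B.Ker85
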