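/-
Fermat/Agent/T1B/Ker85/LevelKer.lean (helper85) -- programme T1B (row 38), brick TORUS-INST (K6):
THE PER-LEVEL FORM OF `δ_ker`.

Setting = helper31's `Hol31.HubAsmDiv` (hub `c0` over `W`, a DVR `O` over `W`, a number field
`L ⊆ ℚ̄` over `O`, a chart isomorphism `E : ChartIso (c0.baseChange L) t`, `[Algebra (O ⊗ B_j) (Fbar M)]`
with `hρ_j`) + the nodal hub of `Ker85.AsmHub` (`hN : NodalNumData O L (FK M L) ..`, chart equivalences
`e0 e1 e01`, the two expansions `e : Fin 2 → Fbar M →+* ℚ̄((q))` with `DeltaInputs`).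

`mem_J1L_of_delta_eq_zero_level` : if `z ∈ J0L c0 O L P00` is `p`-torsion, `x ∈ J(ℚ̄)[p]` is the class
of (one framed representative of) `z` (JSpec-F, as a hypothesis) and both detectors vanish on `x`
(`delta A (e i) p (HD i) x = 0`), then `z ∈ J1L c0 O L P00`.

Proof: `HubAsmDiv.exists_isPData_framingInt_hub` (integral line `Mo`, framing `ε`, `g` with
`frame_j Mo ε ^ p = (cL g)` and `IsPData p (cls Λ) _ (cL g)⁻¹`) ; `Hecke3.delta_eq` + `dl_inv`
(`dl (e i (cL g)) = 0`) ; `Ker85.mem_J1L_of_dl_eq_zero_hub`.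
-/
import Mathlib
import Fermat.Agent.T1B.Ker85.AsmHub
import Fermat.Agent.T1B.Hol31.HubAsmDiv

set_option autoImplicit false
set_option linter.unusedSectionVars false
set_option linter.style.haveILetI false

open TensorProduct Polynomial

namespace Fermat.Agent.T1B.Ker85

open Fermat.Agent.Jac Fermat.Agent.Jac.LineOps39 Fermat.Agent.Jac.JGroup85Pic
open Fermat.Agent.Jac.JSmooth85Alg Fermat.Agent.Jac.BaseChange75
open Fermat.Agent.T1B.Hecke3 Fermat.Agent.T1B.Hol31.Frame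
open Fermat.Agent.T1.RedIface75 Fermat.Agent.T1B.RedN3 Fermat.Agent.T1B.Bal60
open Fermat.Agent.T1B.NodalFacts23
open Fermat.Agent.ES.N34.NodalCore13 Fermat.Agent.ES.N34.NumData13
open Fermat.Agent.T1.Dict59 Fermat.Agent.T1.Adapt96 Fermat.Agent.T1B.Hol31.DictExt
open HahnSeries AlgebraicCurve ModularCurve IntermediateField
open Fermat.Agent.RED.Interface4
open scoped Fermat.Agent.Jac.BaseChange75
open Fermat.Agent.T1.ModelCoh30 (ρ0 ρ1)

set_option synthInstance.maxHeartbeats 400000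
set_option maxHeartbeats 1000000

variable {M : ℕ} [NeZero M] {L : IntermediateField ℚ Qbar} {t : FK M L}
  {W B0 B1 B01 : Type} [CommRing W] [CommRing B0] [CommRing B1] [CommRing B01]
  [Algebra W B0] [Algebra W B1] [Algebra W B01] [Algebra B0 B01] [Algebra B1 B01]
  [IsScalarTower W B0 B01] [IsScalarTower W B1 B01]
  (c0 : TwoChart W B0 B1 B01)
  {O : Type} [CommRing O] [IsDomain O] [IsDiscreteValuationRing O] [Algebra W O]
  [Algebra W L] [Algebra O L] [IsScalarTower W O L]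
  (E : ChartIso (c0.baseChange ↥L) t)
  [Algebra (O ⊗[W] B0) (Fbar M)] [Algebra (O ⊗[W] B1) (Fbar M)] [Algebra (O ⊗[W] B01) (Fbar M)]
  [IsScalarTower (O ⊗[W] B0) (O ⊗[W] B01) (Fbar M)]
  [IsScalarTower (O ⊗[W] B1) (O ⊗[W] B01) (Fbar M)]
  [Algebra O (FK M L)] [IsScalarTower O L (FK M L)]
  {π' : O} {t' : FK M L} {B0' B1' : Subalgebra O (FK M L)} {O1' O2' : ValuationSubring (FK M L)}
  (hN : NodalNumData O L (FK M L) π' t' B0' B1' O1' O2')
  (e0 : (O ⊗[W] B0) ≃ₐ[O] ↥B0') (e1 : (O ⊗[W] B1) ≃ₐ[O] ↥B1')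
  (e01 : (O ⊗[W] B01) ≃ₐ[O] ↥(B0' ⊔ B1'))
  (h0 : ∀ x : O ⊗[W] B0, e01 (algebraMap (O ⊗[W] B0) (O ⊗[W] B01) x) = ρ0 B0' B1' (e0 x))
  (h1 : ∀ x : O ⊗[W] B1, e01 (algebraMap (O ⊗[W] B1) (O ⊗[W] B01) x) = ρ1 B0' B1' (e1 x))

/-- **`δ_ker` at one finite level** (JSpec-F in existential form). -/
theorem mem_J1L_of_delta_eq_zero_level
    (hπ : IsLocalRing.maximalIdeal O = Ideal.span {π'})
    (hKp : RingHom.ker (algebraMap O (IsLocalRing.ResidueField O)) = Ideal.span {π'})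
    (fin0 : Module.Finite O[X] (Module.AEval O (O ⊗[W] B0) (c0.baseChange O).t))
    (fin1 : Module.Finite O[X] (Module.AEval O (O ⊗[W] B1) (c0.baseChange O).s))
    (htr0 : ∀ i, ∀ q : O[X], aeval (c0.baseChange O).t q ∈
      (nodalGood_of_equiv c0 hN.model e0 e1 e01 h0 h1).P0 i → (C π' : O[X]) ∣ q)
    (htr1 : ∀ i, ∀ q : O[X], aeval (c0.baseChange O).s q ∈
      (nodalGood_of_equiv c0 hN.model e0 e1 e01 h0 h1).P1 i → (C π' : O[X]) ∣ q)
    (hinj : ExtInjective00 c0 O ↥L (P00 (nodalGood_of_equiv c0 hN.model e0 e1 e01 h0 h1)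
      fun i => quotComp (nodalGood_of_equiv c0 hN.model e0 e1 e01 h0 h1) i
        (IsLocalRing.ResidueField O) IsLocalRing.residue_surjective hKp fin0 fin1
        (htr0 i) (htr1 i)))
    (p : ℕ) [Fact p.Prime] [CharP (IsLocalRing.ResidueField O) p]
    (hroot : ∀ d : IsLocalRing.ResidueField O, ∃ δ : IsLocalRing.ResidueField O, δ ^ p = d)
    (hH0 : ∀ i, Fermat.Agent.T1.Red68.H0Const
      (quotComp (nodalGood_of_equiv c0 hN.model e0 e1 e01 h0 h1) i (IsLocalRing.ResidueField O)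
        IsLocalRing.residue_surjective hKp fin0 fin1 (htr0 i) (htr1 i)).chart)
    -- the two expansions
    (A : ValuationSubring Qbar) (e : Fin 2 → Fbar M →+* LaurentSeries Qbar)
    (HD : ∀ i, DeltaInputs A (e i) p)
    (hF : ∀ z : O ⊗[W] B01,
      algebraMap (O ⊗[W] B01) (Fbar M) z = cL M L ((e01 z : ↥(B0' ⊔ B1')) : FK M L))
    (hO : ∀ (i : Fin 2) (x : FK M L), x ∈ comp O1' O2' i ↔ cL M L x ∈ gaussSub A (e i))
    -- elements with residues of order prime to `p`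
    (u0 v0 : Fin 2 → O ⊗[W] B0)
    (hu0 : ∀ i, u0 i ∉ (nodalGood_of_equiv c0 hN.model e0 e1 e01 h0 h1).P0 i)
    (hv0 : ∀ i, v0 i ∉ (nodalGood_of_equiv c0 hN.model e0 e1 e01 h0 h1).P0 i)
    (huv0 : ∀ i, ¬ (p : ℤ) ∣
      (gaussRes A (e i) (gaussLift A (e i)
        (algebraMap_mem_gaussSub_of_equiv hN e01 A e (cL M L) hF hO i)
        (algebraMap (O ⊗[W] B0) (O ⊗[W] B01) (u0 i)))).order -
      (gaussRes A (e i) (gaussLift A (e i)
        (algebraMap_mem_gaussSub_of_equiv hN e01 A e (cL M L) hF hO i)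
        (algebraMap (O ⊗[W] B0) (O ⊗[W] B01) (v0 i)))).order)
    (u1 v1 : Fin 2 → O ⊗[W] B1)
    (hu1 : ∀ i, u1 i ∉ (nodalGood_of_equiv c0 hN.model e0 e1 e01 h0 h1).P1 i)
    (hv1 : ∀ i, v1 i ∉ (nodalGood_of_equiv c0 hN.model e0 e1 e01 h0 h1).P1 i)
    (huv1 : ∀ i, ¬ (p : ℤ) ∣
      (gaussRes A (e i) (gaussLift A (e i)
        (algebraMap_mem_gaussSub_of_equiv hN e01 A e (cL M L) hF hO i)
        (algebraMap (O ⊗[W] B1) (O ⊗[W] B01) (u1 i)))).order -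
      (gaussRes A (e i) (gaussLift A (e i)
        (algebraMap_mem_gaussSub_of_equiv hN e01 A e (cL M L) hF hO i)
        (algebraMap (O ⊗[W] B1) (O ⊗[W] B01) (v1 i)))).order)
    (hker : ∀ i (w : gaussSub A (e i)), gaussRes A (e i) w ≠ 0 →
      dlog (gaussRes A (e i) w) = 0 →
      ∃ v : gaussSub A (e i), gaussRes A (e i) w = gaussRes A (e i) v ^ p)
    -- the chart isomorphism over `L` and the structure maps to `Fbar M`
    (hρ0 : ∀ r : O ⊗[W] B0, algebraMap (O ⊗[W] B0) (Fbar M) r =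
      cL M L (E.ι0 (algebraMap (O ⊗[W] B0) (↥L ⊗[W] B0) r)))
    (hρ1 : ∀ r : O ⊗[W] B1, algebraMap (O ⊗[W] B1) (Fbar M) r =
      cL M L (E.ι1 (algebraMap (O ⊗[W] B1) (↥L ⊗[W] B1) r)))
    (hρ01 : ∀ r : O ⊗[W] B01, algebraMap (O ⊗[W] B01) (Fbar M) r =
      cL M L (E.e01 (algebraMap (O ⊗[W] B01) (↥L ⊗[W] B01) r)))
    (ht : NonConst M t)
    -- the class, its dictionary and the vanishing of the detectors
    {z : PicX c0 ↥L}
    (hz : z ∈ J0L c0 O ↥L (P00 (nodalGood_of_equiv c0 hN.model e0 e1 e01 h0 h1)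
      fun i => quotComp (nodalGood_of_equiv c0 hN.model e0 e1 e01 h0 h1) i
        (IsLocalRing.ResidueField O) IsLocalRing.residue_surjective hKp fin0 fin1
        (htr0 i) (htr1 i)))
    (hzp : z ^ p = 1)
    (x : ↥(Pic0.torsion Qbar (Fbar M) p))
    (hJ : ∃ (N : QC2 ↥L (↥L ⊗[W] B0) (↥L ⊗[W] B1) (↥L ⊗[W] B01)) (hNl : N.IsLine)
      (φ : Framing E N), LinePic.mk (c0.baseChange ↥L) N hNl = z ∧
        LinePair.cls (framePair E hNl φ) = (x : Pic0 Qbar (Fbar M)))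
    (hδ : ∀ i, delta A (e i) p (HD i) x = 0) :
    z ∈ J1L c0 O ↥L (P00 (nodalGood_of_equiv c0 hN.model e0 e1 e01 h0 h1)
      fun i => quotComp (nodalGood_of_equiv c0 hN.model e0 e1 e01 h0 h1) i
        (IsLocalRing.ResidueField O) IsLocalRing.residue_surjective hKp fin0 fin1
        (htr0 i) (htr1 i)) := by
  have hp : p.Prime := Fact.out
  haveI : CharP (Kap A) p := (HD 0).charP
  obtain ⟨N, hNl, φ, hNz, hcls⟩ := hJ
  obtain ⟨Mo, hMo, ld, hdeg, g, hmem, hpow, hmap, hg, hP, -, hf0, hf1⟩ :=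
    Fermat.Agent.T1B.Hol31.HubAsmDiv.exists_isPData_framingInt_hub c0 O E hρ0 hρ1 hρ01 ht _ hinj hz
      hp.ne_zero hzp hNl hNz φ
  rw [hcls] at hP
  have hg' : cL M L g ≠ 0 := fun h => hg ((cL_injective M L) (h.trans (map_zero _).symm))
  have hdl : ∀ i, dl A (e i (cL M L g)) = 0 := by
    intro i
    have h1 := delta_eq (HD i) x hP
    rw [hδ i, map_inv₀, dl_inv, eq_comm, neg_eq_zero] at h1
    exact h1
  have hK : ∀ c : Qbar, ∃ b : Qbar, b ^ p = c := fun c =>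
    IsAlgClosed.exists_pow_nat_eq c hp.pos
  have key := mem_J1L_of_dl_eq_zero_hub c0 hN e0 e1 e01 h0 h1 hπ hKp fin0 fin1 htr0 htr1 hinj p
    hroot hH0 A e (algebraMap Qbar (Fbar M)) (fun i c => (HD i).e_const c)
    (fun i f hf => (HD i).norm f hf) hK (cL M L) hF hO u0 v0 hu0 hv0 huv0 u1 v1 hu1 hv1 huv1 hker
    ⟨z, hz⟩ (Subtype.ext hzp) hMo hmem hmap
    (Fermat.Agent.T1B.Hol31.FrameInt.framingInt E (cL M L) hρ01 ld φ) (cL M L g) hg' hf0 hf1 hdl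
  exact key

/-- **`δ_ker` at one finite level**, JSpec-F in universal form (the shape of helper80's
`holLog_delta_of_level`). -/
theorem mem_J1L_of_delta_eq_zero_level'
    (hπ : IsLocalRing.maximalIdeal O = Ideal.span {π'})
    (hKp : RingHom.ker (algebraMap O (IsLocalRing.ResidueField O)) = Ideal.span {π'})
    (fin0 : Module.Finite O[X] (Module.AEval O (O ⊗[W] B0) (c0.baseChange O).t))
    (fin1 : Module.Finite O[X] (Module.AEval O (O ⊗[W] B1) (c0.baseChange O).s))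
    (htr0 : ∀ i, ∀ q : O[X], aeval (c0.baseChange O).t q ∈
      (nodalGood_of_equiv c0 hN.model e0 e1 e01 h0 h1).P0 i → (C π' : O[X]) ∣ q)
    (htr1 : ∀ i, ∀ q : O[X], aeval (c0.baseChange O).s q ∈
      (nodalGood_of_equiv c0 hN.model e0 e1 e01 h0 h1).P1 i → (C π' : O[X]) ∣ q)
    (hinj : ExtInjective00 c0 O ↥L (P00 (nodalGood_of_equiv c0 hN.model e0 e1 e01 h0 h1)
      fun i => quotComp (nodalGood_of_equiv c0 hN.model e0 e1 e01 h0 h1) i
        (IsLocalRing.ResidueField O) IsLocalRing.residue_surjective hKp fin0 fin1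
        (htr0 i) (htr1 i)))
    (p : ℕ) [Fact p.Prime] [CharP (IsLocalRing.ResidueField O) p]
    (hroot : ∀ d : IsLocalRing.ResidueField O, ∃ δ : IsLocalRing.ResidueField O, δ ^ p = d)
    (hH0 : ∀ i, Fermat.Agent.T1.Red68.H0Const
      (quotComp (nodalGood_of_equiv c0 hN.model e0 e1 e01 h0 h1) i (IsLocalRing.ResidueField O)
        IsLocalRing.residue_surjective hKp fin0 fin1 (htr0 i) (htr1 i)).chart)
    (A : ValuationSubring Qbar) (e : Fin 2 → Fbar M →+* LaurentSeries Qbar)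
    (HD : ∀ i, DeltaInputs A (e i) p)
    (hF : ∀ z : O ⊗[W] B01,
      algebraMap (O ⊗[W] B01) (Fbar M) z = cL M L ((e01 z : ↥(B0' ⊔ B1')) : FK M L))
    (hO : ∀ (i : Fin 2) (x : FK M L), x ∈ comp O1' O2' i ↔ cL M L x ∈ gaussSub A (e i))
    (u0 v0 : Fin 2 → O ⊗[W] B0)
    (hu0 : ∀ i, u0 i ∉ (nodalGood_of_equiv c0 hN.model e0 e1 e01 h0 h1).P0 i)
    (hv0 : ∀ i, v0 i ∉ (nodalGood_of_equiv c0 hN.model e0 e1 e01 h0 h1).P0 i)
    (huv0 : ∀ i, ¬ (p : ℤ) ∣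
      (gaussRes A (e i) (gaussLift A (e i)
        (algebraMap_mem_gaussSub_of_equiv hN e01 A e (cL M L) hF hO i)
        (algebraMap (O ⊗[W] B0) (O ⊗[W] B01) (u0 i)))).order -
      (gaussRes A (e i) (gaussLift A (e i)
        (algebraMap_mem_gaussSub_of_equiv hN e01 A e (cL M L) hF hO i)
        (algebraMap (O ⊗[W] B0) (O ⊗[W] B01) (v0 i)))).order)
    (u1 v1 : Fin 2 → O ⊗[W] B1)
    (hu1 : ∀ i, u1 i ∉ (nodalGood_of_equiv c0 hN.model e0 e1 e01 h0 h1).P1 i)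
    (hv1 : ∀ i, v1 i ∉ (nodalGood_of_equiv c0 hN.model e0 e1 e01 h0 h1).P1 i)
    (huv1 : ∀ i, ¬ (p : ℤ) ∣
      (gaussRes A (e i) (gaussLift A (e i)
        (algebraMap_mem_gaussSub_of_equiv hN e01 A e (cL M L) hF hO i)
        (algebraMap (O ⊗[W] B1) (O ⊗[W] B01) (u1 i)))).order -
      (gaussRes A (e i) (gaussLift A (e i)
        (algebraMap_mem_gaussSub_of_equiv hN e01 A e (cL M L) hF hO i)
        (algebraMap (O ⊗[W] B1) (O ⊗[W] B01) (v1 i)))).order)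
    (hker : ∀ i (w : gaussSub A (e i)), gaussRes A (e i) w ≠ 0 →
      dlog (gaussRes A (e i) w) = 0 →
      ∃ v : gaussSub A (e i), gaussRes A (e i) w = gaussRes A (e i) v ^ p)
    (hρ0 : ∀ r : O ⊗[W] B0, algebraMap (O ⊗[W] B0) (Fbar M) r =
      cL M L (E.ι0 (algebraMap (O ⊗[W] B0) (↥L ⊗[W] B0) r)))
    (hρ1 : ∀ r : O ⊗[W] B1, algebraMap (O ⊗[W] B1) (Fbar M) r =
      cL M L (E.ι1 (algebraMap (O ⊗[W] B1) (↥L ⊗[W] B1) r)))
    (hρ01 : ∀ r : O ⊗[W] B01, algebraMap (O ⊗[W] B01) (Fbar M) r =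
      cL M L (E.e01 (algebraMap (O ⊗[W] B01) (↥L ⊗[W] B01) r)))
    (ht : NonConst M t)
    {z : PicX c0 ↥L}
    (hz : z ∈ J0L c0 O ↥L (P00 (nodalGood_of_equiv c0 hN.model e0 e1 e01 h0 h1)
      fun i => quotComp (nodalGood_of_equiv c0 hN.model e0 e1 e01 h0 h1) i
        (IsLocalRing.ResidueField O) IsLocalRing.residue_surjective hKp fin0 fin1
        (htr0 i) (htr1 i)))
    (hzp : z ^ p = 1)
    (x : ↥(Pic0.torsion Qbar (Fbar M) p))
    (hJ : ∀ (N : QC2 ↥L (↥L ⊗[W] B0) (↥L ⊗[W] B1) (↥L ⊗[W] B01)) (hNl : N.IsLine)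
      (φ : Framing E N), LinePic.mk (c0.baseChange ↥L) N hNl = z →
        LinePair.cls (framePair E hNl φ) = (x : Pic0 Qbar (Fbar M)))
    (hδ : ∀ i, delta A (e i) p (HD i) x = 0) :
    z ∈ J1L c0 O ↥L (P00 (nodalGood_of_equiv c0 hN.model e0 e1 e01 h0 h1)
      fun i => quotComp (nodalGood_of_equiv c0 hN.model e0 e1 e01 h0 h1) i
        (IsLocalRing.ResidueField O) IsLocalRing.residue_surjective hKp fin0 fin1
        (htr0 i) (htr1 i)) := by
  obtain ⟨N, hNl, hNz⟩ := LinePic.exists_rep z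
  obtain ⟨φ⟩ := nonempty_framing E hNl
  exact mem_J1L_of_delta_eq_zero_level c0 E hN e0 e1 e01 h0 h1 hπ hKp fin0 fin1 htr0 htr1 hinj p
    hroot hH0 A e HD hF hO u0 v0 hu0 hv0 huv0 u1 v1 hu1 hv1 huv1 hker hρ0 hρ1 hρ01 ht hz hzp x
    ⟨N, hNl, φ, hNz.symm, hJ N hNl φ hNz.symm⟩ hδ

end Fermat.Agent.T1B.Ker85
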