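/-
Fermat/Agent/T1B/Ker85/LevelSides.lean (helper85) -- programme T1B (row 38), brick TORUS-INST (K11):
THE PER-LEVEL `δ_ker` FOR THE TWO SIDES `∞`, `W_p(∞)` AT A NUMBER-FIELD LEVEL `O = AK A L`, WITH EVERY
SIDE / MODEL HYPOTHESIS OF `Ker85.mem_J1L_of_delta_eq_zero_level` DISCHARGED:

* `eSide M' p hp hpM : Fin 2 → FF (M' p) →+* ℚ̄((q))` (`0 ↦ iotaHom`, `1 ↦ W_p`), `deltaInputs_side`,
  `deltaSide_eq : Hecke3.deltaSide A M' p hp hpM i x = delta A (eSide .. i) p (deltaInputs_side .. i) x`;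
* `mem_J1L_of_deltaSide_eq_zero` : for the nodal hub `hg = nodalGood_of_equiv c0 hN.model e0 e1 e01 h0 h1`
  over `O = AK A L` (`hN : NodalNumData O L (FK (M' p) L) π' t' B0' B1' (O1 ..) (O2 ..)`) and
  `E : ChartIso (c0.baseChange L) t` compatible with `e01` (`hcompat`):
  `z ∈ J0L`, `z ^ p = 1`, JSpec-F (`hJ`), `deltaSide i x = 0` for both sides ⇒ `z ∈ J1L`.

Discharged here: `hπ hKp` (`TorusInst21.Roots`), `hroot`, `CharP κ(O) p`, `hH0` (`Ker85.hH0_numField`),
`hO` (`TorusInst21.hO_sides`), the elements `u_j v_j` (`TorusInst21.exists_ord_elts`), `hker`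
(`Hecke16.ker_side1/2`), `HD` (`Hecke3.deltaInputs1/2`), the `Fbar`-algebra structures
(`Hol31.HubInst.algF0/1/01`).  Left: the finiteness/transversality/injectivity inputs of helper30
(`fin0 fin1 htr0 htr1 hinj`), the membership of `t, y, t⁻¹, y⁻¹` in the charts, `E`, `hJ`.
-/
import Mathlib
import Fermat.Agent.T1B.Ker85.LevelKer
import Fermat.Agent.T1B.Ker85.H0Concrete
import Fermat.Agent.T1B.Hol31.HubInst
import Fermat.Agent.T1B.TorusInst21.HubElts
import Fermat.Agent.T1B.TorusInst21.HubHO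
import Fermat.Agent.T1B.TorusInst21.Roots
import Fermat.Agent.T1B.Hecke16.KerInst
import Fermat.Agent.T1B.Hecke3.Pack

set_option autoImplicit false
set_option linter.unusedSectionVars false
set_option linter.style.haveILetI false

open TensorProduct Polynomial

noncomputable section

namespace Fermat.Agent.T1B.Ker85

open Fermat.Agent.Jac Fermat.Agent.Jac.LineOps39 Fermat.Agent.Jac.JGroup85Pic
open Fermat.Agent.Jac.JSmooth85Alg Fermat.Agent.Jac.BaseChange75
open Fermat.Agent.T1B.Hecke3 Fermat.Agent.T1B.Hol31.Frame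
open Fermat.Agent.T1.RedIface75 Fermat.Agent.T1B.RedN3 Fermat.Agent.T1B.Bal60
open Fermat.Agent.T1B.NodalFacts23
open Fermat.Agent.ES.N34.NodalCore13 Fermat.Agent.ES.N34.NumData13
open Fermat.Agent.ES.N34.ModelDefs9
open Fermat.Agent.T1.Dict59 Fermat.Agent.T1.Adapt96 Fermat.Agent.T1B.Hol31.DictExt
open Fermat.Agent.T1B.Hol31.HubInst
open HahnSeries AlgebraicCurve ModularCurve IntermediateField
open Fermat.Agent.X0
open Fermat.Agent.RED.Interface4 Fermat.Agent.RED.PUR.GaussGen8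
open Fermat.Agent.RED.BASE.EtaQuot12
open Fermat.Agent.RED.DESC.PlaceExtend27
open Fermat.Agent.T1B.ALP90.AL1
open scoped Fermat.Agent.Jac.BaseChange75
open Fermat.Agent.T1.ModelCoh30 (ρ0 ρ1)

set_option synthInstance.maxHeartbeats 400000
set_option maxHeartbeats 1000000

/-! ### Local shortcut instances (instance search at `↥(AK A K)`, `↥(FK N K)` is slow) -/

local instance (priority := high) scAlgKF85s (K : IntermediateField ℚ Qbar) (N : ℕ) [NeZero N] :
    Algebra ↥K ↥(FK N K) := inferInstance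

local instance (priority := high) scAlgAK85s (A : ValuationSubring Qbar)
    (K : IntermediateField ℚ Qbar) : Algebra ↥(AK A K) ↥K := inferInstance

local instance (priority := high) scAlgAF85s (A : ValuationSubring Qbar)
    (K : IntermediateField ℚ Qbar) (N : ℕ) [NeZero N] : Algebra ↥(AK A K) ↥(FK N K) :=
  inferInstance

local instance (priority := high) scTower85s (A : ValuationSubring Qbar)
    (K : IntermediateField ℚ Qbar) (N : ℕ) [NeZero N] :
    IsScalarTower ↥(AK A K) ↥K ↥(FK N K) := inferInstance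

/-! ### The two expansions -/

section Sides

variable (M' p : ℕ) [NeZero M'] [NeZero p] (hp : p.Prime) (hpM : ¬ p ∣ M')

/-- The two expansions: side `0` = cusp `∞`, side `1` = cusp `w_p(∞)`. -/
def eSide : Fin 2 → FF (M' * p) →+* LaurentSeries Qbar :=
  Fin.cases (iotaHom (M' * p)) (fun _ => Wp M' p hp hpM)

@[simp] theorem eSide_zero : eSide M' p hp hpM 0 = iotaHom (M' * p) := rfl

@[simp] theorem eSide_one : eSide M' p hp hpM 1 = Wp M' p hp hpM := rfl

variable (A : ValuationSubring Qbar) [CharP (Kap A) p]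

/-- `DeltaInputs` for both sides. -/
theorem deltaInputs_side (i : Fin 2) : DeltaInputs A (eSide M' p hp hpM i) p := by
  induction i using Fin.cases with
  | zero => exact deltaInputs1 A p (M' * p)
  | succ j =>
    have hj : j = 0 := Subsingleton.elim _ _
    subst hj
    exact deltaInputs2 A M' p hp hpM

/-- `Hecke3.deltaSide` is `delta` along `eSide`. -/
theorem deltaSide_eq (i : Fin 2) (x : ↥(Pic0.torsion Qbar (FF (M' * p)) p)) :
    deltaSide A M' p hp hpM i x =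
      delta A (eSide M' p hp hpM i) p (deltaInputs_side M' p hp hpM A i) x := by
  induction i using Fin.cases with
  | zero => rfl
  | succ j =>
    have hj : j = 0 := Subsingleton.elim _ _
    subst hj
    rfl

/-- `hker` for both sides. -/
theorem hker_side [Fact p.Prime] (hA : A.LiesOverPrime p) (i : Fin 2)
    (w : gaussSub A (eSide M' p hp hpM i)) (hw : gaussRes A (eSide M' p hp hpM i) w ≠ 0)
    (hd : dlog (gaussRes A (eSide M' p hp hpM i) w) = 0) :
    ∃ v : gaussSub A (eSide M' p hp hpM i),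
      gaussRes A (eSide M' p hp hpM i) w = gaussRes A (eSide M' p hp hpM i) v ^ p := by
  induction i using Fin.cases with
  | zero =>
    exact Fermat.Agent.T1B.Hecke16.ker_side1 A (iotaHom (M' * p)) (fun _ => rfl) p hA w hw hd
  | succ j =>
    have hj : j = 0 := Subsingleton.elim _ _
    subst hj
    exact Fermat.Agent.T1B.Hecke16.ker_side2 A (Wp M' p hp hpM) (Wp_beta M' p hp hpM) p hA w hw hd

end Sides

/-- the two coefficientwise base changes agree. -/
theorem cL_eq_baseChangeHom (M : ℕ) (L : IntermediateField ℚ Qbar) :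
    cL M L = baseChangeHom M L :=
  RingHom.ext fun _ => Subtype.ext rfl

/-! ### The per-level `δ_ker` for the two sides -/

variable (A : ValuationSubring Qbar) (L : IntermediateField ℚ Qbar) [FiniteDimensional ℚ L]
  (M' p : ℕ) [NeZero M'] [NeZero p] [Fact p.Prime] (hpM : ¬ p ∣ M') (hA : A.LiesOverPrime p)
  [CharP (Kap A) p] {n e' : ℕ} [NeZero n]
  (htL : tq (↥L) n e' ∈ FK M' L)
  (hjt : jqModC (↥L) ∈ IntermediateField.adjoin (↥L) {tq (↥L) n e'})
  {π' : ↥(AK A L)} (hπ' : IsUnif (AK A L) π') (hE' : FK (M' * p) L ≤ fracField (AK A L))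
  {t : FK (M' * p) L}
  {W B0 B1 B01 : Type} [CommRing W] [CommRing B0] [CommRing B1] [CommRing B01]
  [Algebra W B0] [Algebra W B1] [Algebra W B01] [Algebra B0 B01] [Algebra B1 B01]
  [IsScalarTower W B0 B01] [IsScalarTower W B1 B01]
  (c0 : TwoChart W B0 B1 B01)
  [IsDiscreteValuationRing ↥(AK A L)] [Algebra W ↥(AK A L)]
  [Algebra W L] [IsScalarTower W ↥(AK A L) L]
  (E : ChartIso (c0.baseChange ↥L) t)
  {t' : FK (M' * p) L} {B0' B1' : Subalgebra ↥(AK A L) (FK (M' * p) L)}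
  (hN : NodalNumData ↥(AK A L) ↥L ↥(FK (M' * p) L) π' t' B0' B1'
    (O1 M' p hπ' hE') (O2 M' p hπ' hE'))
  (e0 : (↥(AK A L) ⊗[W] B0) ≃ₐ[↥(AK A L)] ↥B0')
  (e1 : (↥(AK A L) ⊗[W] B1) ≃ₐ[↥(AK A L)] ↥B1')
  (e01 : (↥(AK A L) ⊗[W] B01) ≃ₐ[↥(AK A L)] ↥(B0' ⊔ B1'))
  (h0 : ∀ x : ↥(AK A L) ⊗[W] B0,
    e01 (algebraMap (↥(AK A L) ⊗[W] B0) (↥(AK A L) ⊗[W] B01) x) = ρ0 B0' B1' (e0 x))
  (h1 : ∀ x : ↥(AK A L) ⊗[W] B1,
    e01 (algebraMap (↥(AK A L) ⊗[W] B1) (↥(AK A L) ⊗[W] B01) x) = ρ1 B0' B1' (e1 x))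

include hA hjt in
/-- **`δ_ker` at the number-field level `L`, both sides.** -/
theorem mem_J1L_of_deltaSide_eq_zero
    (fin0 : Module.Finite (↥(AK A L))[X]
      (Module.AEval ↥(AK A L) (↥(AK A L) ⊗[W] B0) (c0.baseChange ↥(AK A L)).t))
    (fin1 : Module.Finite (↥(AK A L))[X]
      (Module.AEval ↥(AK A L) (↥(AK A L) ⊗[W] B1) (c0.baseChange ↥(AK A L)).s))
    (htr0 : ∀ i, ∀ r : (↥(AK A L))[X], aeval (c0.baseChange ↥(AK A L)).t r ∈
      (nodalGood_of_equiv c0 hN.model e0 e1 e01 h0 h1).P0 i → (C π' : (↥(AK A L))[X]) ∣ r)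
    (htr1 : ∀ i, ∀ r : (↥(AK A L))[X], aeval (c0.baseChange ↥(AK A L)).s r ∈
      (nodalGood_of_equiv c0 hN.model e0 e1 e01 h0 h1).P1 i → (C π' : (↥(AK A L))[X]) ∣ r)
    (hinj : ExtInjective00 c0 ↥(AK A L) ↥L
      (P00 (nodalGood_of_equiv c0 hN.model e0 e1 e01 h0 h1)
        fun i => quotComp (nodalGood_of_equiv c0 hN.model e0 e1 e01 h0 h1) i
          (IsLocalRing.ResidueField ↥(AK A L)) IsLocalRing.residue_surjective
          (Fermat.Agent.T1B.TorusInst21.hKp_of_isUnif hπ') fin0 fin1 (htr0 i) (htr1 i)))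
    -- the functions `t`, `y` on the charts
    (htB0 : tN p htL ∈ B0') (hyB0 : yN p htL ∈ B0')
    (htB1 : (tN p htL)⁻¹ ∈ B1') (hyB1 : (yN p htL)⁻¹ ∈ B1')
    -- the chart isomorphism over `L` is compatible with `e01`
    (hcompat : ∀ z : ↥(AK A L) ⊗[W] B01,
      E.e01 (algebraMap (↥(AK A L) ⊗[W] B01) (↥L ⊗[W] B01) z) =
        ((e01 z : ↥(B0' ⊔ B1')) : FK (M' * p) L))
    (ht : NonConst (M' * p) t)
    -- the class, its dictionary and the vanishing of the detectors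
    {z : PicX c0 ↥L}
    (hz : z ∈ J0L c0 ↥(AK A L) ↥L
      (P00 (nodalGood_of_equiv c0 hN.model e0 e1 e01 h0 h1)
        fun i => quotComp (nodalGood_of_equiv c0 hN.model e0 e1 e01 h0 h1) i
          (IsLocalRing.ResidueField ↥(AK A L)) IsLocalRing.residue_surjective
          (Fermat.Agent.T1B.TorusInst21.hKp_of_isUnif hπ') fin0 fin1 (htr0 i) (htr1 i)))
    (hzp : z ^ p = 1)
    (x : ↥(Pic0.torsion Qbar (FF (M' * p)) p))
    (hJ : ∃ (N : QC2 ↥L (↥L ⊗[W] B0) (↥L ⊗[W] B1) (↥L ⊗[W] B01)) (hNl : N.IsLine)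
      (φ : Framing E N), LinePic.mk (c0.baseChange ↥L) N hNl = z ∧
        LinePair.cls (framePair E hNl φ) = (x : Pic0 Qbar (FF (M' * p))))
    (hδ : ∀ i, deltaSide A M' p (Fact.out : p.Prime) hpM i x = 0) :
    z ∈ J1L c0 ↥(AK A L) ↥L
      (P00 (nodalGood_of_equiv c0 hN.model e0 e1 e01 h0 h1)
        fun i => quotComp (nodalGood_of_equiv c0 hN.model e0 e1 e01 h0 h1) i
          (IsLocalRing.ResidueField ↥(AK A L)) IsLocalRing.residue_surjective
          (Fermat.Agent.T1B.TorusInst21.hKp_of_isUnif hπ') fin0 fin1 (htr0 i) (htr1 i)) := by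
  have hp : p.Prime := Fact.out
  haveI : CharP (IsLocalRing.ResidueField ↥(AK A L)) p :=
    Fermat.Agent.RED.DESC.NumberFieldDVR27.charP_residueField_AK A L hp hA
  letI := algF0 c0 ↥(AK A L) E
  letI := algF1 c0 ↥(AK A L) E
  letI := algF01 c0 ↥(AK A L) E
  haveI := towerF0 c0 ↥(AK A L) E
  haveI := towerF1 c0 ↥(AK A L) E
  -- `hF`, in both vocabularies
  have hF : ∀ z : ↥(AK A L) ⊗[W] B01,
      algebraMap (↥(AK A L) ⊗[W] B01) (Fbar (M' * p)) z =
        cL (M' * p) L ((e01 z : ↥(B0' ⊔ B1')) : FK (M' * p) L) := by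
    intro z
    show cL (M' * p) L (E.e01 (algebraMap (↥(AK A L) ⊗[W] B01) (↥L ⊗[W] B01) z)) = _
    rw [hcompat]
  have hF' : ∀ z : ↥(AK A L) ⊗[W] B01,
      algebraMap (↥(AK A L) ⊗[W] B01) (FF (M' * p)) z =
        baseChangeHom (M' * p) L ((e01 z : ↥(B0' ⊔ B1')) : ↥(FK (M' * p) L)) := by
    intro z
    rw [← cL_eq_baseChangeHom]
    exact hF z
  -- `hO`, in both vocabularies
  have hO' : ∀ (i : Fin 2) (x : ↥(FK (M' * p) L)),
      x ∈ comp (O1 M' p hπ' hE') (O2 M' p hπ' hE') i ↔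
        baseChangeHom (M' * p) L x ∈ gaussSub A (eSide M' p hp hpM i) :=
    Fermat.Agent.T1B.TorusInst21.hO_sides M' p hp hpM (eSide M' p hp hpM) rfl rfl hA L htL hjt
      hπ' hE'
  have hO : ∀ (i : Fin 2) (x : FK (M' * p) L),
      x ∈ comp (O1 M' p hπ' hE') (O2 M' p hπ' hE') i ↔
        cL (M' * p) L x ∈ gaussSub A (eSide M' p hp hpM i) := by
    intro i x
    rw [cL_eq_baseChangeHom]
    exact hO' i x
  -- the elements `u`, `v`
  obtain ⟨u0, v0, u1, v1, hu0, hv0, huv0, hu1, hv1, huv1⟩ :=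
    Fermat.Agent.T1B.TorusInst21.exists_ord_elts c0 M' p L hN.model e0 e1 e01 h0 h1 A
      (eSide M' p hp hpM) hp hpM rfl rfl hF' hO' htL htB0 hyB0 htB1 hyB1
  have hmem := algebraMap_mem_gaussSub_of_equiv hN e01 A (eSide M' p hp hpM) (cL (M' * p) L)
    hF hO
  -- `hH0`
  have hH0 := hH0_numField A L M' p (eSide M' p hp hpM) rfl
    (fun f => Wp_alpha M' p hp hpM f) (fun f => Wp_beta M' p hp hpM f)
    (fun c => Wp_const M' p hp hpM c) c0 hN e0 e1 e01 h0 h1 hp hπ' hE'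
    (Fermat.Agent.T1B.TorusInst21.hKp_of_isUnif hπ') fin0 fin1 htr0 htr1 hO'
  exact mem_J1L_of_delta_eq_zero_level c0 E hN e0 e1 e01 h0 h1
    (Fermat.Agent.T1B.TorusInst21.hπ_of_isUnif hπ')
    (Fermat.Agent.T1B.TorusInst21.hKp_of_isUnif hπ') fin0 fin1 htr0 htr1 hinj p
    (Fermat.Agent.T1B.TorusInst21.hroot_AK A L hp hA) hH0 A (eSide M' p hp hpM)
    (deltaInputs_side M' p hp hpM A) hF hO u0 v0 hu0 hv0 (huv0 hmem) u1 v1 hu1 hv1 (huv1 hmem)
    (hker_side M' p hp hpM A hA) (fun _ => rfl) (fun _ => rfl) (fun _ => rfl) ht hz hzp x hJ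
    (fun i => by rw [← deltaSide_eq]; exact hδ i)

end Fermat.Agent.T1B.Ker85
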