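/-
Fermat/Agent/T1B/Ker85/LevelUnion.lean (helper85) -- programme T1B (row 38), brick TORUS-INST (K7):
FROM THE PER-LEVEL `δ_ker` TO THE ALGEBRAIC SUBGROUPS `J0a`, `J1a` of helper74 (`AD74.J0a`).

* `Levels.d_zero`, `Levels.d_nsmul` : the dictionary maps are "additive-to-multiplicative";
* `mem_J1a_of_level` : if `x ∈ J0a D`, `p • x = 0` and at every level `i` where `d i x` extends to `P00 i`
  (and is `p`-torsion) some level `j` has `d j x ∈ J1L`, then `x ∈ J1a D`;
* `deltaKer_of_level` : the `δ_ker` field of `Local66.Assembly.LocalGeom` in algebraic form,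
  `x ∈ J0a D → (∀ s, δ s x = 0) → x ∈ J1a D`, from the per-level statement
  (`Ker85.mem_J1L_of_delta_eq_zero_level`).
-/
import Mathlib
import Fermat.Agent.T1B.AD74.J0a

set_option autoImplicit false
set_option linter.unusedSectionVars false

universe u w

open TensorProduct

namespace Fermat.Agent.T1B.Ker85

open Fermat.Agent.Jac Fermat.Agent.Jac.JGroup85Pic Fermat.Agent.Jac.BaseChange75
open Fermat.Agent.T1.RedIface75 Fermat.Agent.T1B.RedN3 Fermat.Agent.T1B.AD74.J0a
open scoped Fermat.Agent.Jac.BaseChange75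

variable {W B0 B1 B01 : Type u} [CommRing W] [CommRing B0] [CommRing B1] [CommRing B01]
  [Algebra W B0] [Algebra W B1] [Algebra W B01] [Algebra B0 B01] [Algebra B1 B01]
  [IsScalarTower W B0 B01] [IsScalarTower W B1 B01]
  {c0 : TwoChart W B0 B1 B01}
  {G : Type w} [AddCommGroup G] {ι : Type w} [Preorder ι] [IsDirected ι (· ≤ ·)] [Nonempty ι]
  {O L : ι → Type u} [∀ i, CommRing (O i)] [∀ i, IsDomain (O i)]
  [∀ i, IsDiscreteValuationRing (O i)] [∀ i, Algebra W (O i)]
  [∀ i, CommRing (L i)] [∀ i, Algebra W (L i)] [∀ i, Algebra (O i) (L i)]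
  [∀ i, IsScalarTower W (O i) (L i)]

theorem Levels.d_zero (D : Levels (G := G) c0 O L) (i : ι) : D.d i 0 = 1 := by
  have h : D.d i 0 * D.d i 0 = D.d i 0 := by rw [← D.d_add, add_zero]
  exact mul_eq_left.mp h

theorem Levels.d_nsmul (D : Levels (G := G) c0 O L) (i : ι) (n : ℕ) (x : G) :
    D.d i (n • x) = D.d i x ^ n := by
  induction n with
  | zero => rw [zero_smul, pow_zero, Levels.d_zero]
  | succ n ih => rw [succ_nsmul, D.d_add, ih, pow_succ]

/-- the dictionary of a `p`-torsion class is `p`-torsion. -/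
theorem Levels.d_pow_eq_one (D : Levels (G := G) c0 O L) (i : ι) {p : ℕ} {x : G}
    (hx : p • x = 0) : D.d i x ^ p = 1 := by
  rw [← Levels.d_nsmul, hx, Levels.d_zero]

/-- **From the levels to `J1a`.** -/
theorem mem_J1a_of_level {D : Levels (G := G) c0 O L} {p : ℕ} {x : G} (hx : x ∈ J0a D)
    (hpx : p • x = 0)
    (hlevel : ∀ i, D.d i x ∈ J0L c0 (O i) (L i) (D.P00 i) → D.d i x ^ p = 1 →
      ∃ j, D.d j x ∈ J1L c0 (O j) (L j) (D.P00 j)) : x ∈ J1a D := by
  obtain ⟨i, hi⟩ := mem_J0a.1 hx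
  exact mem_J1a.2 (hlevel i hi (Levels.d_pow_eq_one D i hpx))

/-- **`δ_ker`, algebraic form**: `x ∈ J0a`, all detectors vanish on `x` ⇒ `x ∈ J1a`, from the per-level
statement.  `T` is the `p`-torsion (`T = ↥(torsP N p)`, `incl` the inclusion into `G`, or `G` itself),
`δ s : T → D'` the detectors. -/
theorem deltaKer_of_level {D : Levels (G := G) c0 O L} {p : ℕ}
    {T : Type*} (incl : T → G) (hT : ∀ x : T, p • incl x = 0)
    {S : Type*} {D' : Type*} [Zero D'] (δ : S → T → D')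
    (hlevel : ∀ (x : T) (i : ι), D.d i (incl x) ∈ J0L c0 (O i) (L i) (D.P00 i) →
      D.d i (incl x) ^ p = 1 → (∀ s, δ s x = 0) →
      ∃ j, D.d j (incl x) ∈ J1L c0 (O j) (L j) (D.P00 j))
    (x : T) (hx : incl x ∈ J0a D) (hδ : ∀ s, δ s x = 0) : incl x ∈ J1a D :=
  mem_J1a_of_level hx (hT x) fun i hi hp => hlevel x i hi hp hδ

end Fermat.Agent.T1B.Ker85
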